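/-
P1 part C, task RR-T (Tate's abstract residue), part 1: traces of finite potent endomorphisms.
Reference: J. Tate, "Residues of differentials on curves", Ann. Sci. ENS 1968, §1.
Pure linear algebra over a field `K`.
-/
import Mathlib

set_option autoImplicit false
set_option linter.unusedSectionVars false
set_option linter.unusedVariables false
set_option linter.style.haveILetI false

namespace Fermat.Agent.Curve.Tate

variable {K : Type*} [Field K] {V : Type*} [AddCommGroup V] [Module K V]

/-! ### 1. traces of finite potent endomorphisms -/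

/-- `W` is a trace witness for `θ`: finite dimensional, `θ`-stable, and containing the range of a
power of `θ`. -/
structure IsWitness (θ : Module.End K V) (W : Submodule K V) : Prop where
  finite : FiniteDimensional K W
  stable : ∀ w ∈ W, θ w ∈ W
  pow_le : ∃ n : ℕ, LinearMap.range (θ ^ n) ≤ W

/-- `θ` is finite potent: some power has finite dimensional range. -/
def FinitePotent (θ : Module.End K V) : Prop :=
  ∃ n : ℕ, FiniteDimensional K (LinearMap.range (θ ^ n))

theorem range_pow_stable (θ : Module.End K V) (n : ℕ) :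
    ∀ w ∈ LinearMap.range (θ ^ n), θ w ∈ LinearMap.range (θ ^ n) := by
  rintro w ⟨v, rfl⟩
  refine ⟨θ v, ?_⟩
  rw [← Module.End.mul_apply, ← Module.End.mul_apply, ← pow_succ, ← pow_succ']

theorem isWitness_range_pow {θ : Module.End K V} {n : ℕ}
    (h : FiniteDimensional K (LinearMap.range (θ ^ n))) : IsWitness θ (LinearMap.range (θ ^ n)) :=
  ⟨h, range_pow_stable θ n, ⟨n, le_rfl⟩⟩

theorem finitePotent_iff_exists_isWitness (θ : Module.End K V) :
    FinitePotent θ ↔ ∃ W, IsWitness θ W := by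
  constructor
  · rintro ⟨n, hn⟩
    exact ⟨_, isWitness_range_pow hn⟩
  · rintro ⟨W, hW⟩
    obtain ⟨n, hn⟩ := hW.pow_le
    haveI := hW.finite
    exact ⟨n, Submodule.finiteDimensional_of_le hn⟩

open Classical in
/-- the trace of a finite potent endomorphism (`0` if `θ` is not finite potent). -/
noncomputable def trFP (θ : Module.End K V) : K :=
  if h : ∃ W, IsWitness θ W then
    haveI := h.choose_spec.finite
    LinearMap.trace K h.choose (θ.restrict h.choose_spec.stable)
  else 0

open Classical in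
/-- trace of `θ` restricted to a stable subspace (junk value `0` if not stable) -/
noncomputable def trOn (θ : Module.End K V) (W : Submodule K V) : K :=
  if h : ∀ w ∈ W, θ w ∈ W then LinearMap.trace K W (θ.restrict h) else 0

theorem trOn_eq {θ : Module.End K V} {W : Submodule K V} (h : ∀ w ∈ W, θ w ∈ W) :
    trOn θ W = LinearMap.trace K W (θ.restrict h) := dif_pos h

/-- one step: `θ U ≤ U₁ ≤ U` -/
theorem trOn_eq_of_map_le {θ : Module.End K V} {U U₁ : Submodule K V} [FiniteDimensional K U]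
    (h₁ : U₁ ≤ U) (hU : U.map θ ≤ U₁) : trOn θ U = trOn θ U₁ := by
  have hUU₁ : ∀ u ∈ U, θ u ∈ U₁ := fun u hu => hU (Submodule.mem_map_of_mem hu)
  have hst : ∀ u ∈ U, θ u ∈ U := fun u hu => h₁ (hUU₁ u hu)
  have hst₁ : ∀ u ∈ U₁, θ u ∈ U₁ := fun u hu => hUU₁ u (h₁ hu)
  haveI : FiniteDimensional K U₁ := Submodule.finiteDimensional_of_le h₁
  rw [trOn_eq hst, trOn_eq hst₁]
  have := LinearMap.trace_comp_comm' (R := K) (θ.restrict hUU₁) (Submodule.inclusion h₁)
  convert this using 2
  · ext x
    rfl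
  · ext x
    rfl

theorem map_pow_le_of_stable {θ : Module.End K V} {W : Submodule K V} (h : ∀ w ∈ W, θ w ∈ W)
    (k : ℕ) : W.map (θ ^ k) ≤ W := by
  induction k with
  | zero => rw [pow_zero, Module.End.one_eq_id, Submodule.map_id]
  | succ k ih =>
    rintro _ ⟨w, hw, rfl⟩
    rw [pow_succ', Module.End.mul_apply]
    exact h _ (ih (Submodule.mem_map_of_mem hw))

/-- `k` steps: `θ^k U ≤ U₁ ≤ U`, both stable -/
theorem trOn_eq_of_pow_map_le {θ : Module.End K V} {U₁ : Submodule K V}
    (hst₁ : ∀ u ∈ U₁, θ u ∈ U₁) :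
    ∀ (k : ℕ) (U : Submodule K V) [FiniteDimensional K U], (∀ u ∈ U, θ u ∈ U) → U₁ ≤ U →
      U.map (θ ^ k) ≤ U₁ → trOn θ U = trOn θ U₁ := by
  intro k
  induction k with
  | zero =>
    intro U _ hst h₁ hk
    have : U ≤ U₁ := by
      rwa [pow_zero, Module.End.one_eq_id, Submodule.map_id] at hk
    rw [le_antisymm this h₁]
  | succ k ih =>
    intro U _ hst h₁ hk
    have hmap : U.map θ ≤ U := by
      rintro _ ⟨u, hu, rfl⟩
      exact hst u hu
    have h₂U : U₁ ⊔ U.map θ ≤ U := sup_le h₁ hmap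
    haveI : FiniteDimensional K ↥(U₁ ⊔ U.map θ) := Submodule.finiteDimensional_of_le h₂U
    have hst₂ : ∀ u ∈ U₁ ⊔ U.map θ, θ u ∈ U₁ ⊔ U.map θ := by
      intro x hx
      obtain ⟨u₁, hu₁, y, hy, rfl⟩ := Submodule.mem_sup.mp hx
      rw [map_add]
      exact Submodule.add_mem _ (Submodule.mem_sup_left (hst₁ u₁ hu₁))
        (Submodule.mem_sup_right (Submodule.mem_map_of_mem (hmap hy)))
    have hk₂ : (U₁ ⊔ U.map θ).map (θ ^ k) ≤ U₁ := by
      rw [Submodule.map_sup]
      refine sup_le (map_pow_le_of_stable hst₁ k) ?_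
      rw [← Submodule.map_comp]
      have : (θ ^ k) ∘ₗ θ = θ ^ (k + 1) := by
        rw [pow_succ]
        rfl
      rw [this]
      exact hk
    rw [trOn_eq_of_map_le h₂U le_sup_right]
    exact ih (U₁ ⊔ U.map θ) hst₂ le_sup_left hk₂

theorem IsWitness.sup {θ : Module.End K V} {W W' : Submodule K V} (h : IsWitness θ W)
    (h' : IsWitness θ W') : IsWitness θ (W ⊔ W') := by
  haveI := h.finite
  haveI := h'.finite
  refine ⟨inferInstance, ?_, ?_⟩
  · intro x hx
    obtain ⟨u, hu, u', hu', rfl⟩ := Submodule.mem_sup.mp hx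
    rw [map_add]
    exact Submodule.add_mem _ (Submodule.mem_sup_left (h.stable u hu))
      (Submodule.mem_sup_right (h'.stable u' hu'))
  · obtain ⟨n, hn⟩ := h.pow_le
    exact ⟨n, hn.trans le_sup_left⟩

theorem IsWitness.trOn_eq_of_le {θ : Module.End K V} {W U : Submodule K V} (h : IsWitness θ W)
    (hU : IsWitness θ U) (hle : W ≤ U) : trOn θ U = trOn θ W := by
  haveI := hU.finite
  obtain ⟨n, hn⟩ := h.pow_le
  refine trOn_eq_of_pow_map_le h.stable n U hU.stable hle ?_
  rintro _ ⟨u, -, rfl⟩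
  exact hn ⟨u, rfl⟩

/-- independence of the witness -/
theorem IsWitness.trOn_eq {θ : Module.End K V} {W W' : Submodule K V} (h : IsWitness θ W)
    (h' : IsWitness θ W') : trOn θ W = trOn θ W' := by
  rw [← h.trOn_eq_of_le (h.sup h') le_sup_left, ← h'.trOn_eq_of_le (h.sup h') le_sup_right]

theorem trFP_eq_trOn {θ : Module.End K V} {W : Submodule K V} (h : IsWitness θ W) :
    trFP θ = trOn θ W := by
  have hex : ∃ W, IsWitness θ W := ⟨W, h⟩
  unfold trFP
  rw [dif_pos hex]
  rw [← Tate.trOn_eq hex.choose_spec.stable]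
  exact hex.choose_spec.trOn_eq h

/-- independence of the witness (key lemma). -/
theorem trFP_eq_of_isWitness {θ : Module.End K V} {W : Submodule K V} (h : IsWitness θ W) :
    trFP θ = (haveI := h.finite; LinearMap.trace K W (θ.restrict h.stable)) := by
  rw [trFP_eq_trOn h, Tate.trOn_eq h.stable]

theorem trFP_of_not_finitePotent {θ : Module.End K V} (h : ¬ FinitePotent θ) : trFP θ = 0 := by
  unfold trFP
  rw [dif_neg]
  rwa [← finitePotent_iff_exists_isWitness]

theorem trFP_of_isNilpotent {θ : Module.End K V} (h : IsNilpotent θ) : trFP θ = 0 := by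
  obtain ⟨n, hn⟩ := h
  have hW : IsWitness θ (⊥ : Submodule K V) := by
    refine ⟨inferInstance, ?_, ⟨n, ?_⟩⟩
    · intro w hw
      rw [Submodule.mem_bot] at hw ⊢
      rw [hw, map_zero]
    · rw [hn]
      simp
  rw [trFP_eq_of_isWitness hW]
  have : (θ.restrict hW.stable) = 0 := by
    ext ⟨x, hx⟩
  rw [this, map_zero]

theorem isWitness_smul {θ : Module.End K V} {W : Submodule K V} (h : IsWitness θ W) (c : K) :
    IsWitness (c • θ) W := by
  refine ⟨h.finite, ?_, ?_⟩
  · intro w hw
    rw [LinearMap.smul_apply]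
    exact W.smul_mem c (h.stable w hw)
  · obtain ⟨n, hn⟩ := h.pow_le
    refine ⟨n, ?_⟩
    rintro _ ⟨v, rfl⟩
    rw [smul_pow, LinearMap.smul_apply]
    exact W.smul_mem _ (hn ⟨v, rfl⟩)

theorem trFP_smul (c : K) (θ : Module.End K V) : trFP (c • θ) = c * trFP θ := by
  by_cases hc : c = 0
  · subst hc
    rw [zero_smul, zero_mul]
    exact trFP_of_isNilpotent ⟨1, by simp⟩
  by_cases hθ : ∃ W, IsWitness θ W
  · obtain ⟨W, hW⟩ := hθ
    have hW' := isWitness_smul hW c
    rw [trFP_eq_of_isWitness hW, trFP_eq_of_isWitness hW']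
    have : (c • θ).restrict hW'.stable = c • θ.restrict hW.stable := by
      ext x
      simp
    rw [this, map_smul, smul_eq_mul]
  · have h1 : ¬ FinitePotent θ := by rwa [finitePotent_iff_exists_isWitness]
    have h2 : ¬ FinitePotent (c • θ) := by
      rw [finitePotent_iff_exists_isWitness]
      rintro ⟨W, hW⟩
      apply hθ
      have := isWitness_smul hW c⁻¹
      rw [smul_smul, inv_mul_cancel₀ hc, one_smul] at this
      exact ⟨W, this⟩
    rw [trFP_of_not_finitePotent h1, trFP_of_not_finitePotent h2, mul_zero]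

/-- additivity with a common witness -/
theorem trFP_add {θ θ' : Module.End K V} {W : Submodule K V} (h : IsWitness θ W)
    (h' : IsWitness θ' W) (h'' : IsWitness (θ + θ') W) :
    trFP (θ + θ') = trFP θ + trFP θ' := by
  rw [trFP_eq_of_isWitness h, trFP_eq_of_isWitness h', trFP_eq_of_isWitness h'']
  have : (θ + θ').restrict h''.stable = θ.restrict h.stable + θ'.restrict h'.stable := by
    ext x
    simp
  rw [this, map_add]

theorem range_mul_map_le (a b c : Module.End K V) :
    (LinearMap.range (a * b)).map c ≤ LinearMap.range (c * a) := by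
  rintro _ ⟨_, ⟨v, rfl⟩, rfl⟩
  exact ⟨b v, rfl⟩

/-- additivity when all products of two of the operators have finite rank -/
theorem trFP_add_of_finite {θ θ' : Module.End K V}
    (h11 : FiniteDimensional K (LinearMap.range (θ * θ)))
    (h12 : FiniteDimensional K (LinearMap.range (θ * θ')))
    (h21 : FiniteDimensional K (LinearMap.range (θ' * θ)))
    (h22 : FiniteDimensional K (LinearMap.range (θ' * θ'))) :
    trFP (θ + θ') = trFP θ + trFP θ' := by
  set W : Submodule K V := LinearMap.range (θ * θ) ⊔ LinearMap.range (θ * θ') ⊔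
    LinearMap.range (θ' * θ) ⊔ LinearMap.range (θ' * θ') with hWdef
  have hfin : FiniteDimensional K W := by
    rw [hWdef]
    infer_instance
  have l11 : LinearMap.range (θ * θ) ≤ W := le_sup_of_le_left (le_sup_of_le_left le_sup_left)
  have l12 : LinearMap.range (θ * θ') ≤ W := le_sup_of_le_left (le_sup_of_le_left le_sup_right)
  have l21 : LinearMap.range (θ' * θ) ≤ W := le_sup_of_le_left le_sup_right
  have l22 : LinearMap.range (θ' * θ') ≤ W := le_sup_right
  have hmapθ : W.map θ ≤ W := by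
    rw [hWdef, Submodule.map_sup, Submodule.map_sup, Submodule.map_sup]
    refine sup_le (sup_le (sup_le ?_ ?_) ?_) ?_
    · exact (range_mul_map_le θ θ θ).trans l11
    · exact (range_mul_map_le θ θ' θ).trans l11
    · exact (range_mul_map_le θ' θ θ).trans l12
    · exact (range_mul_map_le θ' θ' θ).trans l12
  have hmapθ' : W.map θ' ≤ W := by
    rw [hWdef, Submodule.map_sup, Submodule.map_sup, Submodule.map_sup]
    refine sup_le (sup_le (sup_le ?_ ?_) ?_) ?_
    · exact (range_mul_map_le θ θ θ').trans l21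
    · exact (range_mul_map_le θ θ' θ').trans l21
    · exact (range_mul_map_le θ' θ θ').trans l22
    · exact (range_mul_map_le θ' θ' θ').trans l22
  have hstθ : ∀ w ∈ W, θ w ∈ W := fun w hw => hmapθ (Submodule.mem_map_of_mem hw)
  have hstθ' : ∀ w ∈ W, θ' w ∈ W := fun w hw => hmapθ' (Submodule.mem_map_of_mem hw)
  have h : IsWitness θ W := ⟨hfin, hstθ, ⟨2, by rw [pow_two]; exact l11⟩⟩
  have h' : IsWitness θ' W := ⟨hfin, hstθ', ⟨2, by rw [pow_two]; exact l22⟩⟩
  have h'' : IsWitness (θ + θ') W := by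
    refine ⟨hfin, fun w hw => ?_, ⟨2, ?_⟩⟩
    · rw [LinearMap.add_apply]
      exact W.add_mem (hstθ w hw) (hstθ' w hw)
    · rintro _ ⟨v, rfl⟩
      have : ((θ + θ') ^ 2) v = (θ * θ) v + (θ * θ') v + (θ' * θ) v + (θ' * θ') v := by
        rw [pow_two, add_mul, mul_add, mul_add]
        simp only [LinearMap.add_apply]
        abel
      rw [this]
      exact W.add_mem (W.add_mem (W.add_mem (l11 ⟨v, rfl⟩) (l12 ⟨v, rfl⟩)) (l21 ⟨v, rfl⟩))
        (l22 ⟨v, rfl⟩)
  exact trFP_add h h' h''

theorem finitePotent_of_finite_range {θ : Module.End K V}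
    (h : FiniteDimensional K (LinearMap.range θ)) : FinitePotent θ :=
  ⟨1, by rwa [pow_one]⟩

theorem finitePotent_of_finite_range_sq {θ : Module.End K V}
    (h : FiniteDimensional K (LinearMap.range (θ * θ))) : FinitePotent θ :=
  ⟨2, by rwa [pow_two]⟩

theorem comp_pow_succ_apply {V' : Type*} [AddCommGroup V'] [Module K V'] (φ : V →ₗ[K] V')
    (ψ : V' →ₗ[K] V) (n : ℕ) (v' : V') :
    ((φ ∘ₗ ψ) ^ (n + 1)) v' = φ (((ψ ∘ₗ φ) ^ n) (ψ v')) := by
  induction n generalizing v' with
  | zero => simp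
  | succ n ih =>
    rw [pow_succ, Module.End.mul_apply, ih, pow_succ (ψ ∘ₗ φ), Module.End.mul_apply]
    rfl

/-- `tr (φ ψ) = tr (ψ φ)` -/
theorem trFP_comp_comm {V' : Type*} [AddCommGroup V'] [Module K V'] (φ : V →ₗ[K] V')
    (ψ : V' →ₗ[K] V) (h : FinitePotent (ψ ∘ₗ φ)) :
    FinitePotent (φ ∘ₗ ψ) ∧ trFP (φ ∘ₗ ψ) = trFP (ψ ∘ₗ φ) := by
  obtain ⟨W, hW⟩ := (finitePotent_iff_exists_isWitness _).mp h
  haveI := hW.finite
  have hψ : ∀ x ∈ W.map φ, ψ x ∈ W := by
    rintro _ ⟨w, hw, rfl⟩
    exact hW.stable w hw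
  have hW' : IsWitness (φ ∘ₗ ψ) (W.map φ) := by
    refine ⟨inferInstance, ?_, ?_⟩
    · intro x hx
      exact Submodule.mem_map_of_mem (hψ x hx)
    · obtain ⟨n, hn⟩ := hW.pow_le
      refine ⟨n + 1, ?_⟩
      rintro _ ⟨v', rfl⟩
      rw [comp_pow_succ_apply]
      exact Submodule.mem_map_of_mem (hn ⟨ψ v', rfl⟩)
  refine ⟨(finitePotent_iff_exists_isWitness _).mpr ⟨_, hW'⟩, ?_⟩
  rw [trFP_eq_of_isWitness hW', trFP_eq_of_isWitness hW]
  have hφ : ∀ w ∈ W, φ w ∈ W.map φ := fun w hw => Submodule.mem_map_of_mem hw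
  have := LinearMap.trace_comp_comm' (R := K) (φ.restrict hφ) (ψ.restrict hψ)
  convert this.symm using 2
  · ext x
    rfl
  · ext x
    rfl

/-- on a finite dimensional space `trFP` is the usual trace -/
theorem trFP_eq_trace [FiniteDimensional K V] (θ : Module.End K V) :
    trFP θ = LinearMap.trace K V θ := by
  have hW : IsWitness θ (⊤ : Submodule K V) :=
    ⟨inferInstance, fun _ _ => Submodule.mem_top, ⟨0, le_top⟩⟩
  rw [trFP_eq_of_isWitness hW]
  have := LinearMap.trace_conj' (θ.restrict hW.stable) (Submodule.topEquiv (R := K) (M := V))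
  rw [← this]
  congr 1

theorem finitePotent_of_finiteDimensional [FiniteDimensional K V] (θ : Module.End K V) :
    FinitePotent θ := ⟨0, inferInstance⟩

theorem trFP_neg (θ : Module.End K V) : trFP (-θ) = -trFP θ := by
  have := trFP_smul (-1 : K) θ
  rwa [neg_one_smul, neg_one_mul] at this

end Fermat.Agent.Curve.Tate
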