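/-
P1 part C, task RR-T (Tate's abstract residue), part 2: the residue `res^V_A (f dg)`.
Reference: J. Tate, "Residues of differentials on curves", Ann. Sci. ENS 1968, §1-§2.
Pure linear algebra over a field `K`.
-/
import Mathlib
import Fermat.Agent.Lib.Curve.TateTrace

set_option autoImplicit false
set_option linter.unusedSectionVars false
set_option linter.unusedVariables false
set_option linter.style.haveILetI false

namespace Fermat.Agent.Curve.Tate

variable {K : Type*} [Field K] {V : Type*} [AddCommGroup V] [Module K V]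

/-! ### 2. the abstract residue -/

/-- `M ≺ N`: `M` is not much bigger than `N`. -/
def NMB (M N : Submodule K V) : Prop :=
  ∃ W : Submodule K V, FiniteDimensional K W ∧ M ≤ N ⊔ W

theorem NMB.of_le {M N : Submodule K V} (h : M ≤ N) : NMB M N :=
  ⟨⊥, inferInstance, h.trans le_sup_left⟩

theorem NMB.of_finite (M N : Submodule K V) [FiniteDimensional K M] : NMB M N :=
  ⟨M, inferInstance, le_sup_right⟩

theorem NMB.mono_left {M M' N : Submodule K V} (h : NMB M N) (h' : M' ≤ M) : NMB M' N := by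
  obtain ⟨W, hW, hle⟩ := h
  exact ⟨W, hW, h'.trans hle⟩

theorem NMB.trans {M N P : Submodule K V} (h : NMB M N) (h' : NMB N P) : NMB M P := by
  obtain ⟨W, hW, hle⟩ := h
  obtain ⟨W', hW', hle'⟩ := h'
  haveI := hW
  haveI := hW'
  refine ⟨W' ⊔ W, inferInstance, hle.trans ?_⟩
  rw [← sup_assoc]
  exact sup_le_sup_right hle' W

theorem NMB.map {M N : Submodule K V} (h : NMB M N) (θ : Module.End K V) :
    NMB (M.map θ) (N.map θ) := by
  obtain ⟨W, hW, hle⟩ := h
  haveI := hW
  refine ⟨W.map θ, inferInstance, ?_⟩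
  rw [← Submodule.map_sup]
  exact Submodule.map_mono hle

theorem NMB.sup {M M' N : Submodule K V} (h : NMB M N) (h' : NMB M' N) : NMB (M ⊔ M') N := by
  obtain ⟨W, hW, hle⟩ := h
  obtain ⟨W', hW', hle'⟩ := h'
  haveI := hW
  haveI := hW'
  refine ⟨W ⊔ W', inferInstance, sup_le ?_ ?_⟩
  · exact hle.trans (sup_le_sup_left le_sup_left N)
  · exact hle'.trans (sup_le_sup_left le_sup_right N)

/-- `θ` nearly stabilizes `A`: `θ A ≺ A`. -/
def NearStab (A : Submodule K V) (θ : Module.End K V) : Prop := NMB (A.map θ) A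

theorem nearStab_one (A : Submodule K V) : NearStab A (1 : Module.End K V) := by
  refine NMB.of_le ?_
  rw [Module.End.one_eq_id, Submodule.map_id]

theorem NearStab.mul {A : Submodule K V} {θ θ' : Module.End K V} (h : NearStab A θ)
    (h' : NearStab A θ') : NearStab A (θ * θ') := by
  unfold NearStab
  have : A.map (θ * θ') = (A.map θ').map θ := by
    rw [Module.End.mul_eq_comp, Submodule.map_comp]
  rw [this]
  exact (NMB.map h' θ).trans h

theorem map_add_le (A : Submodule K V) (θ θ' : Module.End K V) :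
    A.map (θ + θ') ≤ A.map θ ⊔ A.map θ' := by
  rintro _ ⟨a, ha, rfl⟩
  rw [LinearMap.add_apply]
  exact Submodule.add_mem _ (Submodule.mem_sup_left (Submodule.mem_map_of_mem ha))
    (Submodule.mem_sup_right (Submodule.mem_map_of_mem ha))

theorem map_smul_le (A : Submodule K V) (c : K) (θ : Module.End K V) :
    A.map (c • θ) ≤ A.map θ := by
  rintro _ ⟨a, ha, rfl⟩
  rw [LinearMap.smul_apply]
  exact Submodule.smul_mem _ c (Submodule.mem_map_of_mem ha)

theorem NearStab.add {A : Submodule K V} {θ θ' : Module.End K V} (h : NearStab A θ)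
    (h' : NearStab A θ') : NearStab A (θ + θ') :=
  (NMB.sup h h').mono_left (map_add_le A θ θ')

theorem NearStab.smul {A : Submodule K V} {θ : Module.End K V} (h : NearStab A θ) (c : K) :
    NearStab A (c • θ) :=
  NMB.mono_left h (map_smul_le A c θ)

theorem nearStab_of_stable {A : Submodule K V} {θ : Module.End K V} (h : ∀ a ∈ A, θ a ∈ A) :
    NearStab A θ := by
  refine NMB.of_le ?_
  rintro _ ⟨a, ha, rfl⟩
  exact h a ha

theorem NearStab.neg {A : Submodule K V} {θ : Module.End K V} (h : NearStab A θ) :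
    NearStab A (-θ) := by
  have := h.smul (-1)
  rwa [neg_one_smul] at this

theorem NearStab.sub {A : Submodule K V} {θ θ' : Module.End K V} (h : NearStab A θ)
    (h' : NearStab A θ') : NearStab A (θ - θ') := by
  rw [sub_eq_add_neg]
  exact h.add h'.neg

/-! ### The ideals `E₁`, `E₂` and `E₀` -/

/-- `θ V ≺ A` -/
def InE1 (A : Submodule K V) (θ : Module.End K V) : Prop := NMB (LinearMap.range θ) A

/-- `θ A` is finite dimensional -/
def InE2 (A : Submodule K V) (θ : Module.End K V) : Prop := FiniteDimensional K (A.map θ)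

section ideals

variable {A : Submodule K V} {θ θ' : Module.End K V}

theorem range_add_le (θ θ' : Module.End K V) :
    LinearMap.range (θ + θ') ≤ LinearMap.range θ ⊔ LinearMap.range θ' := by
  rintro _ ⟨v, rfl⟩
  rw [LinearMap.add_apply]
  exact Submodule.add_mem _ (Submodule.mem_sup_left ⟨v, rfl⟩) (Submodule.mem_sup_right ⟨v, rfl⟩)

theorem range_smul_le (c : K) (θ : Module.End K V) :
    LinearMap.range (c • θ) ≤ LinearMap.range θ := by
  rintro _ ⟨v, rfl⟩
  rw [LinearMap.smul_apply]
  exact Submodule.smul_mem _ c ⟨v, rfl⟩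

theorem range_mul_eq (θ θ' : Module.End K V) :
    LinearMap.range (θ * θ') = (LinearMap.range θ').map θ := by
  rw [Module.End.mul_eq_comp, LinearMap.range_comp]

theorem InE1.mul_right (h : InE1 A θ) (θ' : Module.End K V) : InE1 A (θ * θ') :=
  NMB.mono_left h (by rw [Module.End.mul_eq_comp]; exact LinearMap.range_comp_le_range θ' θ)

theorem InE1.mul_left (h : InE1 A θ) (h' : NearStab A θ') : InE1 A (θ' * θ) := by
  unfold InE1
  rw [range_mul_eq]
  exact (NMB.map h θ').trans h'

theorem InE1.add (h : InE1 A θ) (h' : InE1 A θ') : InE1 A (θ + θ') :=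
  (NMB.sup h h').mono_left (range_add_le θ θ')

theorem InE1.smul (h : InE1 A θ) (c : K) : InE1 A (c • θ) :=
  NMB.mono_left h (range_smul_le c θ)

theorem InE2.mul_left (h : InE2 A θ) (θ' : Module.End K V) : InE2 A (θ' * θ) := by
  unfold InE2 at *
  have : A.map (θ' * θ) = (A.map θ).map θ' := by
    rw [Module.End.mul_eq_comp, Submodule.map_comp]
  rw [this]
  infer_instance

theorem InE2.mul_right (h : InE2 A θ) (h' : NearStab A θ') : InE2 A (θ * θ') := by
  unfold InE2 at *
  obtain ⟨W, hW, hle⟩ := h'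
  haveI := hW
  have : A.map (θ * θ') = (A.map θ').map θ := by
    rw [Module.End.mul_eq_comp, Submodule.map_comp]
  rw [this]
  have hle2 : (A.map θ').map θ ≤ A.map θ ⊔ W.map θ := by
    rw [← Submodule.map_sup]
    exact Submodule.map_mono hle
  exact Submodule.finiteDimensional_of_le hle2

theorem InE2.add (h : InE2 A θ) (h' : InE2 A θ') : InE2 A (θ + θ') := by
  unfold InE2 at *
  exact Submodule.finiteDimensional_of_le (map_add_le A θ θ')

theorem InE2.smul (h : InE2 A θ) (c : K) : InE2 A (c • θ) := by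
  unfold InE2 at *
  exact Submodule.finiteDimensional_of_le (map_smul_le A c θ)

/-- a product `θ θ'` with `θ ∈ E₂`, `θ' ∈ E₁` has finite rank -/
theorem finite_range_mul (h2 : InE2 A θ) (h1 : InE1 A θ') :
    FiniteDimensional K (LinearMap.range (θ * θ')) := by
  unfold InE2 at h2
  obtain ⟨W, hW, hle⟩ := h1
  haveI := hW
  rw [range_mul_eq]
  have hle2 : (LinearMap.range θ').map θ ≤ A.map θ ⊔ W.map θ := by
    rw [← Submodule.map_sup]
    exact Submodule.map_mono hle
  exact Submodule.finiteDimensional_of_le hle2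

/-- `E₀ = E₁ ∩ E₂` -/
structure InE0 (A : Submodule K V) (θ : Module.End K V) : Prop where
  e1 : InE1 A θ
  e2 : InE2 A θ

theorem InE0.add (h : InE0 A θ) (h' : InE0 A θ') : InE0 A (θ + θ') :=
  ⟨h.e1.add h'.e1, h.e2.add h'.e2⟩

theorem InE0.smul (h : InE0 A θ) (c : K) : InE0 A (c • θ) := ⟨h.e1.smul c, h.e2.smul c⟩

theorem InE0.neg (h : InE0 A θ) : InE0 A (-θ) := by
  have := h.smul (-1)
  rwa [neg_one_smul] at this

theorem InE0.sub (h : InE0 A θ) (h' : InE0 A θ') : InE0 A (θ - θ') := by
  rw [sub_eq_add_neg]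
  exact h.add h'.neg

theorem InE0.mul_right (h : InE0 A θ) (h' : NearStab A θ') : InE0 A (θ * θ') :=
  ⟨h.e1.mul_right θ', h.e2.mul_right h'⟩

theorem InE0.mul_left (h : InE0 A θ) (h' : NearStab A θ') : InE0 A (θ' * θ) :=
  ⟨h.e1.mul_left h', h.e2.mul_left θ'⟩

theorem InE0.finite_range_mul (h : InE0 A θ) (h' : InE0 A θ') :
    FiniteDimensional K (LinearMap.range (θ * θ')) :=
  Tate.finite_range_mul h.e2 h'.e1

theorem InE0.finitePotent (h : InE0 A θ) : FinitePotent θ :=
  finitePotent_of_finite_range_sq (h.finite_range_mul h)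

theorem InE0.trFP_add (h : InE0 A θ) (h' : InE0 A θ') :
    trFP (θ + θ') = trFP θ + trFP θ' :=
  trFP_add_of_finite (h.finite_range_mul h) (h.finite_range_mul h') (h'.finite_range_mul h)
    (h'.finite_range_mul h')

theorem InE0.trFP_sub (h : InE0 A θ) (h' : InE0 A θ') :
    trFP (θ - θ') = trFP θ - trFP θ' := by
  rw [sub_eq_add_neg, h.trFP_add h'.neg, trFP_neg, sub_eq_add_neg]

end ideals

/-! ### Projections and commutators -/

/-- the projection onto `p` along a complement `q` -/
noncomputable def projOn (p q : Submodule K V) (h : IsCompl p q) : Module.End K V :=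
  p.subtype ∘ₗ p.projectionOnto q h

theorem projOn_of_mem_left {p q : Submodule K V} (h : IsCompl p q) {x : V} (hx : x ∈ p) :
    projOn p q h x = x := by
  simp only [projOn, LinearMap.comp_apply, Submodule.subtype_apply]
  rw [Submodule.projectionOnto_apply_of_mem_left h hx]

theorem projOn_of_mem_right {p q : Submodule K V} (h : IsCompl p q) {x : V} (hx : x ∈ q) :
    projOn p q h x = 0 := by
  simp only [projOn, LinearMap.comp_apply, Submodule.subtype_apply]
  rw [Submodule.projectionOnto_apply_of_mem_right h hx]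
  rfl

theorem isProj_projOn {p q : Submodule K V} (h : IsCompl p q) :
    LinearMap.IsProj p (projOn p q h) :=
  ⟨fun x => Submodule.coe_mem _, fun x hx => projOn_of_mem_left h hx⟩

/-- a chosen projection onto `A` -/
noncomputable def someProj (A : Submodule K V) : Module.End K V :=
  A.subtype ∘ₗ A.projectionOnto _ (Submodule.exists_isCompl A).choose_spec

theorem isProj_someProj (A : Submodule K V) : LinearMap.IsProj A (someProj A) :=
  isProj_projOn (Submodule.exists_isCompl A).choose_spec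

section comm

variable {A : Submodule K V} {f g π : Module.End K V}

theorem IsProj.inE1 (hπ : LinearMap.IsProj A π) : InE1 A π := by
  refine NMB.of_le ?_
  rintro _ ⟨v, rfl⟩
  exact hπ.map_mem v

theorem IsProj.nearStab (hπ : LinearMap.IsProj A π) : NearStab A π :=
  nearStab_of_stable fun a _ => hπ.map_mem a

/-- the commutator `[π, g]` lies in `E₀` -/
theorem comm_inE0 (hπ : LinearMap.IsProj A π) (hg : NearStab A g) :
    InE0 A (π * g - g * π) := by
  have h1 : InE1 A (π * g - g * π) := by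
    have a1 : InE1 A (π * g) := (IsProj.inE1 hπ).mul_right g
    have a2 : InE1 A (g * π) := (IsProj.inE1 hπ).mul_left hg
    have a3 := a1.add (a2.smul (-1))
    rwa [neg_one_smul, ← sub_eq_add_neg] at a3
  refine ⟨h1, ?_⟩
  obtain ⟨W, hW, hle⟩ := hg
  haveI := hW
  unfold InE2
  have hle2 : A.map (π * g - g * π) ≤ W.map (π - 1) := by
    rintro _ ⟨a, ha, rfl⟩
    obtain ⟨a', ha', w, hw, hsum⟩ := Submodule.mem_sup.mp (hle (Submodule.mem_map_of_mem ha))
    refine ⟨w, hw, ?_⟩
    simp only [LinearMap.sub_apply, Module.End.mul_apply, Module.End.one_apply]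
    rw [hπ.map_id a ha, ← hsum, map_add, hπ.map_id a' ha']
    abel
  exact Submodule.finiteDimensional_of_le hle2

theorem comm_mul_inE0 (hπ : LinearMap.IsProj A π) (hf : NearStab A f) (hg : NearStab A g) :
    InE0 A ((π * g - g * π) * f) :=
  (comm_inE0 hπ hg).mul_right hf

/-- if `f`, `g` stabilize `A` then `([π, g] f)² = 0` -/
theorem comm_mul_sq_eq_zero (hπ : LinearMap.IsProj A π) (hf : ∀ a ∈ A, f a ∈ A)
    (hg : ∀ a ∈ A, g a ∈ A) : ((π * g - g * π) * f) * ((π * g - g * π) * f) = 0 := by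
  have hmem : ∀ v, ((π * g - g * π) * f) v ∈ A := by
    intro v
    simp only [LinearMap.sub_apply, Module.End.mul_apply]
    exact A.sub_mem (hπ.map_mem _) (hg _ (hπ.map_mem _))
  have hzero : ∀ a ∈ A, ((π * g - g * π) * f) a = 0 := by
    intro a ha
    simp only [LinearMap.sub_apply, Module.End.mul_apply]
    rw [hπ.map_id _ (hg _ (hf a ha)), hπ.map_id _ (hf a ha), sub_self]
  ext v
  rw [Module.End.mul_apply, hzero _ (hmem v)]
  rfl

end comm

/-- **Tate's residue** `res^V_A (f dg)` for commuting `f g` nearly stabilizing `A`. -/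
noncomputable def tres (A : Submodule K V) (f g : Module.End K V) : K :=
  trFP ((someProj A * g - g * someProj A) * f)

section
variable {A : Submodule K V} {f f' g g' h : Module.End K V}

/-- the commutator operator is finite potent (its square has finite rank) -/
theorem finite_range_sq {π : Module.End K V} (hπ : LinearMap.IsProj A π) (hf : NearStab A f)
    (hg : NearStab A g) :
    FiniteDimensional K (LinearMap.range (((π * g - g * π) * f) * ((π * g - g * π) * f))) :=
  (comm_mul_inE0 hπ hf hg).finite_range_mul (comm_mul_inE0 hπ hf hg)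

/-- the difference of two projections onto `A` lies in `E₀` -/
theorem sub_proj_inE0 {π π' : Module.End K V} (hπ : LinearMap.IsProj A π)
    (hπ' : LinearMap.IsProj A π') : InE0 A (π - π') := by
  refine ⟨?_, ?_⟩
  · have := (IsProj.inE1 hπ).add ((IsProj.inE1 hπ').smul (-1))
    rwa [neg_one_smul, ← sub_eq_add_neg] at this
  · unfold InE2
    have : A.map (π - π') = ⊥ := by
      rw [eq_bot_iff]
      rintro _ ⟨a, ha, rfl⟩
      rw [LinearMap.sub_apply, hπ.map_id a ha, hπ'.map_id a ha, sub_self]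
      exact Submodule.zero_mem _
    rw [this]
    infer_instance

/-- `Tr ([δ, g] f) = 0` for `δ ∈ E₀` and commuting `f`, `g` in `E` -/
theorem trFP_comm_of_inE0 {δ : Module.End K V} (hδ : InE0 A δ) (hf : NearStab A f)
    (hg : NearStab A g) (hfg : Commute f g) : trFP ((δ * g - g * δ) * f) = 0 := by
  have e1 : (δ * g - g * δ) * f = δ * g * f - g * (δ * f) := by
    rw [sub_mul, mul_assoc g δ f]
  have h1 : InE0 A (δ * g * f) := (hδ.mul_right hg).mul_right hf
  have h2 : InE0 A (g * (δ * f)) := (hδ.mul_right hf).mul_left hg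
  rw [e1, h1.trFP_sub h2]
  have := (trFP_comp_comm (δ * f) g h2.finitePotent).2
  have e2 : (δ * f) ∘ₗ g = δ * g * f := by
    rw [← Module.End.mul_eq_comp, mul_assoc, hfg.eq, ← mul_assoc]
  rw [e2] at this
  rw [this]
  exact sub_self _

/-- independence of the projection -/
theorem tres_eq {π : Module.End K V} (hπ : LinearMap.IsProj A π) (hf : NearStab A f)
    (hg : NearStab A g) (hfg : Commute f g) :
    tres A f g = trFP ((π * g - g * π) * f) := by
  unfold tres
  set π₀ := someProj A with hπ₀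
  have hπ₀' : LinearMap.IsProj A π₀ := isProj_someProj A
  have hδ := sub_proj_inE0 hπ₀' hπ
  have e : (π₀ * g - g * π₀) * f =
      (π * g - g * π) * f + ((π₀ - π) * g - g * (π₀ - π)) * f := by
    noncomm_ring
  have hX : InE0 A ((π * g - g * π) * f) := comm_mul_inE0 hπ hf hg
  have hD : InE0 A (((π₀ - π) * g - g * (π₀ - π)) * f) := by
    have := (comm_mul_inE0 hπ₀' hf hg).sub hX
    have e' : (π₀ * g - g * π₀) * f - (π * g - g * π) * f =
        ((π₀ - π) * g - g * (π₀ - π)) * f := by noncomm_ring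
    rwa [e'] at this
  rw [e, hX.trFP_add hD, trFP_comm_of_inE0 hδ hf hg hfg, add_zero]

theorem tres_add_left (hf : NearStab A f) (hf' : NearStab A f') (hg : NearStab A g)
    (hfg : Commute f g) (hfg' : Commute f' g) :
    tres A (f + f') g = tres A f g + tres A f' g := by
  unfold tres
  have hπ := isProj_someProj A
  rw [mul_add]
  exact (comm_mul_inE0 hπ hf hg).trFP_add (comm_mul_inE0 hπ hf' hg)

theorem tres_smul_left (c : K) : tres A (c • f) g = c * tres A f g := by
  unfold tres
  rw [mul_smul_comm, trFP_smul]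

theorem tres_add_right (hf : NearStab A f) (hg : NearStab A g) (hg' : NearStab A g')
    (hfg : Commute f g) (hfg' : Commute f g') :
    tres A f (g + g') = tres A f g + tres A f g' := by
  unfold tres
  have hπ := isProj_someProj A
  have e : (someProj A * (g + g') - (g + g') * someProj A) * f =
      (someProj A * g - g * someProj A) * f + (someProj A * g' - g' * someProj A) * f := by
    noncomm_ring
  rw [e]
  exact (comm_mul_inE0 hπ hf hg).trFP_add (comm_mul_inE0 hπ hf hg')

theorem tres_smul_right (c : K) : tres A f (c • g) = c * tres A f g := by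
  unfold tres
  have e : (someProj A * (c • g) - (c • g) * someProj A) * f =
      c • ((someProj A * g - g * someProj A) * f) := by
    rw [mul_smul_comm, smul_mul_assoc, ← smul_sub, smul_mul_assoc]
  rw [e, trFP_smul]

/-- `res (f dc) = 0` for scalars `c` -/
theorem tres_scalar_right (c : K) : tres A f (c • (1 : Module.End K V)) = 0 := by
  unfold tres
  have e : (someProj A * (c • (1 : Module.End K V)) - (c • (1 : Module.End K V)) * someProj A) * f
      = 0 := by
    rw [mul_smul_comm, smul_mul_assoc, mul_one, one_mul, sub_self, zero_mul]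
  rw [e]
  exact trFP_of_isNilpotent ⟨1, pow_one 0⟩

/-- Leibniz rule `res (f d(gh)) = res (fg dh) + res (fh dg)` -/
theorem tres_mul_right (hf : NearStab A f) (hg : NearStab A g) (hh : NearStab A h)
    (hfg : Commute f g) (hfh : Commute f h) (hgh : Commute g h) :
    tres A f (g * h) = tres A (f * g) h + tres A (f * h) g := by
  unfold tres
  set π := someProj A with hπdef
  have hπ : LinearMap.IsProj A π := isProj_someProj A
  have e : (π * (g * h) - g * h * π) * f =
      g * ((π * h - h * π) * f) + (π * g - g * π) * (f * h) := by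
    have : h * f = f * h := hfh.eq.symm
    calc (π * (g * h) - g * h * π) * f
        = g * ((π * h - h * π) * f) + (π * g - g * π) * (h * f) := by noncomm_ring
      _ = _ := by rw [this]
  have h1 : InE0 A (g * ((π * h - h * π) * f)) := (comm_mul_inE0 hπ hf hh).mul_left hg
  have h2 : InE0 A ((π * g - g * π) * (f * h)) := comm_mul_inE0 hπ (hf.mul hh) hg
  rw [e, h1.trFP_add h2]
  congr 1
  have := (trFP_comp_comm ((π * h - h * π) * f) g h1.finitePotent).2
  rw [← Module.End.mul_eq_comp, ← Module.End.mul_eq_comp, mul_assoc] at this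
  rw [← this]

/-- (R1) `res (f dg) = 0` if `f` and `g` stabilize `A` -/
theorem tres_eq_zero_of_stable (hf : ∀ a ∈ A, f a ∈ A) (hg : ∀ a ∈ A, g a ∈ A)
    (hfg : Commute f g) : tres A f g = 0 := by
  unfold tres
  refine trFP_of_isNilpotent ⟨2, ?_⟩
  rw [pow_two]
  exact comm_mul_sq_eq_zero (isProj_someProj A) hf hg

/-- (R3) `res (g⁻¹ dg) = dim A / gA` if `gA ⊆ A` -/
theorem tres_inv_self (h1 : g * g' = 1) (h2 : g' * g = 1) (hg : ∀ a ∈ A, g a ∈ A)
    (hfin : FiniteDimensional K (↥A ⧸ (A.map g).submoduleOf A)) :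
    tres A g' g = (Module.finrank K (↥A ⧸ (A.map g).submoduleOf A) : K) := by
  unfold tres
  set π := someProj A with hπdef
  have hπ : LinearMap.IsProj A π := isProj_someProj A
  set X := (π * g - g * π) * g' with hX
  have hgg' : ∀ v, g (g' v) = v := fun v => by
    rw [← Module.End.mul_apply, h1]
    rfl
  have hg'g : ∀ v, g' (g v) = v := fun v => by
    rw [← Module.End.mul_apply, h2]
    rfl
  have hXv : ∀ v, X v = π v - g (π (g' v)) := by
    intro v
    simp only [hX, LinearMap.sub_apply, Module.End.mul_apply]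
    rw [hgg']
  have hXA : ∀ v, X v ∈ A := fun v => by
    rw [hXv]
    exact A.sub_mem (hπ.map_mem v) (hg _ (hπ.map_mem _))
  set X' : V →ₗ[K] A := X.codRestrict A hXA with hX'
  set Y : A →ₗ[K] A := X' ∘ₗ A.subtype with hY
  have hYa : ∀ a : A, ((Y a : A) : V) = (a : V) - g (π (g' (a : V))) := by
    intro a
    simp only [hY, hX', LinearMap.comp_apply, LinearMap.codRestrict_apply, Submodule.subtype_apply]
    rw [hXv, hπ.map_id _ a.2]
  set S : Submodule K A := (A.map g).submoduleOf A with hS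
  have hmemS : ∀ a : A, a ∈ S ↔ (a : V) ∈ A.map g := fun a => Iff.rfl
  have hYS : S ≤ LinearMap.ker Y := by
    intro a ha
    rw [hmemS] at ha
    obtain ⟨a₀, ha₀, hga⟩ := ha
    rw [LinearMap.mem_ker]
    apply Subtype.ext
    rw [hYa, ← hga, hg'g, hπ.map_id a₀ ha₀, sub_self]
    rfl
  set σ : (A ⧸ S) →ₗ[K] A := S.liftQ Y hYS with hσ
  have hσp : σ ∘ₗ S.mkQ = Y := Submodule.liftQ_mkQ S Y hYS
  have hpσ : S.mkQ ∘ₗ σ = LinearMap.id := by
    apply Submodule.linearMap_qext
    ext a
    have e1 : σ (S.mkQ a) = Y a := LinearMap.congr_fun hσp a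
    simp only [LinearMap.comp_apply, LinearMap.id_comp]
    rw [e1, Submodule.mkQ_apply, Submodule.mkQ_apply, Submodule.Quotient.eq, hmemS]
    refine ⟨-π (g' (a : V)), A.neg_mem (hπ.map_mem _), ?_⟩
    rw [Submodule.coe_sub, hYa, map_neg]
    abel
  haveI := hfin
  -- first `comp_comm`: through `A ⧸ gA`
  have hfp1 : FinitePotent (S.mkQ ∘ₗ σ) := finitePotent_of_finiteDimensional _
  obtain ⟨hfpY, htrY⟩ := trFP_comp_comm σ S.mkQ hfp1
  rw [hσp] at hfpY htrY
  rw [hpσ, trFP_eq_trace (LinearMap.id : (A ⧸ S) →ₗ[K] (A ⧸ S))] at htrY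
  have hid : LinearMap.trace K (A ⧸ S) LinearMap.id = (Module.finrank K (A ⧸ S) : K) :=
    LinearMap.trace_id K (A ⧸ S)
  rw [hid] at htrY
  -- second `comp_comm`: through `A`
  obtain ⟨_, htrX⟩ := trFP_comp_comm A.subtype X' hfpY
  have hXeq : A.subtype ∘ₗ X' = X := by
    ext v
    rfl
  rw [hXeq] at htrX
  rw [htrX, htrY]

/-- relative complement: for `P ≤ Q` there is `R ≤ Q` with `P ⊕ R = Q` -/
theorem exists_rel_compl {P Q : Submodule K V} (h : P ≤ Q) :
    ∃ R : Submodule K V, R ≤ Q ∧ P ⊓ R = ⊥ ∧ P ⊔ R = Q := by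
  obtain ⟨R', hR'⟩ := Submodule.exists_isCompl P
  refine ⟨R' ⊓ Q, inf_le_right, ?_, ?_⟩
  · rw [← inf_assoc, hR'.inf_eq_bot, bot_inf_eq]
  · rw [← sup_inf_assoc_of_le R' h, hR'.sup_eq_top, top_inf_eq]

/-- `A ⊕ (B₁ ⊕ C₁) = V` if `(A ⊓ B) ⊕ B₁ = B` and `(A + B) ⊕ C₁ = V` -/
theorem isCompl_of_decomp {A B B₁ C₁ : Submodule K V} (hB₁le : B₁ ≤ B)
    (hB₁inf : (A ⊓ B) ⊓ B₁ = ⊥) (hB₁sup : (A ⊓ B) ⊔ B₁ = B) (hC₁inf : (A ⊔ B) ⊓ C₁ = ⊥)
    (hC₁sup : A ⊔ B ⊔ C₁ = ⊤) : IsCompl A (B₁ ⊔ C₁) := by
  refine ⟨?_, ?_⟩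
  · rw [Submodule.disjoint_def]
    intro x hxA hx
    obtain ⟨b, hb, c, hc, rfl⟩ := Submodule.mem_sup.mp hx
    have hc0 : c = 0 := by
      have hcAB : c ∈ A ⊔ B := by
        have : c = (b + c) - b := by abel
        rw [this]
        exact Submodule.sub_mem _ (Submodule.mem_sup_left hxA)
          (Submodule.mem_sup_right (hB₁le hb))
      have : c ∈ (A ⊔ B) ⊓ C₁ := ⟨hcAB, hc⟩
      rw [hC₁inf] at this
      exact (Submodule.mem_bot K).mp this
    subst hc0
    rw [add_zero] at hxA ⊢
    have : b ∈ (A ⊓ B) ⊓ B₁ := ⟨⟨hxA, hB₁le hb⟩, hb⟩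
    rw [hB₁inf] at this
    exact (Submodule.mem_bot K).mp this
  · rw [codisjoint_iff, eq_top_iff, ← hC₁sup]
    refine sup_le (sup_le le_sup_left ?_) ?_
    · calc B = (A ⊓ B) ⊔ B₁ := hB₁sup.symm
        _ ≤ A ⊔ (B₁ ⊔ C₁) := sup_le (inf_le_left.trans le_sup_left)
            (le_sup_left.trans le_sup_right)
    · exact le_sup_right.trans le_sup_right

/-- a finite rank operator lies in `E₀` -/
theorem inE0_of_finite_range {D : Module.End K V}
    (hD : FiniteDimensional K (LinearMap.range D)) : InE0 A D := by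
  refine ⟨NMB.of_finite _ _, ?_⟩
  unfold InE2
  exact Submodule.finiteDimensional_of_le (LinearMap.map_le_range (f := D) (p := A))

/-- (residue theorem, abstract form) if `B` is stable under `f`, `g`, `A ⊓ B` is finite
dimensional and `A ⊔ B` has finite codimension, then `res^V_A (f dg) = 0`. -/
theorem tres_eq_zero_of_cofinite (B : Submodule K V) (hfB : ∀ b ∈ B, f b ∈ B)
    (hgB : ∀ b ∈ B, g b ∈ B) (h1 : FiniteDimensional K ↥(A ⊓ B))
    (h2 : ∃ C : Submodule K V, FiniteDimensional K C ∧ A ⊔ B ⊔ C = ⊤)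
    (hf : NearStab A f) (hg : NearStab A g) (hfg : Commute f g) : tres A f g = 0 := by
  obtain ⟨C, hCfin, hC⟩ := h2
  obtain ⟨A₁, hA₁le, hA₁inf, hA₁sup⟩ := exists_rel_compl (inf_le_left : A ⊓ B ≤ A)
  obtain ⟨B₁, hB₁le, hB₁inf, hB₁sup⟩ := exists_rel_compl (inf_le_right : A ⊓ B ≤ B)
  obtain ⟨C₁, hC₁le, hC₁inf', hC₁sup'⟩ := exists_rel_compl (inf_le_right : (A ⊔ B) ⊓ C ≤ C)
  haveI : FiniteDimensional K C₁ := Submodule.finiteDimensional_of_le hC₁le
  have hC₁inf : (A ⊔ B) ⊓ C₁ = ⊥ := by
    rw [eq_bot_iff, ← hC₁inf']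
    exact le_inf (le_inf inf_le_left (inf_le_right.trans hC₁le)) inf_le_right
  have hC₁sup : A ⊔ B ⊔ C₁ = ⊤ := by
    rw [eq_top_iff, ← hC, ← hC₁sup']
    exact sup_le le_sup_left (sup_le (inf_le_left.trans le_sup_left) le_sup_right)
  have hcA : IsCompl A (B₁ ⊔ C₁) := isCompl_of_decomp hB₁le hB₁inf hB₁sup hC₁inf hC₁sup
  have hcB : IsCompl B (A₁ ⊔ C₁) := by
    refine isCompl_of_decomp (A := B) (B := A) hA₁le ?_ ?_ ?_ ?_
    · rw [inf_comm B A]; exact hA₁inf
    · rw [inf_comm B A]; exact hA₁sup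
    · rw [sup_comm B A]; exact hC₁inf
    · rw [sup_comm B A]; exact hC₁sup
  set πA := projOn A (B₁ ⊔ C₁) hcA with hπA
  set πB := projOn B (A₁ ⊔ C₁) hcB with hπB
  have hpA : LinearMap.IsProj A πA := isProj_projOn hcA
  have hpB : LinearMap.IsProj B πB := isProj_projOn hcB
  set D : Module.End K V := πA + πB - 1 with hD
  -- `D` has finite rank
  have hDrange : LinearMap.range D ≤ (A ⊓ B) ⊔ C₁ := by
    rintro _ ⟨v, rfl⟩
    have hv : v ∈ A ⊔ (B₁ ⊔ C₁) := by
      rw [hcA.sup_eq_top]; exact Submodule.mem_top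
    obtain ⟨a, ha, a', ha', rfl⟩ := Submodule.mem_sup.mp hv
    obtain ⟨b₁, hb₁, c₁, hc₁, rfl⟩ := Submodule.mem_sup.mp ha'
    rw [← hA₁sup] at ha
    obtain ⟨k, hk, a₁, ha₁, rfl⟩ := Submodule.mem_sup.mp ha
    have e1 : πA (k + a₁ + (b₁ + c₁)) = k + a₁ := by
      rw [map_add, projOn_of_mem_left hcA (A.add_mem hk.1 (hA₁le ha₁)),
        projOn_of_mem_right hcA (Submodule.add_mem _ (Submodule.mem_sup_left hb₁)
          (Submodule.mem_sup_right hc₁)), add_zero]
    have e2 : πB (k + a₁ + (b₁ + c₁)) = k + b₁ := by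
      have : k + a₁ + (b₁ + c₁) = (k + b₁) + (a₁ + c₁) := by abel
      rw [this, map_add, projOn_of_mem_left hcB (B.add_mem hk.2 (hB₁le hb₁)),
        projOn_of_mem_right hcB (Submodule.add_mem _ (Submodule.mem_sup_left ha₁)
          (Submodule.mem_sup_right hc₁)), add_zero]
    have e3 : D (k + a₁ + (b₁ + c₁)) = k - c₁ := by
      rw [hD, LinearMap.sub_apply, LinearMap.add_apply, e1, e2, Module.End.one_apply]
      abel
    rw [e3]
    exact Submodule.sub_mem _ (Submodule.mem_sup_left hk) (Submodule.mem_sup_right hc₁)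
  haveI := h1
  have hDfin : FiniteDimensional K (LinearMap.range D) :=
    Submodule.finiteDimensional_of_le hDrange
  have hD0 : InE0 A D := inE0_of_finite_range hDfin
  -- the three operators
  set X : Module.End K V := (πA * g - g * πA) * f with hX
  set Y : Module.End K V := (πB * g - g * πB) * f with hY
  set R : Module.End K V := (D * g - g * D) * f with hR
  have hXRY : X = R - Y := by
    rw [hX, hR, hY, hD]
    noncomm_ring
  have hX0 : InE0 A X := comm_mul_inE0 hpA hf hg
  have hR0 : InE0 A R := ((hD0.mul_right hg).sub (hD0.mul_left hg)).mul_right hf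
  have hY0 : InE0 A Y := by
    have : Y = R - X := by rw [hXRY]; abel
    rw [this]
    exact hR0.sub hX0
  have hRtr : trFP R = 0 := trFP_comm_of_inE0 hD0 hf hg hfg
  have hYtr : trFP Y = 0 := by
    refine trFP_of_isNilpotent ⟨2, ?_⟩
    rw [pow_two]
    exact comm_mul_sq_eq_zero hpB hfB hgB
  rw [tres_eq hpA hf hg hfg, ← hX, hXRY, hR0.trFP_sub hY0, hRtr, hYtr, sub_zero]

end

end Fermat.Agent.Curve.Tate
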