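/-
General function fields of one variable (project P1): shared definitions.
-/
import Mathlib
import Fermat.Prelude.Def_AlgebraicCurve_CanonicalDivisor

set_option autoImplicit false

namespace Fermat.Agent.Curve

open AlgebraicCurve IntermediateField

/-- `x` is a transcendental generator of the function field `F / K`: `x` is transcendental over
`K` and `F` is finite over `K(x)`. -/
structure IsFunctionFieldGen (K F : Type*) [Field K] [Field F] [Algebra K F] (x : F) : Prop where
  transcendental : Transcendental K x
  finite : FiniteDimensional (IntermediateField.adjoin K {x}) F

end Fermat.Agent.Curve
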