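/-
P1 part C (helper5): basic facts about places of a field extension `F/K` (Prelude
`AlgebraicCurve.Place`): membership in the valuation ring in terms of `ord`, ultrametric
inequality, constants, maximality of discrete valuation rings, and the correspondence with the
height one spectrum of a Dedekind domain with fraction field `F`.
-/
import Mathlib
import Fermat.Prelude.Def_AlgebraicCurve_Repartitions
import Fermat.Prelude.Def_AlgebraicCurve_IsCurveOver

set_option autoImplicit false
set_option linter.unusedSectionVars false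

namespace Fermat.Agent.Curve

open AlgebraicCurve IsDedekindDomain WithZero

variable {K F : Type*} [Field K] [Field F] [Algebra K F]

namespace PlaceAux

variable (v : Place K F)

/-- membership in the valuation ring in terms of the adic valuation -/
theorem mem_iff_adicValuation_le_one {f : F} :
    f ∈ v.toValuationSubring ↔ v.adicValuation f ≤ 1 := by
  constructor
  · exact v.adicValuation_le_one_of_mem
  · intro h
    by_contra hf
    have hf0 : f ≠ 0 := fun h0 => hf (h0 ▸ v.toValuationSubring.zero_mem)
    have hinv : f⁻¹ ∈ v.toValuationSubring :=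
      (v.toValuationSubring.mem_or_inv_mem f).resolve_left hf
    -- `f⁻¹` is not a unit of the valuation ring
    have hnu : ¬ IsUnit (⟨f⁻¹, hinv⟩ : v.toValuationSubring) := by
      intro hu
      obtain ⟨u, hu⟩ := hu
      apply hf
      have h1 : ((u⁻¹ : v.toValuationSubringˣ) : v.toValuationSubring) * ⟨f⁻¹, hinv⟩ = 1 := by
        rw [← hu]; exact u.inv_mul
      have h2 : (((u⁻¹ : v.toValuationSubringˣ) : v.toValuationSubring) : F) * f⁻¹ = 1 := by
        have := congrArg Subtype.val h1
        simpa using this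
      have h3 : (((u⁻¹ : v.toValuationSubringˣ) : v.toValuationSubring) : F) = f := by
        field_simp at h2
        exact h2
      rw [← h3]
      exact Subtype.mem _
    have h1 : v.adicValuation f⁻¹ ≤ 1 := v.adicValuation_le_one_of_mem hinv
    have h2 : v.adicValuation f⁻¹ ≠ 1 := by
      intro h2
      exact hnu ((v.adicValuation_coe_eq_one_iff ⟨f⁻¹, hinv⟩).mp h2)
    have h3 : v.adicValuation f⁻¹ < 1 := lt_of_le_of_ne h1 h2
    rw [map_inv₀] at h3
    have h4 : v.adicValuation f ≠ 0 := v.adicValuation_ne_zero hf0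
    have h5 : 1 < v.adicValuation f := by
      by_contra h5
      push Not at h5
      have := one_le_inv₀ (zero_lt_iff.mpr h4) |>.mpr h5
      exact absurd h3 (not_lt.mpr this)
    exact absurd h (not_le.mpr h5)

theorem mem_iff {f : F} : f ∈ v.toValuationSubring ↔ f = 0 ∨ 0 ≤ v.ord f := by
  rw [mem_iff_adicValuation_le_one, v.adicValuation_le_one_iff]

theorem mem_of_ord_nonneg {f : F} (h : 0 ≤ v.ord f) : f ∈ v.toValuationSubring :=
  (mem_iff v).mpr (Or.inr h)

theorem ord_nonneg_of_mem {f : F} (h : f ∈ v.toValuationSubring) : 0 ≤ v.ord f := by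
  rcases (mem_iff v).mp h with h0 | h0
  · rw [h0, v.ord_zero]
  · exact h0


theorem algebraMap_mem (a : K) : algebraMap K F a ∈ v.toValuationSubring := v.algebraMap_mem' a

/-- nonzero constants have order zero -/
theorem ord_algebraMap (a : K) : v.ord (algebraMap K F a) = 0 := by
  rcases eq_or_ne a 0 with rfl | ha
  · simp
  have h1 : 0 ≤ v.ord (algebraMap K F a) := ord_nonneg_of_mem v (algebraMap_mem v a)
  have h2 : 0 ≤ v.ord (algebraMap K F a)⁻¹ := by
    rw [← map_inv₀]
    exact ord_nonneg_of_mem v (algebraMap_mem v a⁻¹)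
  rw [v.ord_inv] at h2
  omega

/-- the "order at least `n`" predicate -/
def OrdGE (f : F) (n : ℤ) : Prop := v.adicValuation f ≤ exp (-n)

theorem ordGE_iff {f : F} {n : ℤ} : OrdGE v f n ↔ f = 0 ∨ n ≤ v.ord f := by
  rw [OrdGE, v.adicValuation_le_exp_iff, neg_neg]

theorem ordGE_zero (n : ℤ) : OrdGE v (0 : F) n := by simp [OrdGE]

theorem OrdGE.add {f g : F} {n : ℤ} (hf : OrdGE v f n) (hg : OrdGE v g n) : OrdGE v (f + g) n :=
  (Valuation.map_add _ _ _).trans (max_le hf hg)

theorem OrdGE.neg {f : F} {n : ℤ} (hf : OrdGE v f n) : OrdGE v (-f) n := by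
  rw [OrdGE, Valuation.map_neg]; exact hf

theorem OrdGE.sub {f g : F} {n : ℤ} (hf : OrdGE v f n) (hg : OrdGE v g n) : OrdGE v (f - g) n := by
  rw [sub_eq_add_neg]; exact hf.add v (hg.neg v)

theorem OrdGE.mul {f g : F} {m n : ℤ} (hf : OrdGE v f m) (hg : OrdGE v g n) :
    OrdGE v (f * g) (m + n) := by
  rw [OrdGE, map_mul, neg_add, exp_add]
  exact mul_le_mul' hf hg

theorem OrdGE.mono {f : F} {m n : ℤ} (hf : OrdGE v f n) (h : m ≤ n) : OrdGE v f m :=
  hf.trans (exp_le_exp.mpr (by omega))

theorem ordGE_zero_iff_mem {f : F} : OrdGE v f 0 ↔ f ∈ v.toValuationSubring := by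
  rw [OrdGE, neg_zero, exp_zero, mem_iff_adicValuation_le_one]

theorem OrdGE.smul {f : F} {n : ℤ} (hf : OrdGE v f n) (a : K) : OrdGE v (a • f) n := by
  rw [Algebra.smul_def]
  have := ((ordGE_zero_iff_mem v).mpr (algebraMap_mem v a)).mul v hf
  rwa [zero_add] at this

theorem ordGE_ord {f : F} : OrdGE v f (v.ord f) := (ordGE_iff v).mpr (Or.inr le_rfl)

theorem ord_add_of_lt {f g : F} (hf : f ≠ 0) (h : v.ord f < v.ord g) :
    v.ord (f + g) = v.ord f := by
  rcases eq_or_ne g 0 with rfl | hg
  · rw [add_zero]
  have hv : v.adicValuation g < v.adicValuation f := by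
    rw [v.adicValuation_eq_exp_neg_ord hf, v.adicValuation_eq_exp_neg_ord hg, exp_lt_exp]
    omega
  have h1 : v.adicValuation (f + g) = v.adicValuation f := by
    rw [add_comm]
    exact Valuation.map_add_eq_of_lt_right _ hv
  have hfg : f + g ≠ 0 := by
    intro h0
    rw [h0, map_zero] at h1
    exact v.adicValuation_ne_zero hf h1.symm
  rw [v.adicValuation_eq_exp_neg_ord hfg, v.adicValuation_eq_exp_neg_ord hf] at h1
  have := exp_injective h1
  omega


/-- discrete valuation rings are maximal: a place is determined by containment -/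
theorem eq_of_le {v w : Place K F} (h : v.toValuationSubring ≤ w.toValuationSubring) : v = w := by
  apply Place.ext
  exact ValuationSubring.eq_of_le_of_ne_top _ h w.ne_top'

section Dedekind

variable {R : Type*} [CommRing R] [IsDedekindDomain R] [Algebra R F] [IsFractionRing R F]
  [Algebra K R] [IsScalarTower K R F]

omit [Algebra K R] [IsScalarTower K R F] in
/-- a place whose valuation ring contains `R` contains no inverse of a non-unit... the centre of
`v` on `R` is a nonzero prime -/
theorem exists_mem_maximalIdeal (hv : ∀ r : R, algebraMap R F r ∈ v.toValuationSubring) :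
    ∃ r : R, r ≠ 0 ∧ 0 < v.ord (algebraMap R F r) := by
  by_contra hcon
  push Not at hcon
  apply v.ne_top'
  rw [eq_top_iff]
  intro x _
  obtain ⟨a, b, hb, rfl⟩ := IsFractionRing.div_surjective (A := R) x
  have hb0 : b ≠ 0 := nonZeroDivisors.ne_zero hb
  have hbF : algebraMap R F b ≠ 0 := by
    rwa [ne_eq, IsFractionRing.to_map_eq_zero_iff]
  have h1 : v.ord (algebraMap R F b) = 0 :=
    le_antisymm (hcon b hb0) (ord_nonneg_of_mem v (hv b))
  have h2 : (algebraMap R F b)⁻¹ ∈ v.toValuationSubring := by
    apply mem_of_ord_nonneg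
    rw [v.ord_inv, h1, neg_zero]
  rw [div_eq_mul_inv]
  exact v.toValuationSubring.mul_mem _ _ (hv a) h2

/-- the centre on `R` of a place whose valuation ring contains `R` -/
noncomputable def centre (hv : ∀ r : R, algebraMap R F r ∈ v.toValuationSubring) :
    HeightOneSpectrum R where
  asIdeal := Ideal.comap ((algebraMap R F).codRestrict v.toValuationSubring.toSubring hv)
    (IsLocalRing.maximalIdeal v.toValuationSubring)
  isPrime := Ideal.comap_isPrime _ _
  ne_bot := by
    obtain ⟨r, hr0, hr⟩ := exists_mem_maximalIdeal v hv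
    intro hbot
    apply hr0
    have hmem : r ∈ Ideal.comap ((algebraMap R F).codRestrict v.toValuationSubring.toSubring hv)
        (IsLocalRing.maximalIdeal v.toValuationSubring) := by
      rw [Ideal.mem_comap, IsLocalRing.mem_maximalIdeal, mem_nonunits_iff]
      intro hu
      obtain ⟨u, hu⟩ := hu
      have h1 := v.ord_coe_unit u
      rw [hu] at h1
      change v.ord (algebraMap R F r) = 0 at h1
      omega
    rw [hbot] at hmem
    exact hmem

theorem mem_centre_iff (hv : ∀ r : R, algebraMap R F r ∈ v.toValuationSubring) (r : R) :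
    r ∈ (centre v hv).asIdeal ↔ r = 0 ∨ 0 < v.ord (algebraMap R F r) := by
  show r ∈ Ideal.comap _ _ ↔ _
  rw [Ideal.mem_comap, IsLocalRing.mem_maximalIdeal, mem_nonunits_iff]
  constructor
  · intro hnu
    by_cases hr : r = 0
    · exact Or.inl hr
    right
    have hrF : algebraMap R F r ≠ 0 := by
      rwa [ne_eq, IsFractionRing.to_map_eq_zero_iff]
    have h0 : 0 ≤ v.ord (algebraMap R F r) := ord_nonneg_of_mem v (hv r)
    rcases h0.lt_or_eq with h | h
    · exact h
    exfalso
    apply hnu
    have hinv : (algebraMap R F r)⁻¹ ∈ v.toValuationSubring := by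
      apply mem_of_ord_nonneg
      rw [v.ord_inv, ← h, neg_zero]
    refine isUnit_iff_exists_inv.mpr ⟨⟨_, hinv⟩, ?_⟩
    apply Subtype.ext
    show algebraMap R F r * (algebraMap R F r)⁻¹ = 1
    exact mul_inv_cancel₀ hrF
  · rintro (rfl | hr) hu
    · rw [map_zero] at hu
      exact not_isUnit_zero hu
    · obtain ⟨u, hu⟩ := hu
      have h1 := v.ord_coe_unit u
      rw [hu] at h1
      change v.ord (algebraMap R F r) = 0 at h1
      omega

/-- a place whose valuation ring contains the Dedekind domain `R` comes from a height one prime -/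
theorem eq_ofHeightOneSpectrum_centre
    (hv : ∀ r : R, algebraMap R F r ∈ v.toValuationSubring) :
    v = Place.ofHeightOneSpectrum (K := K) (centre v hv) := by
  symm
  apply eq_of_le
  intro x hx
  rw [Place.ofHeightOneSpectrum_toValuationSubring, Valuation.mem_valuationSubring_iff] at hx
  obtain ⟨n, d, hnd⟩ := (centre v hv).exists_primeCompl_mul_eq_of_integer x hx
  have hd : (d : R) ∉ (centre v hv).asIdeal := d.2
  rw [mem_centre_iff] at hd
  push Not at hd
  have hdF : algebraMap R F d ≠ 0 := by
    rw [ne_eq, IsFractionRing.to_map_eq_zero_iff]; exact hd.1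
  have h0 : v.ord (algebraMap R F d) = 0 :=
    le_antisymm hd.2 (ord_nonneg_of_mem v (hv d))
  have hinv : (algebraMap R F d)⁻¹ ∈ v.toValuationSubring := by
    apply mem_of_ord_nonneg
    rw [v.ord_inv, h0, neg_zero]
  have hx' : x = algebraMap R F n * (algebraMap R F d)⁻¹ := by
    rw [← hnd, mul_assoc, mul_inv_cancel₀ hdF, mul_one]
  rw [hx']
  exact v.toValuationSubring.mul_mem _ _ (hv n) hinv


/-- two valuations `F → ℤᵐ⁰` which are equivalent and both take the value `exp (-1)` ... here: the
adic valuation of the place attached to a height one prime is the valuation of that prime -/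
theorem ofHeightOneSpectrum_adicValuation (w : HeightOneSpectrum R) (f : F) :
    (Place.ofHeightOneSpectrum (K := K) (F := F) w).adicValuation f = w.valuation F f := by
  set v : Place K F := Place.ofHeightOneSpectrum (K := K) (F := F) w with hvdef
  -- the two valuations are equivalent
  have hequiv : (v.adicValuation).IsEquiv (w.valuation F) := by
    rw [Valuation.isEquiv_iff_val_le_one]
    intro x
    rw [← mem_iff_adicValuation_le_one, hvdef, Place.ofHeightOneSpectrum_toValuationSubring,
      Valuation.mem_valuationSubring_iff]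
  have h1 : ∀ {x : F}, v.adicValuation x = 1 ↔ w.valuation F x = 1 :=
    Valuation.isEquiv_iff_val_eq_one.mp hequiv
  have hlt : ∀ {x : F}, v.adicValuation x < 1 ↔ w.valuation F x < 1 :=
    Valuation.isEquiv_iff_val_lt_one.mp hequiv
  -- a uniformizer for `w`
  obtain ⟨π, hπ⟩ := w.valuation_exists_uniformizer F
  have hπ0 : π ≠ 0 := by
    intro h0
    rw [h0, map_zero] at hπ
    exact (exp_ne_zero).symm hπ
  -- an irreducible of the valuation ring of `v`
  obtain ⟨ϖ, hϖ⟩ := IsDiscreteValuationRing.exists_irreducible v.toValuationSubring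
  have hϖv : v.adicValuation (ϖ : F) = exp (-1 : ℤ) := v.adicValuation_coe_irreducible hϖ
  have hϖ0 : (ϖ : F) ≠ 0 := by
    intro h0
    rw [h0, map_zero] at hϖv
    exact (exp_ne_zero).symm hϖv
  -- `π` has `v`-valuation `exp (-1)`
  have hone : (1 : ℤᵐ⁰) = exp (0 : ℤ) := exp_zero.symm
  have hπv : v.adicValuation π = exp (-1 : ℤ) := by
    have hπlt : v.adicValuation π < 1 :=
      hlt.mpr (by rw [hπ, hone, exp_lt_exp]; norm_num)
    have hϖlt : w.valuation F (ϖ : F) < 1 :=
      hlt.mp (by rw [hϖv, hone, exp_lt_exp]; norm_num)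
    -- `w ϖ ≤ exp (-1) = w π`, hence `v ϖ ≤ v π`
    have h2 : w.valuation F (ϖ : F) ≤ w.valuation F π := by
      rw [hπ]
      have hne : w.valuation F (ϖ : F) ≠ 0 := (Valuation.ne_zero_iff _).mpr hϖ0
      rw [← exp_log hne] at hϖlt ⊢
      rw [hone, exp_lt_exp] at hϖlt
      rw [exp_le_exp]
      omega
    have h3 : v.adicValuation (ϖ : F) ≤ v.adicValuation π := (hequiv _ _).mpr h2
    have hne : v.adicValuation π ≠ 0 := (Valuation.ne_zero_iff _).mpr hπ0
    rw [← exp_log hne] at hπlt h3 ⊢
    rw [hone, exp_lt_exp] at hπlt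
    rw [hϖv, exp_le_exp] at h3
    congr 1
    omega
  rcases eq_or_ne f 0 with rfl | hf
  · simp
  -- write `w f = exp (-n)`
  have hne : w.valuation F f ≠ 0 := (Valuation.ne_zero_iff _).mpr hf
  set n : ℤ := -(log (w.valuation F f)) with hn
  have hwf : w.valuation F f = exp (-n) := by rw [hn, neg_neg, exp_log hne]
  have h4 : w.valuation F (f * π ^ (-n)) = 1 := by
    rw [map_mul, map_zpow₀, hπ, hwf, ← exp_zsmul, ← exp_add]
    simp
  have h5 : v.adicValuation (f * π ^ (-n)) = 1 := h1.mpr h4
  rw [map_mul, map_zpow₀, hπv, ← exp_zsmul] at h5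
  rw [hwf]
  have h6 : v.adicValuation f = v.adicValuation f * exp ((-n) • (-1 : ℤ)) * exp (-n) := by
    rw [mul_assoc, ← exp_add]
    simp
  rw [h6, h5, one_mul]

theorem ofHeightOneSpectrum_ord (w : HeightOneSpectrum R) (f : F) :
    (Place.ofHeightOneSpectrum (K := K) (F := F) w).ord f = -(log (w.valuation F f)) := by
  rw [Place.ord, ofHeightOneSpectrum_adicValuation]

end Dedekind

end PlaceAux

end Fermat.Agent.Curve
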