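/-
P1 part C (helper5): algebraic function fields of one variable `F/K`.
* `IsFunctionField1 K F`: `F/K` essentially of finite type, of transcendence degree one.
* every transcendental `y : F` has `F/K⟮y⟯` finite;
* over an algebraically closed `K`, every `y ∉ K` is transcendental.
-/
import Mathlib
import Fermat.Agent.Lib.Curve.PlaceBasic

set_option autoImplicit false
set_option linter.unusedSectionVars false

namespace Fermat.Agent.Curve

open AlgebraicCurve IntermediateField

universe u v

variable (K : Type u) (F : Type v) [Field K] [Field F] [Algebra K F]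

/-- `F/K` is an algebraic function field of one variable. -/
class IsFunctionField1 : Prop where
  essFiniteType : Algebra.EssFiniteType K F
  trdeg_eq_one : Algebra.trdeg K F = 1

variable {K F}

open scoped IntermediateField.algebraAdjoinAdjoin in
theorem essFiniteType_adjoin_simple (x : F) : Algebra.EssFiniteType K K⟮x⟯ := by
  have h1 : Algebra.FiniteType K (Algebra.adjoin K ({x} : Set F)) :=
    .adjoin_of_finite (Set.finite_singleton x)
  have h2 : Algebra.EssFiniteType (Algebra.adjoin K ({x} : Set F)) K⟮x⟯ :=
    .of_isLocalization _ (nonZeroDivisors _)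
  exact Algebra.EssFiniteType.comp K (Algebra.adjoin K ({x} : Set F)) K⟮x⟯

theorem algebraicIndependent_const_of_transcendental {ι : Type*} [Unique ι] {x : F}
    (hx : Transcendental K x) : AlgebraicIndependent K (fun _ : ι => x) :=
  algebraicIndependent_unique_type_iff.mpr hx

open scoped IntermediateField.algebraAdjoinAdjoin in
theorem isAlgebraic_algebra_adjoin_of_isAlgebraic_adjoin (x : F) [Algebra.IsAlgebraic K⟮x⟯ F] :
    Algebra.IsAlgebraic (Algebra.adjoin K ({x} : Set F)) F :=
  (IsFractionRing.comap_isAlgebraic_iff (A := Algebra.adjoin K ({x} : Set F)) (K := K⟮x⟯)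
    (C := F)).mpr inferInstance

theorem IsFunctionField1.of_finite {x : F} (hx : Transcendental K x)
    (hfin : FiniteDimensional K⟮x⟯ F) : IsFunctionField1 K F where
  essFiniteType := by
    have h1 : Algebra.EssFiniteType K K⟮x⟯ := essFiniteType_adjoin_simple x
    have h2 : Algebra.EssFiniteType K⟮x⟯ F := inferInstance
    exact Algebra.EssFiniteType.comp K K⟮x⟯ F
  trdeg_eq_one := by
    apply le_antisymm
    · have halg : Algebra.IsAlgebraic K⟮x⟯ F := Algebra.IsAlgebraic.of_finite _ _
      have halg' : Algebra.IsAlgebraic (Algebra.adjoin K ({x} : Set F)) F :=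
        isAlgebraic_algebra_adjoin_of_isAlgebraic_adjoin x
      have := Algebra.IsAlgebraic.trdeg_le_cardinalMk K ({x} : Set F)
      simpa using this
    · have := (algebraicIndependent_const_of_transcendental (ι := PUnit.{v + 1})
        hx).cardinalMk_le_trdeg
      simpa using this


section Basic

variable [IsFunctionField1 K F]

/-- every transcendental element is a transcendence basis -/
theorem isTranscendenceBasis_of_transcendental {y : F} (hy : Transcendental K y) :
    IsTranscendenceBasis K (fun _ : PUnit.{v + 1} => y) := by
  refine (algebraicIndependent_const_of_transcendental (ι := PUnit.{v + 1})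
    hy).isTranscendenceBasis_of_trdeg_le_of_finite ?_
  rw [IsFunctionField1.trdeg_eq_one]
  simp

theorem isAlgebraic_adjoin_simple_of_transcendental {y : F} (hy : Transcendental K y) :
    Algebra.IsAlgebraic K⟮y⟯ F := by
  have h := (isTranscendenceBasis_of_transcendental hy).isAlgebraic_field
  have hr : Set.range (fun _ : PUnit.{v + 1} => y) = {y} := by
    ext z; simp [eq_comm]
  rwa [hr] at h

/-- `F` is finite over `K(y)` for every transcendental `y`. -/
theorem finiteDimensional_adjoin_simple_of_transcendental {y : F} (hy : Transcendental K y) :
    FiniteDimensional K⟮y⟯ F := by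
  have := isAlgebraic_adjoin_simple_of_transcendental hy
  have h1 : Algebra.EssFiniteType K F := IsFunctionField1.essFiniteType
  have h2 : Algebra.EssFiniteType K⟮y⟯ F := Algebra.EssFiniteType.of_comp K K⟮y⟯ F
  exact Algebra.finite_of_essFiniteType_of_isAlgebraic

/-- over an algebraically closed field every non-constant is transcendental -/
theorem transcendental_of_notMem_range [IsAlgClosed K] {y : F}
    (hy : y ∉ Set.range (algebraMap K F)) : Transcendental K y := by
  intro halg
  apply hy
  have h1 : Algebra.IsAlgebraic K K⟮y⟯ := IntermediateField.isAlgebraic_adjoin_simple halg.isIntegral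
  have h2 : K⟮y⟯ = ⊥ := IntermediateField.eq_bot_of_isAlgClosed_of_isAlgebraic _
  have h3 : y ∈ (⊥ : IntermediateField K F) := h2 ▸ IntermediateField.mem_adjoin_simple_self K y
  exact IntermediateField.mem_bot.mp h3

end Basic

end Fermat.Agent.Curve
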