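/-
P1 part C (helper5): for a function field of one variable `F/K` over an algebraically closed
field `K`, the residue field of every place is `K`:
* `exists_const_ordGE_one`: every `y` in the valuation ring of `v` is congruent to a constant
  modulo the maximal ideal;
* `PlaceAux.deg_eq_one`: every place has degree one.
-/
import Mathlib
import Fermat.Agent.Lib.Curve.Defs
import Fermat.Agent.Lib.Curve.PlaceBasic
import Fermat.Agent.Lib.Curve.TrDeg

set_option autoImplicit false
set_option linter.unusedSectionVars false

namespace Fermat.Agent.Curve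

open AlgebraicCurve IntermediateField Polynomial

variable {K F : Type*} [Field K] [Field F] [Algebra K F]

namespace PlaceAux

variable (v : Place K F)

/-- if all `y - c` are units at `v` then all nonzero polynomials in `y` are units at `v` -/
theorem ord_aeval_eq_zero [IsAlgClosed K] (y : F)
    (h : ∀ c : K, y - algebraMap K F c ≠ 0 ∧ v.ord (y - algebraMap K F c) = 0) :
    ∀ (n : ℕ) (p : K[X]), p.natDegree = n → p ≠ 0 →
      aeval y p ≠ 0 ∧ v.ord (aeval y p) = 0 := by
  intro n
  induction n with
  | zero =>
    intro p hn hp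
    obtain ⟨c, rfl⟩ : ∃ c : K, p = C c := ⟨_, eq_C_of_natDegree_eq_zero hn⟩
    have hc : c ≠ 0 := fun h0 => hp (by rw [h0, map_zero])
    rw [aeval_C]
    exact ⟨by simpa using hc, ord_algebraMap v c⟩
  | succ n ih =>
    intro p hn hp
    have hdeg : p.degree ≠ 0 := by
      rw [degree_eq_natDegree hp, hn]
      exact_mod_cast Nat.succ_ne_zero n
    obtain ⟨c, hc⟩ := IsAlgClosed.exists_root p hdeg
    have hfac : (X - C c) * (p /ₘ (X - C c)) = p := mul_divByMonic_eq_iff_isRoot.mpr hc
    set q := p /ₘ (X - C c) with hq
    have hq0 : q ≠ 0 := by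
      intro h0
      rw [h0, mul_zero] at hfac
      exact hp hfac.symm
    have hqdeg : q.natDegree = n := by
      rw [hq, natDegree_divByMonic p (monic_X_sub_C c), hn, natDegree_X_sub_C]
      rfl
    obtain ⟨h1, h2⟩ := ih q hqdeg hq0
    obtain ⟨h3, h4⟩ := h c
    have hev : aeval y p = (y - algebraMap K F c) * aeval y q := by
      rw [← hfac, map_mul, map_sub, aeval_X, aeval_C]
    rw [hev]
    refine ⟨mul_ne_zero h3 h1, ?_⟩
    rw [v.ord_mul h3 h1, h2, h4, add_zero]

/-- if all `y - c` are units at `v` then `K(y)` is contained in the valuation ring of `v` -/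
theorem adjoin_simple_le_of_units [IsAlgClosed K] (y : F)
    (h : ∀ c : K, y - algebraMap K F c ≠ 0 ∧ v.ord (y - algebraMap K F c) = 0) :
    ∀ z ∈ K⟮y⟯, z ∈ v.toValuationSubring := by
  intro z hz
  obtain ⟨r, s, rfl⟩ := (IntermediateField.mem_adjoin_simple_iff K z).mp hz
  by_cases hr : r = 0
  · rw [hr, map_zero, zero_div]; exact v.toValuationSubring.zero_mem
  by_cases hs : s = 0
  · rw [hs, map_zero, div_zero]; exact v.toValuationSubring.zero_mem
  obtain ⟨h1, h2⟩ := ord_aeval_eq_zero v y h _ r rfl hr
  obtain ⟨h3, h4⟩ := ord_aeval_eq_zero v y h _ s rfl hs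
  apply mem_of_ord_nonneg
  rw [div_eq_mul_inv, v.ord_mul h1 (inv_ne_zero h3), v.ord_inv, h2, h4]
  simp

/-- an element integral over a subfield contained in the valuation ring lies in the valuation
ring -/
theorem mem_of_isIntegral_of_le (E : IntermediateField K F)
    (hE : ∀ z ∈ E, z ∈ v.toValuationSubring) {f : F} (hf : IsIntegral E f) :
    f ∈ v.toValuationSubring := by
  obtain ⟨p, hmonic, hp⟩ := hf
  let φ : E →+* v.toValuationSubring :=
    { toFun := fun z => ⟨z.1, hE z.1 z.2⟩
      map_one' := rfl
      map_mul' := fun _ _ => rfl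
      map_zero' := rfl
      map_add' := fun _ _ => rfl }
  have hint : IsIntegral v.toValuationSubring f := by
    refine ⟨p.map φ, hmonic.map φ, ?_⟩
    rw [eval₂_map]
    exact hp
  obtain ⟨g, hg⟩ := IsIntegrallyClosed.isIntegral_iff.mp hint
  rw [← hg]
  exact g.2

end PlaceAux

open PlaceAux

/-- **The residue field of a place is `K`**: every element of the valuation ring is congruent
to a constant modulo the maximal ideal. -/
theorem exists_const_ordGE_one [IsAlgClosed K] {x : F} (hx : IsFunctionFieldGen K F x)
    (v : Place K F) {y : F} (hy : y ∈ v.toValuationSubring) :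
    ∃ c : K, OrdGE v (y - algebraMap K F c) 1 := by
  by_contra hcon
  push Not at hcon
  have h : ∀ c : K, y - algebraMap K F c ≠ 0 ∧ v.ord (y - algebraMap K F c) = 0 := by
    intro c
    have h0 : y - algebraMap K F c ≠ 0 := by
      intro h0
      apply hcon c
      rw [h0]
      exact ordGE_zero v 1
    refine ⟨h0, ?_⟩
    have h1 : 0 ≤ v.ord (y - algebraMap K F c) :=
      ord_nonneg_of_mem v (v.toValuationSubring.sub_mem hy (algebraMap_mem v c))
    have h2 : ¬ (1 ≤ v.ord (y - algebraMap K F c)) := by
      intro h2
      exact hcon c ((ordGE_iff v).mpr (Or.inr h2))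
    omega
  have : IsFunctionField1 K F := IsFunctionField1.of_finite hx.transcendental hx.finite
  have hyK : y ∉ Set.range (algebraMap K F) := by
    rintro ⟨c, rfl⟩
    exact (h c).1 (sub_self _)
  have hytr : Transcendental K y := transcendental_of_notMem_range hyK
  have : FiniteDimensional K⟮y⟯ F := finiteDimensional_adjoin_simple_of_transcendental hytr
  apply v.ne_top'
  rw [eq_top_iff]
  intro f _
  exact mem_of_isIntegral_of_le v K⟮y⟯ (adjoin_simple_le_of_units v y h)
    (Algebra.IsIntegral.isIntegral f)

/-- uniqueness of the constant in `exists_const_ordGE_one` -/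
theorem const_unique_of_ordGE_one (v : Place K F) {y : F} {c c' : K}
    (hc : OrdGE v (y - algebraMap K F c) 1) (hc' : OrdGE v (y - algebraMap K F c') 1) :
    c = c' := by
  by_contra hne
  have h1 : OrdGE v (algebraMap K F (c' - c)) 1 := by
    have := hc.sub v hc'
    rwa [show y - algebraMap K F c - (y - algebraMap K F c') = algebraMap K F (c' - c) by
      rw [map_sub]; ring] at this
  rcases (ordGE_iff v).mp h1 with h0 | h0
  · rw [map_eq_zero, sub_eq_zero] at h0
    exact hne h0.symm
  · rw [ord_algebraMap] at h0
    omega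

namespace PlaceAux

/-- the residue map `K → κ(v)` is surjective -/
theorem algebraMap_residueField_surjective [IsAlgClosed K] {x : F}
    (hx : IsFunctionFieldGen K F x) (v : Place K F) :
    Function.Surjective (algebraMap K v.ResidueField) := by
  intro z
  obtain ⟨y, rfl⟩ := IsLocalRing.residue_surjective z
  obtain ⟨c, hc⟩ := exists_const_ordGE_one hx v y.2
  refine ⟨c, ?_⟩
  rw [IsScalarTower.algebraMap_apply K v.toValuationSubring v.ResidueField]
  symm
  rw [IsLocalRing.ResidueField.algebraMap_eq, ← sub_eq_zero, ← map_sub,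
    IsLocalRing.residue_eq_zero_iff, IsLocalRing.mem_maximalIdeal, mem_nonunits_iff]
  intro hu
  obtain ⟨u, hu⟩ := hu
  have h1 := v.ord_coe_unit u
  rw [hu] at h1
  change v.ord (y.1 - algebraMap K F c) = 0 at h1
  rcases (ordGE_iff v).mp hc with h0 | h0
  · have : (y - algebraMap K v.toValuationSubring c : v.toValuationSubring) = 0 :=
      Subtype.ext h0
    rw [this] at hu
    exact u.ne_zero hu
  · omega

/-- every place of a function field over an algebraically closed field has degree one -/
theorem deg_eq_one [IsAlgClosed K] {x : F} (hx : IsFunctionFieldGen K F x) (v : Place K F) :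
    v.deg = 1 := by
  have hsurj := algebraMap_residueField_surjective hx v
  rw [Place.deg]
  rw [finrank_eq_one_iff_of_nonzero' (1 : v.ResidueField) one_ne_zero]
  intro w
  obtain ⟨c, hc⟩ := hsurj w
  exact ⟨c, by rw [Algebra.smul_def, mul_one, hc]⟩

end PlaceAux

end Fermat.Agent.Curve
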