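/-
General function fields of one variable over an algebraically closed field of characteristic
zero: constants, generators and the residue field of a place (project P1 / S24, task GEN1).
-/
import Mathlib
import Fermat.Prelude.Def_AlgebraicCurve_CanonicalDivisor
import Fermat.Prelude.Def_AlgebraicCurve_Repartitions
import Fermat.Agent.Lib.Curve.Defs

set_option autoImplicit false
set_option linter.style.haveILetI false
set_option linter.unusedSectionVars false

namespace Fermat.Agent.Curve

open AlgebraicCurve KaehlerDifferential IntermediateField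
open scoped IntermediateField.algebraAdjoinAdjoin

variable {K F : Type*} [Field K] [Field F] [Algebra K F]

/-! ### Transcendence-degree bookkeeping -/

section Trdeg

theorem IsFunctionFieldGen.isAlgebraic_adjoin {x : F} (hx : IsFunctionFieldGen K F x) :
    Algebra.IsAlgebraic (IntermediateField.adjoin K {x}) F := by
  haveI := hx.finite
  exact Algebra.IsAlgebraic.of_finite _ _

/-- an element of `F` which is algebraic over the algebraically closed field `K` lies in `K`. -/
theorem mem_range_of_isAlgebraic [IsAlgClosed K] {y : F} (hy : IsAlgebraic K y) :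
    y ∈ (algebraMap K F).range := by
  have hint : IsIntegral K y := hy.isIntegral
  obtain ⟨a, ha⟩ := IsAlgClosed.exists_root (minpoly K y) (minpoly.degree_pos hint).ne'
  have hdvd : Polynomial.X - Polynomial.C a ∣ minpoly K y :=
    Polynomial.dvd_iff_isRoot.mpr ha
  have hirr := minpoly.irreducible hint
  have hassoc : Associated (Polynomial.X - Polynomial.C a) (minpoly K y) :=
    (Polynomial.irreducible_X_sub_C a).associated_of_dvd hirr hdvd
  have h0 : Polynomial.aeval y (Polynomial.X - Polynomial.C a) = 0 := by
    obtain ⟨u, hu⟩ := hassoc.symm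
    rw [← hu, map_mul, minpoly.aeval, zero_mul]
  refine ⟨a, ?_⟩
  simp only [map_sub, Polynomial.aeval_X, Polynomial.aeval_C, sub_eq_zero] at h0
  exact h0.symm

theorem transcendental_of_not_mem_range [IsAlgClosed K] {y : F}
    (hy : y ∉ (algebraMap K F).range) : Transcendental K y :=
  fun h => hy (mem_range_of_isAlgebraic h)

theorem IsFunctionFieldGen.not_mem_range {x : F} (hx : IsFunctionFieldGen K F x) :
    x ∉ (algebraMap K F).range := by
  rintro ⟨a, ha⟩
  exact hx.transcendental (ha ▸ isAlgebraic_algebraMap a)

theorem IsFunctionFieldGen.essFiniteType {x : F} (hx : IsFunctionFieldGen K F x) :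
    Algebra.EssFiniteType K F := by
  haveI := hx.finite
  haveI : Algebra.EssFiniteType K (IntermediateField.adjoin K {x}) :=
    (IntermediateField.essFiniteType_iff).mpr ⟨{x}, by simp⟩
  exact Algebra.EssFiniteType.comp K (IntermediateField.adjoin K {x}) F

/-- Any element outside `K` is again a generator. -/
theorem IsFunctionFieldGen.of_not_mem_range [IsAlgClosed K] {x : F}
    (hx : IsFunctionFieldGen K F x) {y : F}
    (hy : y ∉ (algebraMap K F).range) : IsFunctionFieldGen K F y := by
  have hyt : Transcendental K y := transcendental_of_not_mem_range hy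
  refine ⟨hyt, ?_⟩
  -- transcendence degree is at most one
  haveI halg : Algebra.IsAlgebraic (Algebra.adjoin K ({x} : Set F)) F := by
    haveI := hx.isAlgebraic_adjoin
    exact Algebra.IsAlgebraic.trans _ (IntermediateField.adjoin K ({x} : Set F)) _
  have hle : Algebra.trdeg K F ≤ 1 := by
    have := Algebra.IsAlgebraic.trdeg_le_cardinalMk K ({x} : Set F)
    simpa using this
  have hind : AlgebraicIndependent K (fun _ : Unit => y) :=
    algebraicIndependent_unique_type_iff.mpr hyt
  have hbasis : IsTranscendenceBasis K (fun _ : Unit => y) :=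
    hind.isTranscendenceBasis_of_lift_trdeg_le_of_finite (by
      have h1 : Cardinal.mk Unit = 1 := by simp
      rw [h1, Cardinal.lift_one]
      calc Cardinal.lift (Algebra.trdeg K F) ≤ Cardinal.lift 1 := Cardinal.lift_le.mpr hle
        _ = 1 := Cardinal.lift_one)
  have halg' := hbasis.isAlgebraic_field
  have hrange : Set.range (fun _ : Unit => y) = {y} := by
    ext z; simp [eq_comm]
  rw [hrange] at halg'
  haveI := hx.essFiniteType
  haveI : Algebra.EssFiniteType (IntermediateField.adjoin K {y}) F :=
    Algebra.EssFiniteType.of_comp K _ F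
  exact Algebra.finite_of_essFiniteType_of_isAlgebraic

end Trdeg

end Fermat.Agent.Curve

namespace Fermat.Agent.Curve

open AlgebraicCurve KaehlerDifferential IntermediateField IsDedekindDomain

variable {K F : Type*} [Field K] [Field F] [Algebra K F]

/-! ### Basic valuation facts for a place -/

section Basic

variable (v : Place K F)

theorem adicValuation_lt_one_iff_mem_maximalIdeal (a : v.toValuationSubring) :
    v.adicValuation (a : F) < 1 ↔ a ∈ IsLocalRing.maximalIdeal v.toValuationSubring := by
  rw [v.adicValuation_coe, HeightOneSpectrum.intValuation_lt_one_iff_mem]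
  rfl

theorem mem_iff_adicValuation_le_one (f : F) :
    f ∈ v.toValuationSubring ↔ v.adicValuation f ≤ 1 := by
  refine ⟨v.adicValuation_le_one_of_mem, fun h => ?_⟩
  by_contra hf
  have hf0 : f ≠ 0 := fun h0 => hf (h0 ▸ v.toValuationSubring.zero_mem)
  have hinv : f⁻¹ ∈ v.toValuationSubring := (v.toValuationSubring.mem_or_inv_mem f).resolve_left hf
  have hnu : ¬ IsUnit (⟨f⁻¹, hinv⟩ : v.toValuationSubring) := by
    intro hu
    obtain ⟨u, hu⟩ := hu
    apply hf
    have : f = ((u⁻¹ : (v.toValuationSubring)ˣ) : v.toValuationSubring) := by
      have h1 : ((u : v.toValuationSubring) : F) = f⁻¹ := by rw [hu]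
      have h2 : ((u : v.toValuationSubring) : F) * ((u⁻¹ : (v.toValuationSubring)ˣ) : v.toValuationSubring) = 1 := by
        have h3 := congrArg (Subtype.val) (u.mul_inv)
        rw [MulMemClass.coe_mul] at h3
        exact h3
      rw [h1] at h2
      field_simp at h2
      exact h2.symm
    rw [this]
    exact Subtype.prop _
  have hlt : v.adicValuation (f⁻¹) < 1 := by
    have := (adicValuation_lt_one_iff_mem_maximalIdeal v ⟨f⁻¹, hinv⟩).mpr hnu
    simpa using this
  rw [map_inv₀] at hlt
  have hpos : 0 < v.adicValuation f := zero_lt_iff.mpr (v.adicValuation_ne_zero hf0)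
  have : 1 < v.adicValuation f := by
    rw [inv_lt_one₀ hpos] at hlt
    exact hlt
  exact absurd h (not_le.mpr this)

theorem adicValuation_algebraMap_eq_one {a : K} (ha : a ≠ 0) :
    v.adicValuation (algebraMap K F a) = 1 := by
  have h1 := v.adicValuation_algebraMap_le_one a
  have h2 := v.adicValuation_algebraMap_le_one a⁻¹
  rw [map_inv₀, map_inv₀] at h2
  have hne : v.adicValuation (algebraMap K F a) ≠ 0 :=
    v.adicValuation_ne_zero (by simpa using ha)
  have hpos : 0 < v.adicValuation (algebraMap K F a) := zero_lt_iff.mpr hne
  rw [inv_le_one₀ hpos] at h2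
  exact le_antisymm h1 h2

end Basic

end Fermat.Agent.Curve

namespace Fermat.Agent.Curve

open AlgebraicCurve KaehlerDifferential IntermediateField IsDedekindDomain Polynomial

variable {K F : Type*} [Field K] [Field F] [Algebra K F]

/-! ### The residue field of a place is `K` -/

section Residue

variable [IsAlgClosed K] (v : Place K F)

theorem aeval_mem_valuationSubring {y : F} (hy : y ∈ v.toValuationSubring) (r : K[X]) :
    aeval y r ∈ v.toValuationSubring := by
  induction r using Polynomial.induction_on' with
  | add p q hp hq => rw [map_add]; exact add_mem hp hq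
  | monomial n a =>
    rw [aeval_monomial]
    exact mul_mem (v.algebraMap_mem' a) (pow_mem hy n)

theorem adicValuation_aeval_eq_one {y : F}
    (h : ∀ a : K, v.adicValuation (y - algebraMap K F a) = 1) {s : K[X]} (hs : s ≠ 0) :
    v.adicValuation (aeval y s) = 1 := by
  have hsplit := (IsAlgClosed.splits s).eq_prod_roots
  rw [hsplit, map_mul, aeval_C, map_mul,
    adicValuation_algebraMap_eq_one v (leadingCoeff_ne_zero.mpr hs), one_mul,
    map_multiset_prod, map_multiset_prod, Multiset.map_map, Multiset.map_map]
  apply Multiset.prod_eq_one
  intro z hz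
  obtain ⟨a, -, rfl⟩ := Multiset.mem_map.mp hz
  simp only [Function.comp_apply, map_sub, aeval_X, aeval_C]
  exact h a

theorem adjoin_le_of_forall_sub_unit {y : F} (hy : y ∈ v.toValuationSubring)
    (h : ∀ a : K, v.adicValuation (y - algebraMap K F a) = 1) :
    ∀ z ∈ K⟮y⟯, z ∈ v.toValuationSubring := by
  intro z hz
  obtain ⟨r, s, rfl⟩ := (IntermediateField.mem_adjoin_simple_iff K z).mp hz
  by_cases hs : s = 0
  · rw [hs, map_zero, div_zero]
    exact v.toValuationSubring.zero_mem
  · rw [mem_iff_adicValuation_le_one, map_div₀, adicValuation_aeval_eq_one v h hs, div_one]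
    exact (mem_iff_adicValuation_le_one v _).mp (aeval_mem_valuationSubring v hy r)

/-- **The residue field of a place is `K`**: every element of the valuation ring is congruent to a
unique constant. -/
theorem place_exists_unique_value {x : F} (hx : IsFunctionFieldGen K F x) (f : F)
    (hf : f ∈ v.toValuationSubring) :
    ∃! a : K, v.adicValuation (f - algebraMap K F a) < 1 := by
  classical
  have hex : ∃ a : K, v.adicValuation (f - algebraMap K F a) < 1 := by
    by_contra hcon
    simp only [not_exists, not_lt] at hcon
    have hone : ∀ a : K, v.adicValuation (f - algebraMap K F a) = 1 := fun a =>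
      le_antisymm ((mem_iff_adicValuation_le_one v _).mp
        (sub_mem hf (v.algebraMap_mem' a))) (hcon a)
    -- `f ∉ K`
    have hfK : f ∉ (algebraMap K F).range := by
      rintro ⟨a, rfl⟩
      have := hone a
      rw [sub_self, map_zero] at this
      exact zero_ne_one this
    have hgen := hx.of_not_mem_range hfK
    have hsub := adjoin_le_of_forall_sub_unit v hf hone
    apply v.ne_top'
    refine SetLike.ext fun z => ⟨fun _ => ValuationSubring.mem_top z, fun _ => ?_⟩
    haveI := hgen.finite
    have hint : IsIntegral K⟮f⟯ z := Algebra.IsIntegral.isIntegral z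
    obtain ⟨p, hpm, hpz⟩ := hint
    -- `z` is integral over the valuation ring
    have hcoef : (↑(p.map (algebraMap K⟮f⟯ F)).coeffs : Set F) ⊆ ↑v.toValuationSubring.toSubring := by
      intro c hc
      rw [Polynomial.coeffs, Finset.mem_coe, Finset.mem_image] at hc
      obtain ⟨n, -, rfl⟩ := hc
      rw [coeff_map]
      exact hsub _ (Subtype.prop _)
    have hint' : IsIntegral v.toValuationSubring z := by
      refine ⟨(p.map (algebraMap K⟮f⟯ F)).toSubring v.toValuationSubring.toSubring hcoef,
        ?_, ?_⟩
      · exact (Polynomial.monic_toSubring _ _ _).mpr (hpm.map _)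
      · have h1 : Polynomial.eval₂ (algebraMap v.toValuationSubring F) z
            ((p.map (algebraMap K⟮f⟯ F)).toSubring v.toValuationSubring.toSubring hcoef)
            = Polynomial.eval₂ (algebraMap K⟮f⟯ F) z p := by
          rw [← Polynomial.eval_map, ← Polynomial.eval_map]
          congr 1
          exact Polynomial.map_toSubring _ _ _
        rw [h1]
        exact hpz
    obtain ⟨w, hw⟩ := (IsIntegrallyClosed.isIntegral_iff (R := v.toValuationSubring) (K := F)).mp hint'
    rw [← hw]
    exact Subtype.prop w
  obtain ⟨a, ha⟩ := hex
  refine ⟨a, ha, fun b hb => ?_⟩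
  by_contra hne
  have h1 : v.adicValuation (algebraMap K F (b - a)) = 1 :=
    adicValuation_algebraMap_eq_one v (sub_ne_zero.mpr hne)
  have h2 : algebraMap K F (b - a) = (f - algebraMap K F a) - (f - algebraMap K F b) := by
    rw [map_sub]; ring
  rw [h2] at h1
  have h3 := Valuation.map_sub v.adicValuation (f - algebraMap K F a) (f - algebraMap K F b)
  rw [h1] at h3
  exact absurd h3 (not_le.mpr (max_lt ha hb))

end Residue

end Fermat.Agent.Curve

namespace Fermat.Agent.Curve

open AlgebraicCurve KaehlerDifferential IntermediateField IsDedekindDomain Polynomial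

variable {K F : Type*} [Field K] [Field F] [Algebra K F]

section Degree

variable [IsAlgClosed K] (v : Place K F)

theorem algebraMap_residueField_surjective {x : F} (hx : IsFunctionFieldGen K F x) :
    Function.Surjective (algebraMap K v.ResidueField) := by
  intro r
  obtain ⟨g, rfl⟩ := IsLocalRing.residue_surjective r
  obtain ⟨a, ha, -⟩ := place_exists_unique_value v hx (g : F) g.2
  refine ⟨a, ?_⟩
  have hmem : g - algebraMap K v.toValuationSubring a ∈
      IsLocalRing.maximalIdeal v.toValuationSubring := by
    rw [← adicValuation_lt_one_iff_mem_maximalIdeal]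
    simpa using ha
  have h0 : IsLocalRing.residue v.toValuationSubring (g - algebraMap K v.toValuationSubring a) = 0 :=
    (IsLocalRing.residue_eq_zero_iff _).mpr hmem
  rw [map_sub, sub_eq_zero] at h0
  rw [h0]
  rfl

/-- Every place of a function field over an algebraically closed field has degree one. -/
theorem place_deg_eq_one {x : F} (hx : IsFunctionFieldGen K F x) : v.deg = 1 := by
  have hbij : Function.Bijective (Algebra.linearMap K v.ResidueField) :=
    ⟨(algebraMap K v.ResidueField).injective, algebraMap_residueField_surjective v hx⟩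
  have e := LinearEquiv.ofBijective (Algebra.linearMap K v.ResidueField) hbij
  unfold Place.deg
  rw [← e.finrank_eq, Module.finrank_self]

end Degree

end Fermat.Agent.Curve
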