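/-
Power series expansions at a rational place of a function field (project P1 / S24, task GEN1,
part 2).  For a place `v` of `F / K` whose residue field is `K` and an element `t` with
`v.ord t = 1` we construct the injective `K`-algebra homomorphism
`expandPS : v.toValuationSubring →ₐ[K] K⟦X⟧` with `t ↦ X`, and show that it is compatible with
orders.
-/
import Mathlib
import Fermat.Prelude.Def_AlgebraicCurve_CanonicalDivisor
import Fermat.Prelude.Def_AlgebraicCurve_Repartitions
import Fermat.Agent.Lib.Curve.Defs
import Fermat.Agent.Lib.Curve.PlaceBasic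
import Fermat.Agent.Lib.Curve.Residue

set_option autoImplicit false
set_option linter.style.haveILetI false
set_option linter.unusedSectionVars false

namespace Fermat.Agent.Curve

open AlgebraicCurve IsDedekindDomain WithZero

variable {K F : Type*} [Field K] [Field F] [Algebra K F]

section Defs

variable (v : Place K F)

/-- `v` is a rational place: every element of the valuation ring is congruent to a constant
modulo the maximal ideal. -/
def IsRationalPlace : Prop :=
  ∀ g : F, g ∈ v.toValuationSubring → ∃ a : K, v.adicValuation (g - algebraMap K F a) < 1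

/-- `p` is a `t`-adic expansion of `g` at the place `v`. -/
def IsExpansion (t g : F) (p : PowerSeries K) : Prop :=
  ∀ n : ℕ, PlaceAux.OrdGE v (g - Polynomial.aeval t (PowerSeries.trunc n p)) n

end Defs

theorem isRationalPlace_of_isFunctionFieldGen [IsAlgClosed K] {x : F}
    (hx : IsFunctionFieldGen K F x) (v : Place K F) : IsRationalPlace v := fun g hg =>
  (place_exists_unique_value v hx g hg).exists

section OrdGE

variable (v : Place K F)

theorem ordGE_pow {t : F} (ht : PlaceAux.OrdGE v t 1) (n : ℕ) : PlaceAux.OrdGE v (t ^ n) n := by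
  induction n with
  | zero =>
    rw [pow_zero, Nat.cast_zero, PlaceAux.ordGE_zero_iff_mem]
    exact v.toValuationSubring.one_mem
  | succ n ih =>
    rw [pow_succ, Nat.cast_succ]
    exact ih.mul v ht

theorem ordGE_one_of_ord_eq_one {t : F} (ht : v.ord t = 1) : PlaceAux.OrdGE v t 1 :=
  (PlaceAux.ordGE_iff v).mpr (Or.inr ht.ge)

theorem mem_of_ordGE_one {t : F} (ht : PlaceAux.OrdGE v t 1) : t ∈ v.toValuationSubring :=
  (PlaceAux.ordGE_zero_iff_mem v).mp (ht.mono v (by norm_num))

theorem aeval_mem_valuationSubring' {y : F} (hy : y ∈ v.toValuationSubring) (r : Polynomial K) :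
    Polynomial.aeval y r ∈ v.toValuationSubring := by
  induction r using Polynomial.induction_on' with
  | add p q hp hq => rw [map_add]; exact add_mem hp hq
  | monomial n a =>
    rw [Polynomial.aeval_monomial]
    exact mul_mem (v.algebraMap_mem' a) (pow_mem hy n)

theorem ordGE_aeval_X_pow_mul {t : F} (ht : PlaceAux.OrdGE v t 1) (n : ℕ) (Q : Polynomial K) :
    PlaceAux.OrdGE v (Polynomial.aeval t (Polynomial.X ^ n * Q)) n := by
  rw [map_mul, map_pow, Polynomial.aeval_X]
  have h1 := ordGE_pow v ht n
  have h2 : PlaceAux.OrdGE v (Polynomial.aeval t Q) 0 :=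
    (PlaceAux.ordGE_zero_iff_mem v).mpr (aeval_mem_valuationSubring' v (mem_of_ordGE_one v ht) Q)
  have := h1.mul v h2
  rwa [add_zero] at this

theorem ordGE_aeval_of_coeff_eq_zero {t : F} (ht : PlaceAux.OrdGE v t 1) (n : ℕ)
    (P : Polynomial K) (hP : ∀ d < n, P.coeff d = 0) :
    PlaceAux.OrdGE v (Polynomial.aeval t P) n := by
  obtain ⟨Q, rfl⟩ := (Polynomial.X_pow_dvd_iff).mpr hP
  exact ordGE_aeval_X_pow_mul v ht n Q

/-- A polynomial in a uniformizer which vanishes to order `n` has no coefficients below `n`. -/
theorem coeff_eq_zero_of_ordGE_aeval {t : F} (ht : v.ord t = 1) :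
    ∀ (n : ℕ) (P : Polynomial K), PlaceAux.OrdGE v (Polynomial.aeval t P) n →
      ∀ i < n, P.coeff i = 0 := by
  have ht1 := ordGE_one_of_ord_eq_one v ht
  have htmem := mem_of_ordGE_one v ht1
  have ht0 : t ≠ 0 := by
    rintro rfl
    rw [v.ord_zero] at ht
    exact zero_ne_one ht
  intro n
  induction n with
  | zero => intro P _ i hi; exact absurd hi (Nat.not_lt_zero i)
  | succ n ih =>
    intro P hP
    have hdecomp : Polynomial.aeval t P
        = Polynomial.aeval t P.divX * t + algebraMap K F (P.coeff 0) := by
      conv_lhs => rw [← Polynomial.divX_mul_X_add P]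
      rw [map_add, map_mul, Polynomial.aeval_X, Polynomial.aeval_C]
    set s := Polynomial.aeval t P.divX with hs
    set c := P.coeff 0 with hc
    have hsmem : s ∈ v.toValuationSubring := aeval_mem_valuationSubring' v htmem _
    have hst : PlaceAux.OrdGE v (s * t) 1 := by
      have := ((PlaceAux.ordGE_zero_iff_mem v).mpr hsmem).mul v ht1
      rwa [zero_add] at this
    have hc0 : c = 0 := by
      by_contra hne
      have h1 : v.adicValuation (algebraMap K F c) = 1 := adicValuation_algebraMap_eq_one v hne
      have h2 : v.adicValuation (s * t) < 1 := by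
        refine lt_of_le_of_lt hst ?_
        rw [← exp_zero, exp_lt_exp]; norm_num
      have h3 : v.adicValuation (s * t + algebraMap K F c) = 1 := by
        rw [← h1]
        exact Valuation.map_add_eq_of_lt_right _ (by rw [h1]; exact h2)
      rw [hdecomp] at hP
      have h4 : v.adicValuation (s * t + algebraMap K F c) < 1 := by
        refine lt_of_le_of_lt hP ?_
        rw [← exp_zero, exp_lt_exp]
        have : (0 : ℤ) ≤ (n : ℤ) := Int.natCast_nonneg n
        push_cast
        omega
      rw [h3] at h4
      exact lt_irrefl _ h4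
    have hsn : PlaceAux.OrdGE v s n := by
      rw [hdecomp, hc0, map_zero, add_zero] at hP
      rw [PlaceAux.ordGE_iff] at hP ⊢
      by_cases hs0 : s = 0
      · exact Or.inl hs0
      · right
        rcases hP with h | h
        · exact absurd h (mul_ne_zero hs0 ht0)
        · rw [v.ord_mul hs0 ht0, ht] at h
          push_cast at h
          omega
    have hih := ih P.divX hsn
    intro i hi
    rcases i with _ | j
    · exact hc0
    · have := hih j (by omega)
      rwa [Polynomial.coeff_divX] at this

end OrdGE

section Expansion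

variable (v : Place K F)

theorem IsExpansion.mem {t g : F} {p : PowerSeries K} (h : IsExpansion v t g p) :
    g ∈ v.toValuationSubring := by
  have := h 0
  rw [PowerSeries.trunc_zero', map_zero, sub_zero, Nat.cast_zero] at this
  exact (PlaceAux.ordGE_zero_iff_mem v).mp this

/-- Expansions with respect to a uniformizer are unique. -/
theorem IsExpansion.unique {t g : F} (ht : v.ord t = 1) {p q : PowerSeries K}
    (hp : IsExpansion v t g p) (hq : IsExpansion v t g q) : p = q := by
  ext i
  have h1 := (hq (i + 1)).sub v (hp (i + 1))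
  have h2 : g - Polynomial.aeval t (PowerSeries.trunc (i + 1) q)
      - (g - Polynomial.aeval t (PowerSeries.trunc (i + 1) p))
      = Polynomial.aeval t (PowerSeries.trunc (i + 1) p - PowerSeries.trunc (i + 1) q) := by
    rw [map_sub]; ring
  rw [h2] at h1
  have h3 := coeff_eq_zero_of_ordGE_aeval v ht (i + 1) _ h1 i (Nat.lt_succ_self i)
  simp only [Polynomial.coeff_sub, PowerSeries.coeff_trunc, Nat.lt_succ_self, if_true,
    sub_eq_zero] at h3
  exact h3

theorem isExpansion_algebraMap (t : F) (c : K) :
    IsExpansion v t (algebraMap K F c) (PowerSeries.C c) := by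
  intro n
  rcases n with _ | n
  · rw [PowerSeries.trunc_zero', map_zero, sub_zero, Nat.cast_zero, PlaceAux.ordGE_zero_iff_mem]
    exact v.algebraMap_mem' c
  · rw [PowerSeries.trunc_C, Polynomial.aeval_C, sub_self]
    exact PlaceAux.ordGE_zero v _

theorem isExpansion_zero (t : F) : IsExpansion v t 0 0 := by
  have := isExpansion_algebraMap v t (0 : K)
  rwa [map_zero, map_zero] at this

theorem isExpansion_one (t : F) : IsExpansion v t 1 1 := by
  have := isExpansion_algebraMap v t (1 : K)
  rwa [map_one, map_one] at this

theorem isExpansion_self {t : F} (ht : PlaceAux.OrdGE v t 1) :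
    IsExpansion v t t PowerSeries.X := by
  intro n
  rcases n with _ | _ | n
  · rw [PowerSeries.trunc_zero', map_zero, sub_zero, Nat.cast_zero, PlaceAux.ordGE_zero_iff_mem]
    exact mem_of_ordGE_one v ht
  · rw [PowerSeries.trunc_one_X, map_zero, sub_zero]
    simpa using ht
  · rw [PowerSeries.trunc_X, Polynomial.aeval_X, sub_self]
    exact PlaceAux.ordGE_zero v _

theorem IsExpansion.add {t g h : F} {p q : PowerSeries K} (hp : IsExpansion v t g p)
    (hq : IsExpansion v t h q) : IsExpansion v t (g + h) (p + q) := by
  intro n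
  have := (hp n).add v (hq n)
  have h2 : g - Polynomial.aeval t (PowerSeries.trunc n p)
      + (h - Polynomial.aeval t (PowerSeries.trunc n q))
      = g + h - Polynomial.aeval t (PowerSeries.trunc n (p + q)) := by
    rw [map_add, map_add]; ring
  rwa [h2] at this

theorem IsExpansion.mul {t g h : F} (ht : PlaceAux.OrdGE v t 1) {p q : PowerSeries K}
    (hp : IsExpansion v t g p) (hq : IsExpansion v t h q) : IsExpansion v t (g * h) (p * q) := by
  intro n
  set A := PowerSeries.trunc n p with hA
  set B := PowerSeries.trunc n q with hB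
  have hh : PlaceAux.OrdGE v h 0 := (PlaceAux.ordGE_zero_iff_mem v).mpr hq.mem
  have hAm : PlaceAux.OrdGE v (Polynomial.aeval t A) 0 :=
    (PlaceAux.ordGE_zero_iff_mem v).mpr (aeval_mem_valuationSubring' v (mem_of_ordGE_one v ht) A)
  have h1 : PlaceAux.OrdGE v ((g - Polynomial.aeval t A) * h) n := by
    have := (hp n).mul v hh
    rwa [add_zero] at this
  have h2 : PlaceAux.OrdGE v (Polynomial.aeval t A * (h - Polynomial.aeval t B)) n := by
    have := hAm.mul v (hq n)
    rwa [zero_add] at this
  have h3 : PlaceAux.OrdGE v (Polynomial.aeval t (A * B - PowerSeries.trunc n (p * q))) n := by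
    apply ordGE_aeval_of_coeff_eq_zero v ht
    intro d hd
    rw [Polynomial.coeff_sub, PowerSeries.coeff_trunc, if_pos hd,
      PowerSeries.coeff_mul_eq_coeff_trunc_mul_trunc p q hd, ← Polynomial.coe_mul,
      Polynomial.coeff_coe, sub_self]
  have h4 : g * h - Polynomial.aeval t (PowerSeries.trunc n (p * q))
      = (g - Polynomial.aeval t A) * h + Polynomial.aeval t A * (h - Polynomial.aeval t B)
        + Polynomial.aeval t (A * B - PowerSeries.trunc n (p * q)) := by
    have e1 : Polynomial.aeval t (A * B - PowerSeries.trunc n (p * q))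
        = Polynomial.aeval t A * Polynomial.aeval t B
          - Polynomial.aeval t (PowerSeries.trunc n (p * q)) := by
      rw [map_sub (Polynomial.aeval (R := K) t), map_mul (Polynomial.aeval (R := K) t)]
    rw [e1]; ring
  rw [h4]
  exact (h1.add v h2).add v h3

end Expansion

section Existence

variable (v : Place K F)

theorem ordGE_one_of_adicValuation_lt_one {w : F} (h : v.adicValuation w < 1) :
    PlaceAux.OrdGE v w 1 := by
  rw [PlaceAux.ordGE_iff]
  by_cases hw : w = 0
  · exact Or.inl hw
  · right
    rw [v.adicValuation_eq_exp_neg_ord hw, ← exp_zero, exp_lt_exp] at h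
    omega

theorem div_mem_of_ordGE_one {w t : F} (ht : v.ord t = 1) (hw : PlaceAux.OrdGE v w 1) :
    w / t ∈ v.toValuationSubring := by
  by_cases hw0 : w = 0
  · rw [hw0, zero_div]; exact v.toValuationSubring.zero_mem
  have ht0 : t ≠ 0 := by
    rintro rfl
    rw [v.ord_zero] at ht
    exact zero_ne_one ht
  apply PlaceAux.mem_of_ord_nonneg
  rw [div_eq_mul_inv, v.ord_mul hw0 (inv_ne_zero ht0), v.ord_inv, ht]
  rcases (PlaceAux.ordGE_iff v).mp hw with h | h
  · exact absurd h hw0
  · omega

variable (hv : IsRationalPlace v)

/-- the value of `g ∈ O_v` at the rational place `v` -/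
noncomputable def valueAt (hv : IsRationalPlace v) (g : v.toValuationSubring) : K :=
  (hv g g.2).choose

theorem valueAt_spec (g : v.toValuationSubring) :
    v.adicValuation ((g : F) - algebraMap K F (valueAt v hv g)) < 1 :=
  (hv g g.2).choose_spec

/-- `g ↦ (g - g(v)) / t` on the valuation ring. -/
noncomputable def shiftAt (hv : IsRationalPlace v) {t : F} (ht : v.ord t = 1)
    (g : v.toValuationSubring) : v.toValuationSubring :=
  ⟨((g : F) - algebraMap K F (valueAt v hv g)) / t,
    div_mem_of_ordGE_one v ht (ordGE_one_of_adicValuation_lt_one v (valueAt_spec v hv g))⟩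

theorem coe_shiftAt {t : F} (ht : v.ord t = 1) (g : v.toValuationSubring) :
    ((shiftAt v hv ht g : v.toValuationSubring) : F)
      = ((g : F) - algebraMap K F (valueAt v hv g)) / t := rfl

/-- the candidate expansion -/
noncomputable def expansionSeries (hv : IsRationalPlace v) {t : F} (ht : v.ord t = 1)
    (g : v.toValuationSubring) : PowerSeries K :=
  PowerSeries.mk fun n => valueAt v hv ((shiftAt v hv ht)^[n] g)

theorem sub_aeval_trunc_expansionSeries {t : F} (ht : v.ord t = 1) (g : v.toValuationSubring)
    (n : ℕ) :
    (g : F) - Polynomial.aeval t (PowerSeries.trunc n (expansionSeries v hv ht g))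
      = t ^ n * (((shiftAt v hv ht)^[n] g : v.toValuationSubring) : F) := by
  have ht0 : t ≠ 0 := by
    rintro rfl
    rw [v.ord_zero] at ht
    exact zero_ne_one ht
  induction n with
  | zero => simp
  | succ n ih =>
    rw [PowerSeries.trunc_succ, map_add, Polynomial.aeval_monomial, ← sub_sub, ih,
      Function.iterate_succ_apply', coe_shiftAt, expansionSeries, PowerSeries.coeff_mk]
    field_simp
    ring

theorem isExpansion_expansionSeries {t : F} (ht : v.ord t = 1) (g : v.toValuationSubring) :
    IsExpansion v t (g : F) (expansionSeries v hv ht g) := by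
  intro n
  rw [sub_aeval_trunc_expansionSeries]
  have h1 := ordGE_pow v (ordGE_one_of_ord_eq_one v ht) n
  have h2 : PlaceAux.OrdGE v ((((shiftAt v hv ht)^[n] g : v.toValuationSubring) : F)) 0 :=
    (PlaceAux.ordGE_zero_iff_mem v).mpr (Subtype.prop _)
  have := h1.mul v h2
  rwa [add_zero] at this

include hv in
theorem exists_isExpansion {t : F} (ht : v.ord t = 1) {g : F} (hg : g ∈ v.toValuationSubring) :
    ∃ p : PowerSeries K, IsExpansion v t g p :=
  ⟨_, isExpansion_expansionSeries v hv ht ⟨g, hg⟩⟩

end Existence

section AlgHom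

variable (v : Place K F)

open Classical in
/-- the `t`-adic expansion of `g` (junk value `0` if there is none) -/
noncomputable def expandFun (t g : F) : PowerSeries K :=
  if h : ∃ p : PowerSeries K, IsExpansion v t g p then h.choose else 0

theorem expandFun_eq {t g : F} (ht : v.ord t = 1) {p : PowerSeries K}
    (h : IsExpansion v t g p) : expandFun v t g = p := by
  have hex : ∃ p : PowerSeries K, IsExpansion v t g p := ⟨p, h⟩
  rw [expandFun, dif_pos hex]
  exact IsExpansion.unique v ht hex.choose_spec h

theorem isExpansion_expandFun (hv : IsRationalPlace v) {t g : F} (ht : v.ord t = 1)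
    (hg : g ∈ v.toValuationSubring) : IsExpansion v t g (expandFun v t g) := by
  have hex := exists_isExpansion v hv ht hg
  rw [expandFun, dif_pos hex]
  exact hex.choose_spec

/-- **The expansion homomorphism** `O_v → K⟦X⟧` at a rational place with respect to a
uniformizer `t`. -/
noncomputable def expandPS (hv : IsRationalPlace v) {t : F} (ht : v.ord t = 1) :
    v.toValuationSubring →ₐ[K] PowerSeries K where
  toFun g := expandFun v t (g : F)
  map_one' := expandFun_eq v ht (isExpansion_one v t)
  map_zero' := expandFun_eq v ht (isExpansion_zero v t)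
  map_mul' g h := expandFun_eq v ht
    ((isExpansion_expandFun v hv ht g.2).mul v (ordGE_one_of_ord_eq_one v ht)
      (isExpansion_expandFun v hv ht h.2))
  map_add' g h := expandFun_eq v ht
    ((isExpansion_expandFun v hv ht g.2).add v (isExpansion_expandFun v hv ht h.2))
  commutes' c := expandFun_eq v ht (isExpansion_algebraMap v t c)

variable (hv : IsRationalPlace v)

theorem isExpansion_expandPS {t : F} (ht : v.ord t = 1) (g : v.toValuationSubring) :
    IsExpansion v t (g : F) (expandPS v hv ht g) :=
  isExpansion_expandFun v hv ht g.2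

theorem expandPS_eq {t : F} (ht : v.ord t = 1) (g : v.toValuationSubring) {p : PowerSeries K}
    (h : IsExpansion v t (g : F) p) : expandPS v hv ht g = p :=
  expandFun_eq v ht h

theorem expandPS_uniformizer {t : F} (ht : v.ord t = 1) (htm : t ∈ v.toValuationSubring) :
    expandPS v hv ht ⟨t, htm⟩ = PowerSeries.X :=
  expandPS_eq v hv ht _ (isExpansion_self v (ordGE_one_of_ord_eq_one v ht))

theorem expandPS_algebraMap {t : F} (ht : v.ord t = 1) (c : K) :
    expandPS v hv ht (algebraMap K v.toValuationSubring c) = PowerSeries.C c :=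
  expandPS_eq v hv ht _ (isExpansion_algebraMap v t c)

/-- coefficients of an expansion below the order vanish -/
theorem IsExpansion.coeff_eq_zero_of_lt {t g : F} (ht : v.ord t = 1) {p : PowerSeries K}
    (h : IsExpansion v t g p) {m : ℕ} (hm : PlaceAux.OrdGE v g m) {i : ℕ} (hi : i < m) :
    PowerSeries.coeff i p = 0 := by
  have h1 := hm.sub v (h m)
  rw [sub_sub_cancel] at h1
  have h2 := coeff_eq_zero_of_ordGE_aeval v ht m _ h1 i hi
  rwa [PowerSeries.coeff_trunc, if_pos hi] at h2

/-- the coefficient of an expansion at the order does not vanish -/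
theorem IsExpansion.coeff_ne_zero {t g : F} (ht : v.ord t = 1) {p : PowerSeries K}
    (h : IsExpansion v t g p) (hg : g ≠ 0) {m : ℕ} (hm : v.ord g = m) :
    PowerSeries.coeff m p ≠ 0 := by
  intro h0
  have hmm : PlaceAux.OrdGE v g m := (PlaceAux.ordGE_iff v).mpr (Or.inr hm.ge)
  have htr : PowerSeries.trunc (m + 1) p = 0 := by
    ext i
    rw [PowerSeries.coeff_trunc, Polynomial.coeff_zero]
    split_ifs with hi
    · rcases Nat.lt_succ_iff_lt_or_eq.mp hi with hlt | rfl
      · exact h.coeff_eq_zero_of_lt v ht hmm hlt
      · exact h0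
    · rfl
  have h1 := h (m + 1)
  rw [htr, map_zero, sub_zero, PlaceAux.ordGE_iff] at h1
  rcases h1 with h1 | h1
  · exact hg h1
  · rw [hm] at h1
    push_cast at h1
    omega

theorem IsExpansion.order_eq {t g : F} (ht : v.ord t = 1) {p : PowerSeries K}
    (h : IsExpansion v t g p) (hg : g ≠ 0) : p.order = ((v.ord g).toNat : ℕ∞) := by
  have hnn : 0 ≤ v.ord g := PlaceAux.ord_nonneg_of_mem v h.mem
  have hm : v.ord g = ((v.ord g).toNat : ℕ) := (Int.toNat_of_nonneg hnn).symm
  rw [PowerSeries.order_eq_nat]
  refine ⟨h.coeff_ne_zero v ht hg hm, fun i hi => ?_⟩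
  exact h.coeff_eq_zero_of_lt v ht ((PlaceAux.ordGE_iff v).mpr (Or.inr hm.ge)) hi

theorem order_expandPS {t : F} (ht : v.ord t = 1) {g : v.toValuationSubring} (hg : g ≠ 0) :
    (expandPS v hv ht g).order = ((v.ord (g : F)).toNat : ℕ∞) :=
  (isExpansion_expandPS v hv ht g).order_eq v ht (by simpa using hg)

theorem expandPS_injective {t : F} (ht : v.ord t = 1) :
    Function.Injective (expandPS v hv ht) := by
  rw [injective_iff_map_eq_zero]
  intro g hg
  by_contra hne
  have := order_expandPS v hv ht hne
  rw [hg, PowerSeries.order_zero] at this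
  exact ENat.top_ne_natCast _ this

/-- the constant coefficient of the expansion is the value at the place -/
theorem adicValuation_sub_constantCoeff_lt_one {t : F} (ht : v.ord t = 1)
    (g : v.toValuationSubring) :
    v.adicValuation ((g : F)
      - algebraMap K F (PowerSeries.constantCoeff (expandPS v hv ht g))) < 1 := by
  have h := isExpansion_expandPS v hv ht g 1
  rw [PowerSeries.trunc_one_left, Polynomial.aeval_C, PowerSeries.coeff_zero_eq_constantCoeff_apply] at h
  refine lt_of_le_of_lt h ?_
  rw [← exp_zero, exp_lt_exp]; norm_num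

end AlgHom

end Fermat.Agent.Curve
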