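/-
P1 part C / S24-GEN2 (helper5): global theory of places of a function field `F/K`
(`K` algebraically closed of characteristic zero, `F` finite over `K(x)`).

* Dedekind dictionary: `A = K[x] ⊆ F`, `B` = integral closure of `A` in `F`; places `v` of `F/K`
  with `x ∈ O_v` correspond to the nonzero primes of `B`.
* `finite_zeros`, `sum_ord_zeros`: the zeros of `x - a` form a finite set and the sum of the
  orders is `[F : K(x)]`  (fundamental identity `∑ e f = n` with `f = 1`).
* `finite_poles`, `sum_ord_poles`: the same for the poles of `x`.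
* `hasPrincipalDivisors`: every nonzero `f` has a divisor, of degree zero.
-/
import Mathlib
import Fermat.Agent.Lib.Curve.Defs
import Fermat.Agent.Lib.Curve.PlaceBasic
import Fermat.Agent.Lib.Curve.TrDeg
import Fermat.Agent.Lib.Curve.ResidueField

set_option autoImplicit false
set_option linter.unusedSectionVars false
set_option linter.style.haveILetI false

namespace Fermat.Agent.Curve

open AlgebraicCurve IsDedekindDomain WithZero IntermediateField
open scoped IntermediateField.algebraAdjoinAdjoin

variable {K F : Type*} [Field K] [Field F] [Algebra K F]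

/-- the polynomial ring `K[x] ⊆ F` -/
abbrev Ax (K : Type*) {F : Type*} [Field K] [Field F] [Algebra K F] (x : F) : Subalgebra K F :=
  Algebra.adjoin K {x}

/-- the integral closure of `K[x]` in `F` -/
abbrev Bx (K : Type*) {F : Type*} [Field K] [Field F] [Algebra K F] (x : F) :
    Subalgebra (Ax K x) F :=
  integralClosure (Ax K x) F

namespace PlaceAux

/-- an element integral over a ring mapping into the valuation ring lies in the valuation ring -/
theorem mem_of_isIntegral_of_algebraMap_mem (v : Place K F) {R : Type*} [CommRing R] [Algebra R F]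
    (hR : ∀ r : R, algebraMap R F r ∈ v.toValuationSubring) {f : F} (hf : IsIntegral R f) :
    f ∈ v.toValuationSubring := by
  obtain ⟨p, hmonic, hp⟩ := hf
  let φ : R →+* v.toValuationSubring :=
    (algebraMap R F).codRestrict v.toValuationSubring.toSubring hR
  have hint : IsIntegral v.toValuationSubring f := by
    refine ⟨p.map φ, hmonic.map φ, ?_⟩
    rw [Polynomial.eval₂_map]
    exact hp
  obtain ⟨g, hg⟩ := IsIntegrallyClosed.isIntegral_iff.mp hint
  rw [← hg]
  exact g.2

/-- if `x` lies in the valuation ring of `v` then so does `K[x]` -/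
theorem Ax_le (v : Place K F) {x : F} (hxv : x ∈ v.toValuationSubring) (r : Ax K x) :
    algebraMap (Ax K x) F r ∈ v.toValuationSubring := by
  let S : Subalgebra K F :=
    { v.toValuationSubring.toSubring with
      algebraMap_mem' := fun a => v.algebraMap_mem' a }
  have h : Algebra.adjoin K {x} ≤ S := Algebra.adjoin_le (by
    intro y hy
    rw [Set.mem_singleton_iff] at hy
    rw [hy]
    exact hxv)
  exact h r.2

/-- if `x` lies in the valuation ring of `v` then so does the integral closure of `K[x]` -/
theorem Bx_le (v : Place K F) {x : F} (hxv : x ∈ v.toValuationSubring) (b : Bx K x) :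
    algebraMap (Bx K x) F b ∈ v.toValuationSubring :=
  mem_of_isIntegral_of_algebraMap_mem v (Ax_le v hxv) b.2

end PlaceAux

open PlaceAux

/-- if every element of `S` is congruent modulo `q` to an element of `R` then the residue field
extension is trivial -/
theorem finrank_quotient_eq_one_of_forall_exists {R S : Type*} [CommRing R] [CommRing S]
    [Algebra R S] (p : Ideal R) (q : Ideal S) [q.LiesOver p] [p.IsMaximal] [q.IsMaximal]
    (h : ∀ b : S, ∃ r : R, b - algebraMap R S r ∈ q) :
    Module.finrank (R ⧸ p) (S ⧸ q) = 1 := by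
  letI : Field (R ⧸ p) := Ideal.Quotient.field _
  letI : Field (S ⧸ q) := Ideal.Quotient.field _
  rw [finrank_eq_one_iff_of_nonzero' (1 : S ⧸ q) one_ne_zero]
  intro w
  obtain ⟨b, rfl⟩ := Ideal.Quotient.mk_surjective w
  obtain ⟨r, hr⟩ := h b
  refine ⟨Ideal.Quotient.mk _ r, ?_⟩
  rw [Algebra.smul_def, mul_one, Ideal.Quotient.algebraMap_mk_of_liesOver]
  symm
  rw [Ideal.Quotient.eq]
  exact hr

section Inst

variable [CharZero K] {x : F} [hx : Fact (IsFunctionFieldGen K F x)]

theorem Ax.isPrincipalIdealRing : IsPrincipalIdealRing (Ax K x) :=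
  IsPrincipalIdealRing.of_surjective
    (Polynomial.algEquivOfTranscendental K x hx.out.transcendental).toRingEquiv.toRingHom
    (Polynomial.algEquivOfTranscendental K x hx.out.transcendental).surjective

local instance : IsPrincipalIdealRing (Ax K x) := Ax.isPrincipalIdealRing

local instance : FiniteDimensional K⟮x⟯ F := hx.out.finite

theorem charZero_adjoin_simple : CharZero K⟮x⟯ :=
  charZero_of_injective_algebraMap (algebraMap K K⟮x⟯).injective

local instance : CharZero K⟮x⟯ := charZero_adjoin_simple

theorem Bx.isDedekindDomain : IsDedekindDomain (Bx K x) :=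
  integralClosure.isDedekindDomain (Ax K x) K⟮x⟯ F

local instance : IsDedekindDomain (Bx K x) := Bx.isDedekindDomain

theorem Bx.isFractionRing : IsFractionRing (Bx K x) F :=
  integralClosure.isFractionRing_of_finite_extension K⟮x⟯ F

local instance : IsFractionRing (Bx K x) F := Bx.isFractionRing

theorem Bx.moduleFinite : Module.Finite (Ax K x) (Bx K x) :=
  IsIntegralClosure.finite (Ax K x) K⟮x⟯ F (Bx K x)

local instance : Module.Finite (Ax K x) (Bx K x) := Bx.moduleFinite

theorem Bx.finrank_eq : Module.finrank (Ax K x) (Bx K x) = Module.finrank K⟮x⟯ F :=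
  IsIntegralClosure.rank (Ax K x) K⟮x⟯ F (Bx K x)

/-- `x - a` as an element of `K[x]` -/
def xi (x : F) (a : K) : Ax K x :=
  ⟨x - algebraMap K F a, Subalgebra.sub_mem _ (Algebra.self_mem_adjoin_singleton K x)
    (Subalgebra.algebraMap_mem _ a)⟩

@[simp] theorem xi_coe (a : K) : ((xi x a : Ax K x) : F) = x - algebraMap K F a := rfl

theorem xi_eq (a : K) :
    xi x a = Polynomial.algEquivOfTranscendental K x hx.out.transcendental
      (Polynomial.X - Polynomial.C a) := by
  apply Subtype.ext
  rw [Polynomial.algEquivOfTranscendental_apply]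
  simp [xi, Polynomial.aeval_X, Polynomial.aeval_C]

theorem xi_irreducible (a : K) : Irreducible (xi x a) := by
  rw [xi_eq]
  exact (MulEquiv.irreducible_iff
    (Polynomial.algEquivOfTranscendental K x hx.out.transcendental).toMulEquiv).mpr
    (Polynomial.irreducible_X_sub_C a)

theorem xi_ne_zero (a : K) : xi x a ≠ 0 := (xi_irreducible a).ne_zero

/-- the prime `(x - a)` of `K[x]` -/
def pa (x : F) (a : K) : Ideal (Ax K x) := Ideal.span {xi x a}

theorem pa_isMaximal (a : K) : (pa x a).IsMaximal :=
  PrincipalIdealRing.isMaximal_of_irreducible (xi_irreducible a)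

local instance (a : K) : (pa x a).IsMaximal := pa_isMaximal a

theorem pa_ne_bot (a : K) : pa x a ≠ ⊥ := by
  rw [pa, ne_eq, Ideal.span_singleton_eq_bot]
  exact xi_ne_zero a

theorem algebraMap_xi_mem (a : K) (q : (pa x a).primesOver (Bx K x)) :
    algebraMap (Ax K x) (Bx K x) (xi x a) ∈ q.1 := by
  have hlo : q.1.LiesOver (pa x a) := q.2.2
  rw [← Ideal.mem_of_liesOver q.1 (pa x a)]
  exact Ideal.subset_span rfl

theorem algebraMap_xi_ne_zero (a : K) : algebraMap (Ax K x) (Bx K x) (xi x a) ≠ 0 := by
  intro h
  exact xi_ne_zero a ((FaithfulSMul.algebraMap_injective (Ax K x) (Bx K x))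
    (h.trans (map_zero _).symm))

/-- the height one prime of `B` attached to a prime over `(x - a)` -/
def heightOneOfPrimesOver (a : K) (q : (pa x a).primesOver (Bx K x)) :
    HeightOneSpectrum (Bx K x) where
  asIdeal := q.1
  isPrime := q.2.1
  ne_bot := by
    intro hbot
    have h := algebraMap_xi_mem a q
    rw [hbot, Ideal.mem_bot] at h
    exact algebraMap_xi_ne_zero a h

/-- the place of `F` attached to a prime over `(x - a)` -/
noncomputable def placeOver (a : K) (q : (pa x a).primesOver (Bx K x)) : Place K F :=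
  Place.ofHeightOneSpectrum (K := K) (heightOneOfPrimesOver a q)

theorem map_pa (a : K) :
    (pa x a).map (algebraMap (Ax K x) (Bx K x))
      = Ideal.span {algebraMap (Ax K x) (Bx K x) (xi x a)} := by
  rw [pa, Ideal.map_span, Set.image_singleton]

theorem ord_placeOver (a : K) (q : (pa x a).primesOver (Bx K x)) :
    (placeOver a q).ord (x - algebraMap K F a) = (q.1.ramificationIdx (Ax K x) : ℤ) := by
  have hlo : q.1.LiesOver (pa x a) := q.2.2
  have hpr : q.1.IsPrime := q.2.1
  have hmap : (pa x a).map (algebraMap (Ax K x) (Bx K x)) ≠ ⊥ := by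
    rw [map_pa, ne_eq, Ideal.span_singleton_eq_bot]
    exact algebraMap_xi_ne_zero a
  rw [Ideal.IsDedekindDomain.ramificationIdx_eq_multiplicity (pa x a) q.1 hmap, map_pa]
  rw [placeOver, ofHeightOneSpectrum_ord]
  have hcoe : x - algebraMap K F a
      = algebraMap (Bx K x) F (algebraMap (Ax K x) (Bx K x) (xi x a)) := rfl
  rw [hcoe, HeightOneSpectrum.valuation_of_algebraMap,
    HeightOneSpectrum.intValuation_eq_exp_neg_multiplicity _ (algebraMap_xi_ne_zero a)]
  simp [heightOneOfPrimesOver]

theorem mem_primesOver_iff_ordGE (a : K) (q : (pa x a).primesOver (Bx K x)) (b : Bx K x) :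
    b ∈ q.1 ↔ OrdGE (placeOver a q) (algebraMap (Bx K x) F b) 1 := by
  rw [OrdGE, placeOver, ofHeightOneSpectrum_adicValuation,
    HeightOneSpectrum.valuation_of_algebraMap]
  have h := (heightOneOfPrimesOver a q).intValuation_le_pow_iff_mem b 1
  rw [pow_one] at h
  exact h.symm

section AlgClosed

variable [IsAlgClosed K]

theorem inertiaDeg_primesOver (a : K) (q : (pa x a).primesOver (Bx K x)) :
    q.1.inertiaDeg (Ax K x) = 1 := by
  have hlo : q.1.LiesOver (pa x a) := q.2.2
  have hpr : q.1.IsPrime := q.2.1
  have hmax : q.1.IsMaximal := (heightOneOfPrimesOver a q).isMaximal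
  rw [Ideal.inertiaDeg_eq_of_isMaximal (pa x a) q.1]
  apply finrank_quotient_eq_one_of_forall_exists
  intro b
  have hb : algebraMap (Bx K x) F b ∈ (placeOver a q).toValuationSubring := by
    rw [placeOver, Place.ofHeightOneSpectrum_toValuationSubring,
      Valuation.mem_valuationSubring_iff]
    exact HeightOneSpectrum.valuation_le_one _ b
  obtain ⟨c, hc⟩ := exists_const_ordGE_one hx.out (placeOver a q) hb
  refine ⟨algebraMap K (Ax K x) c, ?_⟩
  rw [mem_primesOver_iff_ordGE]
  exact hc

theorem sum_ramificationIdx (a : K) [Fintype ((pa x a).primesOver (Bx K x))] :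
    ∑ q : (pa x a).primesOver (Bx K x), q.1.ramificationIdx (Ax K x)
      = Module.finrank K⟮x⟯ F := by
  rw [← Bx.finrank_eq, ← Ideal.sum_ramification_inertia_eq_finrank (pa x a) (Bx K x)]
  refine Finset.sum_congr rfl fun q _ => ?_
  rw [inertiaDeg_primesOver, mul_one]

end AlgClosed

theorem placeOver_injective (a : K) : Function.Injective (placeOver (x := x) a) := by
  intro q q' h
  apply Subtype.ext
  ext b
  rw [mem_primesOver_iff_ordGE, mem_primesOver_iff_ordGE, h]

theorem range_placeOver (a : K) :
    Set.range (placeOver (x := x) a) = {v : Place K F | 0 < v.ord (x - algebraMap K F a)} := by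
  ext v
  simp only [Set.mem_range, Set.mem_ofPred_eq]
  constructor
  · rintro ⟨q, rfl⟩
    rw [ord_placeOver]
    have hpr : q.1.IsPrime := q.2.1
    exact_mod_cast Ideal.ramificationIdx_pos q.1 (Ax K x)
  · intro hv
    have hxv : x ∈ v.toValuationSubring := by
      have h1 : x - algebraMap K F a ∈ v.toValuationSubring := mem_of_ord_nonneg v hv.le
      have h2 := v.toValuationSubring.add_mem _ _ h1 (algebraMap_mem v a)
      rwa [sub_add_cancel] at h2
    set w := centre v (Bx_le v hxv) with hw
    have hle : pa x a ≤ w.asIdeal.under (Ax K x) := by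
      rw [pa, Ideal.span_le, Set.singleton_subset_iff]
      show algebraMap (Ax K x) (Bx K x) (xi x a) ∈ w.asIdeal
      rw [hw, mem_centre_iff]
      right
      exact hv
    have hne : w.asIdeal.under (Ax K x) ≠ ⊤ :=
      (Ideal.IsPrime.under (Ax K x) w.asIdeal).ne_top
    have heq : pa x a = w.asIdeal.under (Ax K x) := (pa_isMaximal a).eq_of_le hne hle
    have hmem : w.asIdeal ∈ (pa x a).primesOver (Bx K x) := ⟨w.isPrime, ⟨heq⟩⟩
    refine ⟨⟨w.asIdeal, hmem⟩, ?_⟩
    rw [placeOver]
    have h3 : heightOneOfPrimesOver a ⟨w.asIdeal, hmem⟩ = w := by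
      ext1
      rfl
    rw [h3, hw]
    exact (eq_ofHeightOneSpectrum_centre v (Bx_le v hxv)).symm

section Main

variable [IsAlgClosed K]

/-- the zeros of `x - a` form a finite set -/
theorem finite_zeros {x : F} (hx : IsFunctionFieldGen K F x) (a : K) :
    {v : Place K F | 0 < v.ord (x - algebraMap K F a)}.Finite := by
  haveI : Fact (IsFunctionFieldGen K F x) := ⟨hx⟩
  haveI : Finite ((pa x a).primesOver (Bx K x)) :=
    (Algebra.QuasiFinite.finite_primesOver (pa x a)).to_subtype
  rw [← range_placeOver a]
  exact Set.finite_range _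

/-- the sum of the orders of the zeros of `x - a` is `[F : K(x)]` -/
theorem sum_ord_zeros {x : F} (hx : IsFunctionFieldGen K F x) (a : K) :
    ∑ᶠ v ∈ {v : Place K F | 0 < v.ord (x - algebraMap K F a)}, v.ord (x - algebraMap K F a)
      = Module.finrank (IntermediateField.adjoin K {x}) F := by
  haveI : Fact (IsFunctionFieldGen K F x) := ⟨hx⟩
  letI : Fintype ((pa x a).primesOver (Bx K x)) :=
    (Algebra.QuasiFinite.finite_primesOver (pa x a)).fintype
  rw [← range_placeOver a, finsum_mem_range (placeOver_injective a),
    finsum_eq_sum_of_fintype, ← sum_ramificationIdx a, Nat.cast_sum]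
  exact Finset.sum_congr rfl fun q _ => ord_placeOver a q

omit [CharZero K] [IsAlgClosed K] in
theorem adjoin_simple_inv_eq (x : F) : K⟮x⁻¹⟯ = K⟮x⟯ := by
  apply le_antisymm
  · rw [adjoin_simple_le_iff]
    exact inv_mem (mem_adjoin_simple_self K x)
  · rw [adjoin_simple_le_iff]
    have := inv_mem (mem_adjoin_simple_self K x⁻¹)
    rwa [inv_inv] at this

omit [CharZero K] [IsAlgClosed K] in
theorem IsFunctionFieldGen.inv {x : F} (hx : IsFunctionFieldGen K F x) :
    IsFunctionFieldGen K F x⁻¹ where
  transcendental := by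
    intro h
    apply hx.transcendental
    have := h.inv
    rwa [inv_inv] at this
  finite := by
    rw [adjoin_simple_inv_eq]
    exact hx.finite

omit [CharZero K] [IsAlgClosed K] in
theorem poles_eq_zeros_inv (x : F) :
    {v : Place K F | v.ord x < 0} = {v : Place K F | 0 < v.ord (x⁻¹ - algebraMap K F 0)} := by
  ext v
  simp only [Set.mem_ofPred_eq, map_zero, sub_zero, v.ord_inv, neg_pos]

/-- the poles of `x` form a finite set -/
theorem finite_poles {x : F} (hx : IsFunctionFieldGen K F x) :
    {v : Place K F | v.ord x < 0}.Finite := by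
  rw [poles_eq_zeros_inv]
  exact finite_zeros hx.inv 0

/-- the sum of the orders of the poles of `x` is `[F : K(x)]` -/
theorem sum_ord_poles {x : F} (hx : IsFunctionFieldGen K F x) :
    ∑ᶠ v ∈ {v : Place K F | v.ord x < 0}, - v.ord x
      = Module.finrank (IntermediateField.adjoin K {x}) F := by
  have h := sum_ord_zeros hx.inv 0
  rw [adjoin_simple_inv_eq] at h
  rw [← h]
  refine finsum_mem_congr (poles_eq_zeros_inv x) fun v _ => ?_
  rw [map_zero, sub_zero, v.ord_inv]

omit [CharZero K] in
theorem isFunctionFieldGen_of_notMem_range {x : F} (hx : IsFunctionFieldGen K F x) {y : F}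
    (hy : y ∉ Set.range (algebraMap K F)) : IsFunctionFieldGen K F y := by
  have : IsFunctionField1 K F := IsFunctionField1.of_finite hx.transcendental hx.finite
  have hytr : Transcendental K y := transcendental_of_notMem_range hy
  exact ⟨hytr, finiteDimensional_adjoin_simple_of_transcendental hytr⟩

omit [CharZero K] in
/-- if all places have degree one, the degree of a divisor is the sum of its coefficients -/
theorem degree_eq_finsum {x : F} (hx : IsFunctionFieldGen K F x) (D : Divisor K F) :
    Divisor.degree D = ∑ᶠ v, D v := by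
  rw [finsum_eq_sum_of_support_subset (s := D.support) _ (by rw [Finsupp.fun_support_eq])]
  rw [Divisor.degree, Finsupp.liftAddHom_apply, Finsupp.sum]
  refine Finset.sum_congr rfl fun v _ => ?_
  rw [AddMonoidHom.mulRight_apply, deg_eq_one hx v, Nat.cast_one, mul_one]

/-- every nonzero element of a function field has a divisor, of degree zero -/
theorem hasPrincipalDivisors {x : F} (hx : IsFunctionFieldGen K F x) :
    HasPrincipalDivisors K F := by
  refine ⟨fun f hf => ?_⟩
  by_cases hfK : f ∈ Set.range (algebraMap K F)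
  · obtain ⟨c, rfl⟩ := hfK
    refine ⟨0, fun v => ?_, map_zero _⟩
    rw [Finsupp.zero_apply, ord_algebraMap]
  · have hfgen : IsFunctionFieldGen K F f := isFunctionFieldGen_of_notMem_range hx hfK
    have hfin0 := finite_zeros hfgen 0
    have hfinp := finite_poles hfgen
    have h0 := sum_ord_zeros hfgen 0
    have hp := sum_ord_poles hfgen
    simp only [map_zero, sub_zero] at hfin0 h0
    have hsub : (Function.support fun v : Place K F => v.ord f)
        ⊆ {v : Place K F | 0 < v.ord f} ∪ {v : Place K F | v.ord f < 0} := by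
      intro v hv
      simp only [Function.mem_support, ne_eq] at hv
      simp only [Set.mem_union, Set.mem_ofPred_eq]
      omega
    have hsupp : (Function.support fun v : Place K F => v.ord f).Finite :=
      (hfin0.union hfinp).subset hsub
    refine ⟨Finsupp.ofSupportFinite _ hsupp, fun v => rfl, ?_⟩
    rw [degree_eq_finsum hx]
    have hdisj : Disjoint {v : Place K F | 0 < v.ord f} {v : Place K F | v.ord f < 0} := by
      rw [Set.disjoint_left]
      intro v h1 h2
      simp only [Set.mem_ofPred_eq] at h1 h2
      omega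
    have hp' : ∑ᶠ v ∈ {v : Place K F | v.ord f < 0}, v.ord f
        = -(Module.finrank (IntermediateField.adjoin K {f}) F : ℤ) := by
      rw [← hp, finsum_mem_neg_distrib _ hfinp, neg_neg]
    calc ∑ᶠ v, (Finsupp.ofSupportFinite _ hsupp : Divisor K F) v
        = ∑ᶠ v : Place K F, v.ord f := rfl
      _ = ∑ᶠ v ∈ (Set.univ : Set (Place K F)), v.ord f := (finsum_mem_univ _).symm
      _ = ∑ᶠ v ∈ {v : Place K F | 0 < v.ord f} ∪ {v : Place K F | v.ord f < 0}, v.ord f :=
          finsum_mem_inter_support_eq' _ _ _ fun v hv => ⟨fun _ => hsub hv, fun _ => Set.mem_univ _⟩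
      _ = ∑ᶠ v ∈ {v : Place K F | 0 < v.ord f}, v.ord f
            + ∑ᶠ v ∈ {v : Place K F | v.ord f < 0}, v.ord f := finsum_mem_union hdisj hfin0 hfinp
      _ = 0 := by rw [h0, hp']; ring

end Main

end Inst

end Fermat.Agent.Curve
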