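/-
P1 / S24-GEN3 (helper9): restriction of places along an algebraic field extension.

For a tower `K → F → L` with `L / F` algebraic, every place `v` of `L / K` restricts to a place
`PlaceAux.restrict v` of `F / K` (valuation ring `O_v ∩ F`).
-/
import Mathlib
import Fermat.Agent.Lib.Curve.PlaceBasic

set_option autoImplicit false
set_option linter.unusedSectionVars false

namespace Fermat.Agent.Curve

open AlgebraicCurve

namespace PlaceAux

section Single

variable {K F : Type*} [Field K] [Field F] [Algebra K F]

/-- positivity of the order only depends on the valuation ring -/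
theorem ord_pos_iff_inv_notMem (v : Place K F) (x : F) :
    0 < v.ord x ↔ x⁻¹ ∉ v.toValuationSubring := by
  rw [mem_iff, v.ord_inv, inv_eq_zero]
  constructor
  · intro h
    rintro (h0 | h0)
    · rw [h0, v.ord_zero] at h; exact lt_irrefl _ h
    · omega
  · intro h
    push Not at h
    omega

/-- an element integral over a subring contained in the valuation ring lies in the valuation
ring -/
theorem mem_of_isIntegral_subring (v : Place K F) {R : Type*} [CommRing R] [Algebra R F]
    (hR : ∀ r : R, algebraMap R F r ∈ v.toValuationSubring) {f : F} (hf : IsIntegral R f) :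
    f ∈ v.toValuationSubring := by
  obtain ⟨p, hmonic, hp⟩ := hf
  let φ : R →+* v.toValuationSubring :=
    (algebraMap R F).codRestrict v.toValuationSubring.toSubring hR
  have hint : IsIntegral v.toValuationSubring f := by
    refine ⟨p.map φ, hmonic.map φ, ?_⟩
    rw [Polynomial.eval₂_map]
    exact hp
  obtain ⟨g, hg⟩ := IsIntegrallyClosed.isIntegral_iff.mp hint
  rw [← hg]
  exact g.2

/-- the maximal ideal of the valuation ring in terms of `ord` -/
theorem mem_maximalIdeal_iff (v : Place K F) (r : v.toValuationSubring) :
    r ∈ IsLocalRing.maximalIdeal v.toValuationSubring ↔ r = 0 ∨ 0 < v.ord (r : F) := by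
  rw [IsLocalRing.mem_maximalIdeal, mem_nonunits_iff]
  by_cases hr : r = 0
  · simp [hr]
  have hrF : (r : F) ≠ 0 := fun h => hr (Subtype.ext h)
  rw [or_iff_right hr, ord_pos_iff_inv_notMem, not_iff_not]
  constructor
  · rintro ⟨u, hu⟩
    have h1 : (r : F) * ((u⁻¹ : v.toValuationSubringˣ) : v.toValuationSubring) = 1 := by
      rw [← hu]
      have h0 : ((u : v.toValuationSubring) * ((u⁻¹ : v.toValuationSubringˣ) :
          v.toValuationSubring) : v.toValuationSubring) = 1 := u.mul_inv
      have := congrArg (Subtype.val : v.toValuationSubring → F) h0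
      rwa [MulMemClass.coe_mul] at this
    have h2 : (r : F)⁻¹ = ((u⁻¹ : v.toValuationSubringˣ) : v.toValuationSubring) := by
      rw [inv_eq_iff_eq_inv]
      exact eq_inv_of_mul_eq_one_left h1
    rw [h2]
    exact Subtype.mem _
  · intro hinv
    refine isUnit_iff_exists_inv.mpr ⟨⟨_, hinv⟩, ?_⟩
    apply Subtype.ext
    show (r : F) * (r : F)⁻¹ = 1
    exact mul_inv_cancel₀ hrF

end Single

section Tower

variable {K F L : Type*} [Field K] [Field F] [Field L] [Algebra K F] [Algebra F L] [Algebra K L]
  [IsScalarTower K F L]

/-- the valuation ring `O_v ∩ F` of the restriction is not everything -/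
theorem comap_ne_top [Algebra.IsAlgebraic F L] (v : Place K L) :
    v.toValuationSubring.comap (algebraMap F L) ≠ ⊤ := by
  intro htop
  apply v.ne_top'
  rw [eq_top_iff]
  intro f _
  have hF : ∀ x : F, algebraMap F L x ∈ v.toValuationSubring := by
    intro x
    rw [← ValuationSubring.mem_comap, htop]
    exact ValuationSubring.mem_top x
  have : Algebra.IsIntegral F L := Algebra.IsAlgebraic.isIntegral
  exact mem_of_isIntegral_subring v hF (Algebra.IsIntegral.isIntegral f)

/-- the valuation ring `O_v ∩ F` is a principal ideal ring -/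
theorem comap_isPrincipalIdealRing (v : Place K L) :
    IsPrincipalIdealRing (v.toValuationSubring.comap (algebraMap F L)) := by
  constructor
  intro I
  by_cases hI : I = ⊥
  · rw [hI]; exact bot_isPrincipal
  obtain ⟨a₀, ha₀, ha₀0⟩ := Submodule.exists_mem_ne_zero_of_ne_bot hI
  let S : Set ℕ := {n | ∃ a ∈ I, a ≠ 0 ∧ (v.ord (algebraMap F L (a : F))).toNat = n}
  have hS : S.Nonempty := ⟨_, a₀, ha₀, ha₀0, rfl⟩
  obtain ⟨a, haI, ha0, han⟩ := Nat.sInf_mem hS
  have haF : (a : F) ≠ 0 := fun h => ha0 (Subtype.ext h)
  have haL : algebraMap F L (a : F) ≠ 0 := by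
    rwa [ne_eq, map_eq_zero]
  have hamem : algebraMap F L (a : F) ∈ v.toValuationSubring := a.2
  have ha_nonneg : 0 ≤ v.ord (algebraMap F L (a : F)) := ord_nonneg_of_mem v hamem
  refine ⟨⟨a, ?_⟩⟩
  apply le_antisymm
  · intro b hb
    rw [Ideal.submodule_span_eq, Ideal.mem_span_singleton']
    by_cases hb0 : b = 0
    · exact ⟨0, by rw [hb0, zero_mul]⟩
    have hbF : (b : F) ≠ 0 := fun h => hb0 (Subtype.ext h)
    have hbL : algebraMap F L (b : F) ≠ 0 := by
      rwa [ne_eq, map_eq_zero]
    have hbmem : algebraMap F L (b : F) ∈ v.toValuationSubring := b.2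
    have hb_nonneg : 0 ≤ v.ord (algebraMap F L (b : F)) := ord_nonneg_of_mem v hbmem
    have hle : sInf S ≤ (v.ord (algebraMap F L (b : F))).toNat :=
      Nat.sInf_le ⟨b, hb, hb0, rfl⟩
    rw [← han] at hle
    have hle' : v.ord (algebraMap F L (a : F)) ≤ v.ord (algebraMap F L (b : F)) := by
      omega
    have hq : (b : F) / (a : F) ∈ v.toValuationSubring.comap (algebraMap F L) := by
      rw [ValuationSubring.mem_comap, map_div₀]
      apply mem_of_ord_nonneg
      rw [div_eq_mul_inv, v.ord_mul hbL (inv_ne_zero haL), v.ord_inv]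
      omega
    refine ⟨⟨(b : F) / (a : F), hq⟩, Subtype.ext ?_⟩
    show (b : F) / (a : F) * (a : F) = (b : F)
    exact div_mul_cancel₀ _ haF
  · rw [Ideal.submodule_span_eq, Ideal.span_le, Set.singleton_subset_iff]
    exact haI

/-- **restriction of a place** along an algebraic extension `L / F` -/
noncomputable def restrict [Algebra.IsAlgebraic F L] (v : Place K L) : Place K F where
  toValuationSubring := v.toValuationSubring.comap (algebraMap F L)
  algebraMap_mem' := fun a => by
    rw [ValuationSubring.mem_comap, ← IsScalarTower.algebraMap_apply]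
    exact v.algebraMap_mem' a
  ne_top' := comap_ne_top v
  isPrincipalIdealRing' := comap_isPrincipalIdealRing v

variable [Algebra.IsAlgebraic F L]

@[simp]
theorem restrict_toValuationSubring (v : Place K L) :
    (restrict (F := F) v).toValuationSubring = v.toValuationSubring.comap (algebraMap F L) := rfl

theorem mem_restrict_iff (v : Place K L) (x : F) :
    x ∈ (restrict (F := F) v).toValuationSubring ↔ algebraMap F L x ∈ v.toValuationSubring :=
  Iff.rfl

/-- positivity of orders is compatible with restriction -/
theorem restrict_ord_pos_iff (v : Place K L) (x : F) :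
    0 < (restrict (F := F) v).ord x ↔ 0 < v.ord (algebraMap F L x) := by
  rw [ord_pos_iff_inv_notMem, ord_pos_iff_inv_notMem, mem_restrict_iff, map_inv₀]

/-- a place of `F` whose valuation ring is contained in that of `v` is the restriction of `v` -/
theorem eq_restrict_of_le (v : Place K L) (u : Place K F)
    (h : ∀ x ∈ u.toValuationSubring, algebraMap F L x ∈ v.toValuationSubring) :
    u = restrict v :=
  eq_of_le fun x hx => h x hx

/-- automorphisms of `L` fixing `F` do not change the restriction -/
theorem restrict_smul (σ : L ≃ₐ[K] L) (hσ : ∀ x : F, σ (algebraMap F L x) = algebraMap F L x)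
    (v : Place K L) : restrict (F := F) (σ • v) = restrict v := by
  apply Place.ext
  ext x
  rw [mem_restrict_iff, mem_restrict_iff, Place.smul_toValuationSubring,
    ValuationSubring.mem_pointwise_smul_iff_inv_smul_mem, AlgEquiv.smul_def]
  have : σ⁻¹ (algebraMap F L x) = algebraMap F L x := by
    rw [AlgEquiv.aut_inv, AlgEquiv.symm_apply_eq, hσ]
  rw [this]

end Tower

end PlaceAux

end Fermat.Agent.Curve
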