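/-
P1 / S24-GEN3 (helper9): extension of places along a finite separable / Galois extension.

For a tower `K → F → L` with `L / F` finite separable:
* `PlaceAux.exists_restrict_eq`: every place of `F / K` is the restriction of a place of `L / K`;
* `PlaceAux.exists_algEquiv_smul_eq_of_restrict_eq` (`L / F` Galois): two places of `L` with the
  same restriction to `F` are conjugate under `Gal(L/F)`.
-/
import Mathlib
import Fermat.Agent.Lib.Curve.PlaceBasic
import Fermat.Agent.Lib.Curve.PlaceRestrict

set_option autoImplicit false
set_option linter.unusedSectionVars false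
set_option linter.style.haveILetI false

namespace Fermat.Agent.Curve

open AlgebraicCurve IsDedekindDomain

namespace PlaceAux

variable {K F L : Type*} [Field K] [Field F] [Field L] [Algebra K F] [Algebra F L] [Algebra K L]
  [IsScalarTower K F L]

/-- `K → O_u → L` is a scalar tower -/
theorem isScalarTower_valuationSubring (u : Place K F) :
    IsScalarTower K u.toValuationSubring L :=
  IsScalarTower.of_algebraMap_eq fun a => by
    show algebraMap K L a = algebraMap F L (algebraMap K F a)
    rw [← IsScalarTower.algebraMap_apply]

/-- the integral closure of `O_u` in `L` -/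
abbrev intCl (u : Place K F) : Subalgebra u.toValuationSubring L :=
  integralClosure u.toValuationSubring L

theorem algebraMap_mem_intCl (u : Place K F) (a : K) : algebraMap K L a ∈ intCl (L := L) u := by
  have h : algebraMap K L a
      = algebraMap u.toValuationSubring L (algebraMap K u.toValuationSubring a) := by
    show algebraMap K L a = algebraMap F L (algebraMap K F a)
    rw [← IsScalarTower.algebraMap_apply]
  rw [h]
  exact isIntegral_algebraMap

/-- the `K`-algebra structure on the integral closure of `O_u` in `L` -/
@[implicit_reducible]
noncomputable def intClAlgebra (u : Place K F) : Algebra K (intCl (L := L) u) :=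
  ((algebraMap K L).codRestrict (intCl (L := L) u).toSubring (algebraMap_mem_intCl u)).toAlgebra

theorem intCl_isScalarTower (u : Place K F) :
    letI := intClAlgebra (L := L) u
    IsScalarTower K (intCl (L := L) u) L :=
  letI := intClAlgebra (L := L) u
  IsScalarTower.of_algebraMap_eq fun _ => rfl

variable [FiniteDimensional F L] [Algebra.IsSeparable F L]

/-- a place `v` of `L` over `u`: the integral closure of `O_u` is contained in `O_v` -/
theorem intCl_le_of_restrict_eq (u : Place K F) (v : Place K L) (h : restrict v = u)
    (s : intCl (L := L) u) : algebraMap (intCl (L := L) u) L s ∈ v.toValuationSubring := by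
  have hR : ∀ r : u.toValuationSubring,
      algebraMap u.toValuationSubring L r ∈ v.toValuationSubring := by
    intro r
    have hr : (r : F) ∈ (restrict (F := F) v).toValuationSubring := by rw [h]; exact r.2
    exact (mem_restrict_iff v _).mp hr
  exact mem_of_isIntegral_subring v hR s.2

/-- **existence of extensions of places** -/
theorem exists_restrict_eq (u : Place K F) : ∃ v : Place K L, restrict v = u := by
  let := intClAlgebra (L := L) u
  have := intCl_isScalarTower (L := L) u
  have : IsDedekindDomain (intCl (L := L) u) :=
    integralClosure.isDedekindDomain u.toValuationSubring F L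
  have : IsFractionRing (intCl (L := L) u) L :=
    integralClosure.isFractionRing_of_finite_extension F L
  have : Algebra.IsIntegral u.toValuationSubring (intCl (L := L) u) :=
    integralClosure.AlgebraIsIntegral
  have hinj : Function.Injective (algebraMap u.toValuationSubring (intCl (L := L) u)) := by
    intro a b hab
    have h1 : algebraMap u.toValuationSubring L a = algebraMap u.toValuationSubring L b :=
      congrArg (algebraMap (intCl (L := L) u) L) hab
    have h2 : algebraMap F L (a : F) = algebraMap F L (b : F) := h1
    exact Subtype.ext ((algebraMap F L).injective h2)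
  obtain ⟨P, hPmax, hP⟩ := Ideal.exists_ideal_over_maximal_of_isIntegral
    (S := intCl (L := L) u) (IsLocalRing.maximalIdeal u.toValuationSubring)
    (by rw [(RingHom.injective_iff_ker_eq_bot _).mp hinj]; exact bot_le)
  have hPne : P ≠ ⊥ := by
    intro hbot
    rw [hbot, Ideal.comap_bot_of_injective _ hinj] at hP
    exact IsDiscreteValuationRing.not_a_field u.toValuationSubring hP.symm
  let w : HeightOneSpectrum (intCl (L := L) u) := ⟨P, hPmax.isPrime, hPne⟩
  refine ⟨Place.ofHeightOneSpectrum (K := K) w, ?_⟩
  symm
  apply eq_restrict_of_le
  intro x hx
  rw [Place.ofHeightOneSpectrum_toValuationSubring, Valuation.mem_valuationSubring_iff]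
  have h1 : algebraMap F L x
      = algebraMap (intCl (L := L) u) L
          (algebraMap u.toValuationSubring (intCl (L := L) u) ⟨x, hx⟩) := rfl
  rw [h1]
  exact w.valuation_le_one _

/-- the centre of a place over `u` lies over the maximal ideal of `O_u` -/
theorem centre_under_eq (u : Place K F) (v : Place K L) (h : restrict v = u) :
    letI := intClAlgebra (L := L) u
    haveI := intCl_isScalarTower (L := L) u
    haveI : IsDedekindDomain (intCl (L := L) u) :=
      integralClosure.isDedekindDomain u.toValuationSubring F L
    haveI : IsFractionRing (intCl (L := L) u) L :=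
      integralClosure.isFractionRing_of_finite_extension F L
    (centre v (intCl_le_of_restrict_eq u v h)).asIdeal.under u.toValuationSubring
      = IsLocalRing.maximalIdeal u.toValuationSubring := by
  letI := intClAlgebra (L := L) u
  haveI := intCl_isScalarTower (L := L) u
  haveI : IsDedekindDomain (intCl (L := L) u) :=
    integralClosure.isDedekindDomain u.toValuationSubring F L
  haveI : IsFractionRing (intCl (L := L) u) L :=
    integralClosure.isFractionRing_of_finite_extension F L
  ext r
  rw [Ideal.under_def, Ideal.mem_comap, mem_centre_iff, mem_maximalIdeal_iff]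
  have h1 : algebraMap (intCl (L := L) u) L
      (algebraMap u.toValuationSubring (intCl (L := L) u) r) = algebraMap F L (r : F) := rfl
  have h2 : algebraMap u.toValuationSubring (intCl (L := L) u) r = 0 ↔ r = 0 := by
    constructor
    · intro h0
      have h3 := congrArg (algebraMap (intCl (L := L) u) L) h0
      rw [h1, map_zero, map_eq_zero] at h3
      exact Subtype.ext h3
    · rintro rfl
      exact map_zero _
  rw [h1, h2, ← restrict_ord_pos_iff, h]

variable [IsGalois F L]

/-- **conjugacy of extensions of places** in a finite Galois extension -/
theorem exists_algEquiv_smul_eq_of_restrict_eq (v v' : Place K L)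
    (h : restrict (F := F) v = restrict v') :
    ∃ σ : L ≃ₐ[F] L, v' = (σ.restrictScalars K) • v := by
  set u : Place K F := restrict (F := F) v with hu
  let := intClAlgebra (L := L) u
  have := intCl_isScalarTower (L := L) u
  have : IsDedekindDomain (intCl (L := L) u) :=
    integralClosure.isDedekindDomain u.toValuationSubring F L
  have : IsFractionRing (intCl (L := L) u) L :=
    integralClosure.isFractionRing_of_finite_extension F L
  have hv := intCl_le_of_restrict_eq u v rfl
  have hv' := intCl_le_of_restrict_eq u v' h.symm
  have hw : (centre v hv).asIdeal ∈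
      Ideal.primesOver (IsLocalRing.maximalIdeal u.toValuationSubring) (intCl (L := L) u) :=
    ⟨(centre v hv).isPrime, ⟨(centre_under_eq u v rfl).symm⟩⟩
  have hw' : (centre v' hv').asIdeal ∈
      Ideal.primesOver (IsLocalRing.maximalIdeal u.toValuationSubring) (intCl (L := L) u) :=
    ⟨(centre v' hv').isPrime, ⟨(centre_under_eq u v' h.symm).symm⟩⟩
  obtain ⟨σ, hσ⟩ := Ideal.exists_comap_galRestrict_eq u.toValuationSubring F L
    (intCl (L := L) u) hw hw'
  refine ⟨σ.symm, ?_⟩
  have hτ : ∀ s : intCl (L := L) u, algebraMap (intCl (L := L) u) L s ∈
      ((σ.symm.restrictScalars K) • v).toValuationSubring := by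
    intro s
    rw [Place.smul_toValuationSubring, ValuationSubring.mem_pointwise_smul_iff_inv_smul_mem,
      AlgEquiv.smul_def, AlgEquiv.aut_inv]
    have : (σ.symm.restrictScalars K).symm (algebraMap (intCl (L := L) u) L s)
        = algebraMap (intCl (L := L) u) L (galRestrict u.toValuationSubring F L
            (intCl (L := L) u) σ s) := by
      rw [algebraMap_galRestrict_apply]
      rfl
    rw [this]
    exact hv _
  rw [eq_ofHeightOneSpectrum_centre v' hv',
    eq_ofHeightOneSpectrum_centre ((σ.symm.restrictScalars K) • v) hτ]
  congr 1
  apply HeightOneSpectrum.ext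
  ext s
  rw [← hσ, Ideal.mem_comap, mem_centre_iff, mem_centre_iff]
  have h1 : algebraMap (intCl (L := L) u) L (galRestrict u.toValuationSubring F L
      (intCl (L := L) u) σ s) = σ (algebraMap (intCl (L := L) u) L s) :=
    algebraMap_galRestrict_apply _ _ _
  have h2 : ((σ.symm.restrictScalars K) • v).ord (algebraMap (intCl (L := L) u) L s)
      = v.ord (σ (algebraMap (intCl (L := L) u) L s)) := by
    have := Place.ord_smul (σ.symm.restrictScalars K) v (σ (algebraMap (intCl (L := L) u) L s))
    rw [← this]
    congr 1
    exact (σ.symm_apply_apply _).symm
  rw [h1, h2, EmbeddingLike.map_eq_zero_iff]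

end PlaceAux

end Fermat.Agent.Curve
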