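/-
P1 / S24-GEN3 (helper9): the rational function field `K(y)` has exactly one place at which `y`
has positive order.
-/
import Mathlib
import Fermat.Agent.Lib.Curve.PlaceBasic
import Fermat.Agent.Lib.Curve.PlaceRestrict

set_option autoImplicit false
set_option linter.unusedSectionVars false

namespace Fermat.Agent.Curve

open AlgebraicCurve IntermediateField Polynomial

namespace PlaceAux

variable {K E : Type*} [Field K] [Field E] [Algebra K E]

theorem ord_neg (v : Place K E) (f : E) : v.ord (-f) = v.ord f := by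
  simp only [Place.ord, Valuation.map_neg]

theorem aeval_mem_of_mem (v : Place K E) {y : E} (hy : y ∈ v.toValuationSubring) (r : K[X]) :
    aeval y r ∈ v.toValuationSubring := by
  induction r using Polynomial.induction_on' with
  | add p q hp hq => rw [map_add]; exact add_mem hp hq
  | monomial n a =>
    rw [aeval_monomial]
    exact mul_mem (v.algebraMap_mem' a) (pow_mem hy n)

/-- a polynomial in `y` with nonzero constant term is a unit at a zero of `y` -/
theorem ord_aeval_of_coeff_zero_ne (v : Place K E) {y : E} (hy : 0 < v.ord y) (q : K[X])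
    (hq : q.coeff 0 ≠ 0) : aeval y q ≠ 0 ∧ v.ord (aeval y q) = 0 := by
  have hymem : y ∈ v.toValuationSubring := mem_of_ord_nonneg v hy.le
  have hy0 : y ≠ 0 := by
    rintro rfl
    rw [v.ord_zero] at hy
    exact lt_irrefl _ hy
  have hdec : aeval y q = algebraMap K E (q.coeff 0) + aeval y q.divX * y := by
    conv_lhs => rw [← Polynomial.divX_mul_X_add q]
    rw [map_add, map_mul, aeval_X, aeval_C, add_comm]
  set c : E := algebraMap K E (q.coeff 0) with hc
  have hc0 : c ≠ 0 := by
    rw [hc, ne_eq, map_eq_zero]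
    exact hq
  have hcord : v.ord c = 0 := ord_algebraMap v _
  set g : E := aeval y q.divX * y with hg
  rw [hdec]
  by_cases hg0 : g = 0
  · rw [hg0, add_zero]
    exact ⟨hc0, hcord⟩
  have hd0 : aeval y q.divX ≠ 0 := fun h0 => hg0 (by rw [hg, h0, zero_mul])
  have hgord : 0 < v.ord g := by
    rw [hg, v.ord_mul hd0 hy0]
    have := ord_nonneg_of_mem v (aeval_mem_of_mem v hymem q.divX)
    omega
  constructor
  · intro h0
    have h1 : g = -c := by
      rw [eq_neg_iff_add_eq_zero, add_comm]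
      exact h0
    rw [h1, ord_neg, hcord] at hgord
    exact lt_irrefl _ hgord
  · rw [ord_add_of_lt v hc0 (by rw [hcord]; exact hgord), hcord]

/-- the order of a polynomial in `y` at a zero of `y` -/
theorem exists_ord_aeval_eq (r : K[X]) (hr : r ≠ 0) :
    ∃ m : ℕ, ∀ (v : Place K E) (y : E), 0 < v.ord y →
      aeval y r ≠ 0 ∧ v.ord (aeval y r) = m * v.ord y := by
  obtain ⟨q, hq, hndvd⟩ := Polynomial.exists_eq_pow_rootMultiplicity_mul_and_not_dvd r hr 0
  refine ⟨rootMultiplicity 0 r, fun v y hy => ?_⟩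
  have hq0 : q.coeff 0 ≠ 0 := by
    intro h0
    apply hndvd
    rw [map_zero, sub_zero]
    exact Polynomial.X_dvd_iff.mpr h0
  obtain ⟨h1, h2⟩ := ord_aeval_of_coeff_zero_ne v hy q hq0
  have hy0 : y ≠ 0 := by
    rintro rfl
    rw [v.ord_zero] at hy
    exact lt_irrefl _ hy
  have hev : aeval y r = y ^ (rootMultiplicity 0 r) * aeval y q := by
    conv_lhs => rw [hq]
    rw [map_mul, map_pow, map_sub, aeval_X, aeval_C, map_zero, sub_zero]
  rw [hev]
  refine ⟨mul_ne_zero (pow_ne_zero _ hy0) h1, ?_⟩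
  rw [v.ord_mul (pow_ne_zero _ hy0) h1, h2, add_zero, ← zpow_natCast, v.ord_zpow]

/-- **uniqueness of the place `y = 0` of `K(y)`** -/
theorem eq_of_ord_pos_of_adjoin_eq_top {y : E} (hE : K⟮y⟯ = ⊤) (u u' : Place K E)
    (h : 0 < u.ord y) (h' : 0 < u'.ord y) : u = u' := by
  apply eq_of_le
  intro f hf
  have hfE : f ∈ K⟮y⟯ := by rw [hE]; exact IntermediateField.mem_top
  obtain ⟨r, s, rfl⟩ := (IntermediateField.mem_adjoin_simple_iff K f).mp hfE
  by_cases hr : r = 0
  · rw [hr, map_zero, zero_div]; exact u'.toValuationSubring.zero_mem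
  by_cases hs : s = 0
  · rw [hs, map_zero, div_zero]; exact u'.toValuationSubring.zero_mem
  obtain ⟨m, hm⟩ := exists_ord_aeval_eq (E := E) r hr
  obtain ⟨n, hn⟩ := exists_ord_aeval_eq (E := E) s hs
  obtain ⟨hr1, hr2⟩ := hm u y h
  obtain ⟨hs1, hs2⟩ := hn u y h
  obtain ⟨hr1', hr2'⟩ := hm u' y h'
  obtain ⟨hs1', hs2'⟩ := hn u' y h'
  have hord : 0 ≤ u.ord (aeval y r / aeval y s) := ord_nonneg_of_mem u hf
  rw [div_eq_mul_inv, u.ord_mul hr1 (inv_ne_zero hs1), u.ord_inv, hr2, hs2] at hord
  have hmn : (n : ℤ) ≤ m := by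
    by_contra hlt
    push Not at hlt
    have : ((m : ℤ) - n) * u.ord y < 0 := mul_neg_of_neg_of_pos (by omega) h
    nlinarith
  apply mem_of_ord_nonneg
  rw [div_eq_mul_inv, u'.ord_mul hr1' (inv_ne_zero hs1'), u'.ord_inv, hr2', hs2']
  have : 0 ≤ ((m : ℤ) - n) * u'.ord y := mul_nonneg (by omega) h'.le
  nlinarith

end PlaceAux

end Fermat.Agent.Curve
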