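/-
P1 / S24-GEN3 (helper9): Galois counting of places.

`L / K` a field extension, `G` a finite group of `K`-automorphisms of `L` with fixed field `K(y)`.
* `places_transitive`: `G` acts transitively on the places of `L` at which `y` has positive order;
* `ncard_places_fixedField`: the places over `y = 0` of the fixed field of a subgroup are counted
  by double cosets;
* `card_stabilizer_eq_ord`: the stabilizer of a place over `y = 0` has order `ord y`.
-/
import Mathlib
import Fermat.Prelude.Def_AlgebraicCurve_CanonicalDivisor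
import Fermat.Agent.Lib.Curve.PlaceBasic
import Fermat.Agent.Lib.Curve.PlaceRestrict
import Fermat.Agent.Lib.Curve.PlaceExtend
import Fermat.Agent.Lib.Curve.PlaceRational
import Fermat.Agent.Lib.Curve.Global

set_option autoImplicit false
set_option linter.unusedSectionVars false
set_option linter.style.haveILetI false
set_option linter.unusedVariables false

namespace Fermat.Agent.Curve

open AlgebraicCurve KaehlerDifferential IntermediateField

namespace GaloisAux

variable {K : Type*} [Field K]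
variable {L : Type*} [Field L] [Algebra K L]

/-- a subgroup of `Aut(L/K)` is a Galois group for `L` over its fixed field -/
theorem isGaloisGroup_fixedField (H : Subgroup (L ≃ₐ[K] L)) :
    IsGaloisGroup H (IntermediateField.fixedField H) L where
  faithful := inferInstance
  commutes := ⟨fun h f l => by
    rw [Algebra.smul_def, Algebra.smul_def, smul_mul']
    congr 1
    exact f.2 h⟩
  isInvariant := ⟨fun x hx => ⟨⟨x, hx⟩, rfl⟩⟩

theorem finiteDimensional_fixedField (H : Subgroup (L ≃ₐ[K] L)) [Finite H] :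
    FiniteDimensional (IntermediateField.fixedField H) L :=
  haveI := isGaloisGroup_fixedField H
  IsGaloisGroup.finiteDimensional H (IntermediateField.fixedField H) L

theorem isGalois_fixedField (H : Subgroup (L ≃ₐ[K] L)) [Finite H] :
    IsGalois (IntermediateField.fixedField H) L :=
  haveI := isGaloisGroup_fixedField H
  IsGaloisGroup.isGalois H (IntermediateField.fixedField H) L

theorem card_eq_finrank_fixedField (H : Subgroup (L ≃ₐ[K] L)) :
    Nat.card H = Module.finrank (IntermediateField.fixedField H) L :=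
  haveI := isGaloisGroup_fixedField H
  IsGaloisGroup.card_eq_finrank H (IntermediateField.fixedField H) L

/-- automorphisms of `L` over the fixed field of a finite group `H` belong to `H` -/
theorem exists_mem_eq_restrictScalars (H : Subgroup (L ≃ₐ[K] L)) [Finite H]
    (σ : L ≃ₐ[IntermediateField.fixedField H] L) : ∃ h ∈ H, h = σ.restrictScalars K := by
  haveI := isGaloisGroup_fixedField H
  refine ⟨((IsGaloisGroup.mulEquivAlgEquiv H (IntermediateField.fixedField H) L).symm σ : H),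
    Subtype.mem _, ?_⟩
  ext x
  have := IsGaloisGroup.mulEquivAlgEquiv_apply_apply H (IntermediateField.fixedField H) L
    ((IsGaloisGroup.mulEquivAlgEquiv H (IntermediateField.fixedField H) L).symm σ) x
  rw [MulEquiv.apply_symm_apply] at this
  rw [AlgEquiv.restrictScalars_apply, this]
  rfl

open PlaceAux

/-- two places of `L` with the same restriction to the fixed field of `H` are `H`-conjugate -/
theorem exists_mem_smul_eq_of_restrict_eq (H : Subgroup (L ≃ₐ[K] L)) [Finite H]
    (v v' : Place K L)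
    (h : haveI := finiteDimensional_fixedField H
      PlaceAux.restrict (F := IntermediateField.fixedField H) v = PlaceAux.restrict v') :
    ∃ g ∈ H, v' = g • v := by
  haveI := finiteDimensional_fixedField H
  haveI := isGalois_fixedField H
  obtain ⟨σ, hσ⟩ := exists_algEquiv_smul_eq_of_restrict_eq v v' h
  obtain ⟨g, hg, hgσ⟩ := exists_mem_eq_restrictScalars H σ
  exact ⟨g, hg, by rw [hgσ]; exact hσ⟩

/-- elements of `H` do not change the restriction to the fixed field of `H` -/
theorem restrict_fixedField_smul (H : Subgroup (L ≃ₐ[K] L)) [Finite H] (g : L ≃ₐ[K] L)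
    (hg : g ∈ H) (v : Place K L) :
    haveI := finiteDimensional_fixedField H
    PlaceAux.restrict (F := IntermediateField.fixedField H) (g • v) = PlaceAux.restrict v := by
  haveI := finiteDimensional_fixedField H
  exact restrict_smul g (fun x => x.2 ⟨g, hg⟩) v

/-- every place of the fixed field of `H` is the restriction of a place of `L` -/
theorem exists_restrict_fixedField_eq (H : Subgroup (L ≃ₐ[K] L)) [Finite H]
    (u : Place K (IntermediateField.fixedField H)) :
    haveI := finiteDimensional_fixedField H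
    ∃ v : Place K L, PlaceAux.restrict v = u := by
  haveI := finiteDimensional_fixedField H
  haveI := isGalois_fixedField H
  exact exists_restrict_eq u

/-- `K(y)` is generated by `y` also as a field in its own right -/
theorem adjoin_simple_eq_top_of_eq (E : IntermediateField K L) (y : L) (hE : E = K⟮y⟯)
    (hy : y ∈ E) : K⟮(⟨y, hy⟩ : E)⟯ = ⊤ := by
  rw [eq_top_iff]
  intro x _
  have hx : (x : L) ∈ K⟮y⟯ := by rw [← hE]; exact x.2
  obtain ⟨r, s, hrs⟩ := (IntermediateField.mem_adjoin_simple_iff K (x : L)).mp hx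
  rw [IntermediateField.mem_adjoin_simple_iff]
  refine ⟨r, s, Subtype.ext ?_⟩
  have h1 : ∀ p : Polynomial K, ((Polynomial.aeval (⟨y, hy⟩ : E) p : E) : L)
      = Polynomial.aeval y p := by
    intro p
    exact (Polynomial.aeval_algHom_apply E.val (⟨y, hy⟩ : E) p).symm
  rw [hrs]
  show _ = ((Polynomial.aeval (⟨y, hy⟩ : E) r : E) : L) / ((Polynomial.aeval (⟨y, hy⟩ : E) s : E) : L)
  rw [h1, h1]

/-- **transitivity**: `G` acts transitively on the places of `L` over `y = 0` -/
theorem places_transitive (G : Subgroup (L ≃ₐ[K] L)) [Finite G] (y : L)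
    (hfix : IntermediateField.fixedField G = IntermediateField.adjoin K {y})
    (v v' : Place K L) (hv : 0 < v.ord y) (hv' : 0 < v'.ord y) :
    ∃ g ∈ G, v' = g • v := by
  haveI := finiteDimensional_fixedField G
  have hyE : y ∈ IntermediateField.fixedField G := by
    rw [hfix]; exact IntermediateField.mem_adjoin_simple_self K y
  apply exists_mem_smul_eq_of_restrict_eq G v v'
  apply eq_of_ord_pos_of_adjoin_eq_top (y := (⟨y, hyE⟩ : IntermediateField.fixedField G))
    (adjoin_simple_eq_top_of_eq _ y hfix hyE)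
  · exact (restrict_ord_pos_iff v (⟨y, hyE⟩ : IntermediateField.fixedField G)).mpr hv
  · exact (restrict_ord_pos_iff v' (⟨y, hyE⟩ : IntermediateField.fixedField G)).mpr hv'

/-- counting lemma: two surjections with the same fibres have equinumerous targets -/
theorem card_eq_of_fibres_eq {A B Q : Type*} (f : A → B) (q : A → Q)
    (hf : Function.Surjective f) (hq : Function.Surjective q)
    (h : ∀ a a' : A, f a = f a' ↔ q a = q a') : Nat.card B = Nat.card Q := by
  apply Nat.card_congr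
  refine Equiv.ofBijective (fun b => q (Function.surjInv hf b)) ⟨?_, ?_⟩
  · intro b b' hbb
    have := (h _ _).mpr hbb
    rwa [Function.surjInv_eq hf, Function.surjInv_eq hf] at this
  · intro c
    obtain ⟨a, rfl⟩ := hq c
    refine ⟨f a, ?_⟩
    apply (h _ _).mp
    rw [Function.surjInv_eq hf]

end GaloisAux

variable {K : Type*} [Field K] [IsAlgClosed K] [CharZero K]
variable {L : Type*} [Field L] [Algebra K L]

/-- the element `y` of `L` (fixed by `H`) as an element of the fixed field -/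
def fixedElt (H : Subgroup (L ≃ₐ[K] L)) (y : L) (hy : ∀ g ∈ H, g y = y) :
    IntermediateField.fixedField H :=
  ⟨y, fun g => hy g.1 g.2⟩

open GaloisAux PlaceAux in
/-- **Galois counting of places.** `Γ` acts on `L` through `ρ` with finite image and fixed field
`K(y)`.  If `v₀` is a place of `L` at which `y` has positive order and `Δ ≤ Γ` maps onto the
stabilizer of `v₀`, then the places of the fixed field of `Γ₀` at which `y` has positive order are
counted by the `Δ`-orbits on `Γ ⧸ Γ₀`. -/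
theorem ncard_places_fixedField {Γ : Type*} [Group Γ] (ρ : Γ →* (L ≃ₐ[K] L))
    (hfin : Finite ρ.range) (Γ₀ : Subgroup Γ) (hker : ρ.ker ≤ Γ₀)
    (y : L) (hy : Transcendental K y)
    (hfix : IntermediateField.fixedField ρ.range = IntermediateField.adjoin K {y})
    (v₀ : Place K L) (hv₀ : 0 < v₀.ord y)
    (Δ : Subgroup Γ) (hΔ : ∀ γ : Γ, ρ γ • v₀ = v₀ ↔ ∃ δ ∈ Δ, ρ γ = ρ δ) :
    {u : Place K (IntermediateField.fixedField (Γ₀.map ρ)) |
        0 < u.ord (fixedElt (Γ₀.map ρ) y (by
          rintro g ⟨γ, -, rfl⟩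
          have h : y ∈ IntermediateField.fixedField ρ.range := by
            rw [hfix]; exact IntermediateField.mem_adjoin_simple_self K y
          exact h ⟨ρ γ, γ, rfl⟩))}.ncard
      = Nat.card (MulAction.orbitRel.Quotient Δ (Γ ⧸ Γ₀)) := by
  have hyfix : ∀ γ : Γ, ρ γ y = y := by
    intro γ
    have h : y ∈ IntermediateField.fixedField ρ.range := by
      rw [hfix]; exact IntermediateField.mem_adjoin_simple_self K y
    exact h ⟨ρ γ, γ, rfl⟩
  have hyH : ∀ g ∈ Γ₀.map ρ, g y = y := by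
    rintro g ⟨γ, -, rfl⟩
    exact hyfix γ
  haveI : Finite (Γ₀.map ρ) :=
    Finite.of_injective (Subgroup.inclusion (Subgroup.map_le_range ρ Γ₀))
      (Subgroup.inclusion_injective _)
  haveI := finiteDimensional_fixedField (Γ₀.map ρ)
  set yF : IntermediateField.fixedField (Γ₀.map ρ) := fixedElt (Γ₀.map ρ) y hyH with hyF
  -- every conjugate of `v₀` lies over `y = 0`
  have hord : ∀ γ : Γ, 0 < ((ρ γ)⁻¹ • v₀).ord y := by
    intro γ
    have h1 := Place.ord_smul (ρ γ)⁻¹ v₀ y
    have h2 : (ρ γ)⁻¹ y = y := by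
      rw [AlgEquiv.aut_inv, AlgEquiv.symm_apply_eq, hyfix]
    rw [h2] at h1
    rw [h1]
    exact hv₀
  rw [← Nat.card_coe_set_eq]
  -- the map from `Γ` to places of the fixed field over `y = 0`
  let f : Γ → {u : Place K (IntermediateField.fixedField (Γ₀.map ρ)) | 0 < u.ord yF} :=
    fun γ => ⟨PlaceAux.restrict ((ρ γ)⁻¹ • v₀),
      (restrict_ord_pos_iff ((ρ γ)⁻¹ • v₀) yF).mpr (hord γ)⟩
  let q : Γ → MulAction.orbitRel.Quotient Δ (Γ ⧸ Γ₀) := fun γ => Quotient.mk'' (γ : Γ ⧸ Γ₀)
  have hq : Function.Surjective q := by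
    intro c
    induction c using Quotient.inductionOn' with
    | h c =>
      induction c using QuotientGroup.induction_on with
      | H γ => exact ⟨γ, rfl⟩
  have hqiff : ∀ γ₁ γ₂ : Γ, q γ₁ = q γ₂ ↔ ∃ δ ∈ Δ, (δ * γ₂)⁻¹ * γ₁ ∈ Γ₀ := by
    intro γ₁ γ₂
    show (Quotient.mk'' (γ₁ : Γ ⧸ Γ₀) : MulAction.orbitRel.Quotient Δ (Γ ⧸ Γ₀))
      = Quotient.mk'' (γ₂ : Γ ⧸ Γ₀) ↔ _
    rw [Quotient.eq'', MulAction.orbitRel_apply, MulAction.mem_orbit_iff]
    constructor
    · rintro ⟨δ, hδ⟩
      refine ⟨δ.1, δ.2, ?_⟩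
      have h1 : ((δ.1 * γ₂ : Γ) : Γ ⧸ Γ₀) = (γ₁ : Γ ⧸ Γ₀) := hδ
      exact QuotientGroup.eq.mp h1
    · rintro ⟨δ, hδ, h⟩
      refine ⟨⟨δ, hδ⟩, ?_⟩
      show ((δ * γ₂ : Γ) : Γ ⧸ Γ₀) = (γ₁ : Γ ⧸ Γ₀)
      exact QuotientGroup.eq.mpr h
  have hf : Function.Surjective f := by
    rintro ⟨u, hu⟩
    obtain ⟨v, hv⟩ := exists_restrict_fixedField_eq (Γ₀.map ρ) u
    have hvy : 0 < v.ord y := by
      have := (restrict_ord_pos_iff v yF).mp (by rw [hv]; exact hu)
      exact this
    obtain ⟨g, ⟨γ, rfl⟩, hg⟩ := places_transitive ρ.range y hfix v₀ v hv₀ hvy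
    refine ⟨γ⁻¹, Subtype.ext ?_⟩
    show PlaceAux.restrict ((ρ γ⁻¹)⁻¹ • v₀) = u
    rw [map_inv, inv_inv, ← hg, hv]
  have hfiff : ∀ γ₁ γ₂ : Γ, f γ₁ = f γ₂ ↔ ∃ δ ∈ Δ, (δ * γ₂)⁻¹ * γ₁ ∈ Γ₀ := by
    intro γ₁ γ₂
    constructor
    · intro h
      have h' : PlaceAux.restrict (F := IntermediateField.fixedField (Γ₀.map ρ))
          ((ρ γ₁)⁻¹ • v₀) = PlaceAux.restrict ((ρ γ₂)⁻¹ • v₀) := congrArg Subtype.val h
      obtain ⟨g, ⟨γ₀, hγ₀, rfl⟩, hg⟩ :=
        exists_mem_smul_eq_of_restrict_eq (Γ₀.map ρ) _ _ h'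
      -- `(ρ γ₂)⁻¹ • v₀ = ρ γ₀ • (ρ γ₁)⁻¹ • v₀`
      have hstab : ρ (γ₁ * γ₀⁻¹ * γ₂⁻¹) • v₀ = v₀ := by
        rw [map_mul, map_mul, map_inv, map_inv, mul_smul, mul_smul, hg, smul_smul (ρ γ₀)⁻¹,
          inv_mul_cancel, one_smul, smul_inv_smul]
      obtain ⟨δ, hδ, hρδ⟩ := (hΔ _).mp hstab
      refine ⟨δ, hδ, ?_⟩
      have hk : δ⁻¹ * (γ₁ * γ₀⁻¹ * γ₂⁻¹) ∈ ρ.ker := by
        rw [MonoidHom.mem_ker, map_mul, hρδ, map_inv, inv_mul_cancel]
      have hk' : γ₂⁻¹ * (δ⁻¹ * (γ₁ * γ₀⁻¹ * γ₂⁻¹)) * γ₂ ∈ Γ₀ := by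
        apply hker
        have := (MonoidHom.normal_ker ρ).conj_mem _ hk γ₂⁻¹
        rwa [inv_inv] at this
      have : (δ * γ₂)⁻¹ * γ₁ = γ₂⁻¹ * (δ⁻¹ * (γ₁ * γ₀⁻¹ * γ₂⁻¹)) * γ₂ * γ₀ := by group
      rw [this]
      exact Γ₀.mul_mem hk' hγ₀
    · rintro ⟨δ, hδ, h⟩
      apply Subtype.ext
      show PlaceAux.restrict (F := IntermediateField.fixedField (Γ₀.map ρ))
          ((ρ γ₁)⁻¹ • v₀) = PlaceAux.restrict ((ρ γ₂)⁻¹ • v₀)
      set γ₀ := (δ * γ₂)⁻¹ * γ₁ with hγ₀
      have hγ₁ : γ₁ = δ * γ₂ * γ₀ := by rw [hγ₀]; group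
      have hδv : (ρ δ)⁻¹ • v₀ = v₀ := by
        rw [inv_smul_eq_iff, eq_comm]
        exact (hΔ δ).mpr ⟨δ, hδ, rfl⟩
      have h1 : (ρ γ₁)⁻¹ • v₀ = (ρ γ₀)⁻¹ • ((ρ γ₂)⁻¹ • v₀) := by
        rw [hγ₁, map_mul, map_mul, mul_inv_rev, mul_inv_rev, mul_smul, mul_smul, hδv]
      rw [h1]
      exact restrict_fixedField_smul (Γ₀.map ρ) (ρ γ₀)⁻¹
        ((Γ₀.map ρ).inv_mem ⟨γ₀, h, rfl⟩) _
  exact card_eq_of_fibres_eq f q hf hq
    (fun γ₁ γ₂ => (hfiff γ₁ γ₂).trans (hqiff γ₁ γ₂).symm)

open GaloisAux PlaceAux in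
/-- The stabilizer of a place of `L` has order the ramification index. -/
theorem card_stabilizer_eq_ord (G : Subgroup (L ≃ₐ[K] L)) [Finite G]
    (y : L) (hy : Transcendental K y)
    (hfix : IntermediateField.fixedField G = IntermediateField.adjoin K {y})
    (v₀ : Place K L) (hv₀ : 0 < v₀.ord y) :
    (Nat.card {g : G // (g : L ≃ₐ[K] L) • v₀ = v₀} : ℤ) = v₀.ord y := by
  have hyfix : ∀ g ∈ G, g y = y := by
    intro g hg
    have h : y ∈ IntermediateField.fixedField G := by
      rw [hfix]; exact IntermediateField.mem_adjoin_simple_self K y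
    exact h ⟨g, hg⟩
  have hgen : IsFunctionFieldGen K L y :=
    ⟨hy, by rw [← hfix]; exact finiteDimensional_fixedField G⟩
  -- the set of places over `y = 0`
  set X : Set (Place K L) := {v | 0 < v.ord y} with hX
  have hXmem : ∀ v : Place K L, v ∈ X ↔ 0 < v.ord y := fun v => Iff.rfl
  have hXfin : X.Finite := by
    have := finite_zeros hgen 0
    rwa [map_zero, sub_zero] at this
  have hsum : ∑ᶠ v ∈ X, v.ord y = Module.finrank (IntermediateField.adjoin K {y}) L := by
    have := sum_ord_zeros hgen 0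
    rwa [map_zero, sub_zero] at this
  -- all orders are equal
  have hordeq : ∀ v ∈ X, v.ord y = v₀.ord y := by
    intro v hv
    obtain ⟨g, hg, rfl⟩ := places_transitive G y hfix v₀ v hv₀ ((hXmem v).mp hv)
    have h1 := Place.ord_smul g v₀ y
    rwa [hyfix g hg] at h1
  -- `X` is the orbit of `v₀`
  have hXorb : X = MulAction.orbit G v₀ := by
    ext v
    rw [hXmem, MulAction.mem_orbit_iff]
    constructor
    · intro hv
      obtain ⟨g, hg, rfl⟩ := places_transitive G y hfix v₀ v hv₀ hv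
      exact ⟨⟨g, hg⟩, rfl⟩
    · rintro ⟨g, rfl⟩
      have h1 := Place.ord_smul (g : L ≃ₐ[K] L) v₀ y
      rw [hyfix g g.2] at h1
      show 0 < ((g : L ≃ₐ[K] L) • v₀).ord y
      rw [h1]
      exact hv₀
  have hsum' : ∑ᶠ v ∈ X, v.ord y = (X.ncard : ℤ) * v₀.ord y := by
    rw [finsum_mem_congr rfl hordeq, finsum_mem_eq_finite_toFinset_sum _ hXfin, Finset.sum_const,
      ← Set.ncard_eq_toFinset_card X hXfin, nsmul_eq_mul]
  have hcard : Nat.card (MulAction.orbit G v₀) * Nat.card (MulAction.stabilizer G v₀)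
      = Nat.card G := by
    rw [← Nat.card_prod]
    exact Nat.card_congr (MulAction.orbitProdStabilizerEquivGroup G v₀)
  have hfin : (Nat.card G : ℤ) = (X.ncard : ℤ) * v₀.ord y := by
    have hrank : ∀ E E' : IntermediateField K L, E = E' →
        Module.finrank E L = Module.finrank E' L := by
      rintro E _ rfl
      rfl
    rw [← hsum', hsum, card_eq_finrank_fixedField G, hrank _ _ hfix]
  have hstab : Nat.card {g : G // (g : L ≃ₐ[K] L) • v₀ = v₀}
      = Nat.card (MulAction.stabilizer G v₀) := rfl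
  have hXcard : X.ncard = Nat.card (MulAction.orbit G v₀) := by
    rw [hXorb, Nat.card_coe_set_eq]
  have hXpos : 0 < X.ncard := by
    rw [Set.ncard_pos hXfin]
    exact ⟨v₀, (hXmem v₀).mpr hv₀⟩
  rw [hstab]
  have h3 : (X.ncard : ℤ) * (Nat.card (MulAction.stabilizer G v₀) : ℤ)
      = (X.ncard : ℤ) * v₀.ord y := by
    rw [← hfin, ← hcard, hXcard]
    push_cast
    ring
  have hne : (X.ncard : ℤ) ≠ 0 := by exact_mod_cast hXpos.ne'
  exact mul_left_cancel₀ hne h3

end Fermat.Agent.Curve
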