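/-
Places from valuations and transport of places along isomorphisms (project P1 / S24, part MOD).
-/
import Mathlib
import Fermat.Prelude.Def_AlgebraicCurve_CanonicalDivisor
import Fermat.Prelude.Def_AlgebraicCurve_Repartitions
import Fermat.Agent.Lib.Curve.PlaceBasic

set_option autoImplicit false
set_option linter.style.haveILetI false
set_option linter.unusedSectionVars false

namespace Fermat.Agent.Curve

open AlgebraicCurve WithZero MonoidWithZeroHom

variable {K L : Type*} [Field K] [Field L] [Algebra K L]

section OfValuation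

variable (w : Valuation L ℤᵐ⁰)

theorem nontrivial_valueGroup_of_ne_one {y : L} (hy : y ≠ 0) (h : w y ≠ 1) :
    Nontrivial (valueGroup (.ofClass w)) := by
  rw [Subgroup.nontrivial_iff_exists_ne_one]
  refine ⟨Units.mk0 (w y) ((Valuation.ne_zero_iff _).mpr hy), ?_, ?_⟩
  · apply mem_valueGroup
    exact ⟨y, rfl⟩
  · intro h1
    apply h
    have := congrArg Units.val h1
    simpa using this

/-- The place attached to a nontrivial `ℤᵐ⁰`-valued valuation which is trivial on constants. -/
noncomputable def placeOfValuation (hK : ∀ c : K, w (algebraMap K L c) ≤ 1)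
    (hnt : ∃ y : L, y ≠ 0 ∧ w y ≠ 1) : Place K L where
  toValuationSubring := w.valuationSubring
  algebraMap_mem' c := (Valuation.mem_valuationSubring_iff w _).mpr (hK c)
  ne_top' := by
    obtain ⟨y, hy0, hy1⟩ := hnt
    intro htop
    have hall : ∀ z : L, w z ≤ 1 := fun z => by
      rw [← Valuation.mem_valuationSubring_iff, htop]
      exact ValuationSubring.mem_top z
    have h1 := hall y
    have h2 := hall y⁻¹
    rw [map_inv₀] at h2
    have hpos : 0 < w y := zero_lt_iff.mpr ((Valuation.ne_zero_iff _).mpr hy0)
    rw [inv_le_one₀ hpos] at h2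
    exact hy1 (le_antisymm h1 h2)
  isPrincipalIdealRing' := by
    obtain ⟨y, hy0, hy1⟩ := hnt
    haveI := nontrivial_valueGroup_of_ne_one w hy0 hy1
    exact Valuation.valuationSubring_isPrincipalIdealRing w

variable (hK : ∀ c : K, w (algebraMap K L c) ≤ 1) (hnt : ∃ y : L, y ≠ 0 ∧ w y ≠ 1)

@[simp]
theorem placeOfValuation_toValuationSubring :
    (placeOfValuation w hK hnt).toValuationSubring = w.valuationSubring := rfl

theorem mem_placeOfValuation_iff (f : L) :
    f ∈ (placeOfValuation w hK hnt).toValuationSubring ↔ w f ≤ 1 :=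
  Valuation.mem_valuationSubring_iff w f

/-- The valuation `w` is a positive power of the normalised valuation of its place. -/
theorem placeOfValuation_ord :
    ∃ m : ℕ, 0 < m ∧ ∀ f : L, f ≠ 0 →
      w f = exp (-((m : ℤ) * (placeOfValuation w hK hnt).ord f)) := by
  set v := placeOfValuation w hK hnt with hv
  obtain ⟨π, hπ⟩ := IsDiscreteValuationRing.exists_irreducible v.toValuationSubring
  have hπ0 : (π : L) ≠ 0 := by
    simpa [ne_eq, ZeroMemClass.coe_eq_zero] using hπ.ne_zero
  have hwπ0 : w (π : L) ≠ 0 := (Valuation.ne_zero_iff _).mpr hπ0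
  have hint := Valuation.valuationSubring.integers w
  have hunit : ∀ x : w.valuationSubring, IsUnit x ↔ w (x : L) = 1 := fun x =>
    hint.isUnit_iff_valuation_eq_one
  have hwπ1 : w (π : L) < 1 := by
    refine lt_of_le_of_ne ((Valuation.mem_valuationSubring_iff w _).mp π.2) ?_
    intro h1
    exact hπ.not_isUnit ((hunit π).mpr h1)
  obtain ⟨k, hk⟩ : ∃ k : ℤ, w (π : L) = exp k := ⟨log (w (π : L)), (exp_log hwπ0).symm⟩
  have hkneg : k < 0 := by
    rw [hk, ← exp_zero, exp_lt_exp] at hwπ1
    exact hwπ1
  refine ⟨(-k).toNat, by omega, fun f hf => ?_⟩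
  obtain ⟨u, hu⟩ := v.exists_unit_mul_zpow hf hπ
  have hwu : w ((u : v.toValuationSubring) : L) = 1 := (hunit _).mp u.isUnit
  have hm : (((-k).toNat : ℕ) : ℤ) = -k := Int.toNat_of_nonneg (by omega)
  conv_lhs => rw [hu]
  rw [map_mul, hwu, one_mul, map_zpow₀, hk, ← exp_zsmul, hm]
  congr 1
  simp only [smul_eq_mul]
  ring

theorem placeOfValuation_ord_pos_iff (f : L) (hf : f ≠ 0) :
    0 < (placeOfValuation w hK hnt).ord f ↔ w f < 1 := by
  obtain ⟨m, hm, h⟩ := placeOfValuation_ord w hK hnt
  rw [h f hf, ← exp_zero, exp_lt_exp]
  constructor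
  · intro hpos
    have : 0 < (m : ℤ) * (placeOfValuation w hK hnt).ord f :=
      mul_pos (by exact_mod_cast hm) hpos
    omega
  · intro hlt
    have h1 : 0 < (m : ℤ) * (placeOfValuation w hK hnt).ord f := by omega
    exact (pos_iff_pos_of_mul_pos h1).mp (by exact_mod_cast hm)

/-- the normalised order is at most the order with respect to `w`. -/
theorem placeOfValuation_ord_le (f : L) (hf : f ≠ 0) {n : ℤ} (hn : w f = exp (-n)) (hpos : 0 ≤ n) :
    (placeOfValuation w hK hnt).ord f ≤ n := by
  obtain ⟨m, hm, h⟩ := placeOfValuation_ord w hK hnt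
  have h1 := h f hf
  rw [hn] at h1
  have h2 := exp_injective h1
  have h3 : n = (m : ℤ) * (placeOfValuation w hK hnt).ord f := by omega
  have hm1 : (1 : ℤ) ≤ m := by exact_mod_cast hm
  rcases le_or_gt ((placeOfValuation w hK hnt).ord f) 0 with hle | hgt
  · omega
  · calc (placeOfValuation w hK hnt).ord f = 1 * (placeOfValuation w hK hnt).ord f := (one_mul _).symm
      _ ≤ (m : ℤ) * (placeOfValuation w hK hnt).ord f :=
          mul_le_mul_of_nonneg_right hm1 hgt.le
      _ = n := h3.symm

end OfValuation

section Transport

variable {L' : Type*} [Field L'] [Algebra K L']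

/-- Two places whose valuation rings correspond under a ring isomorphism have the same order
functions. -/
theorem ord_eq_of_ringEquiv (v : Place K L) (v' : Place K L') (e : L ≃+* L')
    (h : ∀ f : L, f ∈ v.toValuationSubring ↔ e f ∈ v'.toValuationSubring) (f : L) :
    v'.ord (e f) = v.ord f := by
  rcases eq_or_ne f 0 with rfl | hf
  · simp
  let E : v.toValuationSubring ≃+* v'.toValuationSubring :=
    { toFun := fun x => ⟨e x, (h x).mp x.2⟩
      invFun := fun y => ⟨e.symm y, (h _).mpr (by simp)⟩
      left_inv := fun x => by ext; simp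
      right_inv := fun y => by ext; simp
      map_mul' := fun x y => by ext; simp
      map_add' := fun x y => by ext; simp }
  have hE : ∀ x : v.toValuationSubring, ((E x : v'.toValuationSubring) : L') = e (x : L) :=
    fun x => rfl
  obtain ⟨π, hπ⟩ := IsDiscreteValuationRing.exists_irreducible v.toValuationSubring
  obtain ⟨u, hu⟩ := v.exists_unit_mul_zpow hf hπ
  set n := v.ord f with hn
  have hπ' : Irreducible (E π) := (MulEquiv.irreducible_iff E).mpr hπ
  have hu' : IsUnit (E (u : v.toValuationSubring)) := u.isUnit.map E
  have hcoeu : ((hu'.unit : v'.toValuationSubring) : L') = e ((u : v.toValuationSubring) : L) := by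
    rw [IsUnit.unit_spec]
    exact hE _
  have key : e f = ((hu'.unit : v'.toValuationSubring) : L')
      * (((E π : v'.toValuationSubring) : L') ^ n) := by
    rw [hcoeu, hE, hu, map_mul, map_zpow₀]
  rw [key, v'.ord_unit_smul_zpow hu'.unit hπ' n]

/-- transport of a place along an isomorphism of fields -/
noncomputable def placeMap (e : L ≃ₐ[K] L') (v : Place K L) : Place K L' where
  toValuationSubring := v.toValuationSubring.comap (e.symm : L' →+* L)
  algebraMap_mem' c := by
    rw [ValuationSubring.mem_comap]
    have : (e.symm : L' →+* L) (algebraMap K L' c) = algebraMap K L c := e.symm.commutes c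
    rw [this]
    exact v.algebraMap_mem' c
  ne_top' := by
    intro htop
    apply v.ne_top'
    refine SetLike.ext fun x => ⟨fun _ => ValuationSubring.mem_top x, fun _ => ?_⟩
    have h1 : e x ∈ v.toValuationSubring.comap (e.symm : L' →+* L) := by
      rw [htop]; exact ValuationSubring.mem_top _
    rw [ValuationSubring.mem_comap] at h1
    simpa using h1
  isPrincipalIdealRing' := by
    let E : v.toValuationSubring ≃+* v.toValuationSubring.comap (e.symm : L' →+* L) :=
      { toFun := fun x => ⟨e x, by
          rw [ValuationSubring.mem_comap]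
          simp⟩
        invFun := fun y => ⟨e.symm y, by
          have := y.2
          rw [ValuationSubring.mem_comap] at this
          exact this⟩
        left_inv := fun x => by ext; simp
        right_inv := fun y => by ext; simp
        map_mul' := fun x y => by ext; simp
        map_add' := fun x y => by ext; simp }
    exact IsPrincipalIdealRing.of_surjective E.toRingHom E.surjective

theorem mem_placeMap_iff (e : L ≃ₐ[K] L') (v : Place K L) (f' : L') :
    f' ∈ (placeMap e v).toValuationSubring ↔ e.symm f' ∈ v.toValuationSubring :=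
  ValuationSubring.mem_comap

theorem placeMap_ord (e : L ≃ₐ[K] L') (v : Place K L) (f : L) :
    (placeMap e v).ord (e f) = v.ord f := by
  refine ord_eq_of_ringEquiv v (placeMap e v) e.toRingEquiv (fun g => ?_) f
  rw [mem_placeMap_iff]
  simp

theorem placeMap_ord' (e : L ≃ₐ[K] L') (v : Place K L) (f' : L') :
    (placeMap e v).ord f' = v.ord (e.symm f') := by
  have := placeMap_ord e v (e.symm f')
  rwa [AlgEquiv.apply_symm_apply] at this

theorem placeMap_symm_placeMap (e : L ≃ₐ[K] L') (v : Place K L) :
    placeMap e.symm (placeMap e v) = v := by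
  apply Place.ext
  ext x
  rw [mem_placeMap_iff, mem_placeMap_iff]
  simp

theorem placeMap_placeMap_symm (e : L ≃ₐ[K] L') (v' : Place K L') :
    placeMap e (placeMap e.symm v') = v' := by
  have := placeMap_symm_placeMap e.symm v'
  simpa using this

/-- the bijection between the places of two isomorphic fields -/
noncomputable def placeEquiv (e : L ≃ₐ[K] L') : Place K L ≃ Place K L' where
  toFun := placeMap e
  invFun := placeMap e.symm
  left_inv := placeMap_symm_placeMap e
  right_inv := placeMap_placeMap_symm e

theorem ncard_setOf_place_congr (e : L ≃ₐ[K] L') (P : Place K L → Prop) (P' : Place K L' → Prop)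
    (h : ∀ v, P' (placeMap e v) ↔ P v) :
    {v' : Place K L' | P' v'}.ncard = {v : Place K L | P v}.ncard := by
  have himg : {v' : Place K L' | P' v'} = (placeEquiv e) '' {v : Place K L | P v} := by
    ext v'
    simp only [Set.mem_ofPred_eq, Set.mem_image]
    constructor
    · intro hv'
      refine ⟨placeMap e.symm v', ?_, placeMap_placeMap_symm e v'⟩
      rw [← h, placeMap_placeMap_symm]
      exact hv'
    · rintro ⟨v, hv, rfl⟩
      exact (h v).mpr hv
  rw [himg, Set.ncard_image_of_injective _ (placeEquiv e).injective]

end Transport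

end Fermat.Agent.Curve
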