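/-
Differentials of a function field of one variable at a place (project P1 / S24, task GEN1,
part 3): `Ω[F⁄K] = F dy` for every non-constant `y`, and the order of `dy` at a place.
-/
import Mathlib
import Fermat.Prelude.Def_AlgebraicCurve_CanonicalDivisor
import Fermat.Prelude.Def_AlgebraicCurve_Repartitions
import Fermat.Agent.Lib.Curve.Defs
import Fermat.Agent.Lib.Curve.PlaceBasic
import Fermat.Agent.Lib.Curve.Residue
import Fermat.Agent.Lib.Curve.Expansion

set_option autoImplicit false
set_option linter.style.haveILetI false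
set_option linter.unusedSectionVars false

namespace Fermat.Agent.Curve

open AlgebraicCurve KaehlerDifferential IntermediateField

variable {K F : Type*} [Field K] [Field F] [Algebra K F]

section Span

/-- the differential of an element of `K(y)` is a multiple of `dy` -/
theorem D_mem_span_of_mem_adjoin (y : F) {e : F} (he : e ∈ IntermediateField.adjoin K {y}) :
    D K F e ∈ Submodule.span F {D K F y} := by
  induction he using IntermediateField.adjoin_induction with
  | mem z hz =>
    rw [Set.mem_singleton_iff] at hz
    rw [hz]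
    exact Submodule.mem_span_singleton_self _
  | algebraMap c =>
    rw [Derivation.map_algebraMap]
    exact Submodule.zero_mem _
  | add a b _ _ ha hb =>
    rw [map_add]
    exact add_mem ha hb
  | inv a _ ha =>
    rw [Derivation.leibniz_inv]
    exact Submodule.smul_mem _ _ ha
  | mul a b _ _ ha hb =>
    rw [Derivation.leibniz]
    exact add_mem (Submodule.smul_mem _ _ hb) (Submodule.smul_mem _ _ ha)

/-- **`Ω[F⁄K]` is spanned by `dy`** for every non-constant `y`. -/
theorem span_D_eq_top [IsAlgClosed K] [CharZero K] {x : F} (hx : IsFunctionFieldGen K F x) {y : F}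
    (hy : y ∉ (algebraMap K F).range) : Submodule.span F {D K F y} = ⊤ := by
  have hgen := hx.of_not_mem_range hy
  haveI := hgen.finite
  haveI : CharZero (IntermediateField.adjoin K {y}) :=
    charZero_of_injective_algebraMap (algebraMap K (IntermediateField.adjoin K {y})).injective
  haveI : Algebra.IsSeparable (IntermediateField.adjoin K {y}) F := inferInstance
  haveI : Algebra.FormallyUnramified (IntermediateField.adjoin K {y}) F :=
    Algebra.FormallyUnramified.of_isSeparable _ _
  rw [eq_top_iff, ← KaehlerDifferential.span_range_derivation K F, Submodule.span_le]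
  rintro _ ⟨z, rfl⟩
  have hex := KaehlerDifferential.exact_mapBaseChange_map K (IntermediateField.adjoin K {y}) F
    (D K F z)
  obtain ⟨w, hw⟩ := hex.mp (Subsingleton.elim _ _)
  rw [← hw]
  clear hw hex
  induction w using TensorProduct.induction_on with
  | zero => rw [map_zero]; exact Submodule.zero_mem _
  | add a b ha hb => rw [map_add]; exact add_mem ha hb
  | tmul f ω =>
    rw [mapBaseChange_tmul]
    apply Submodule.smul_mem
    have hω : ω ∈ Submodule.span (IntermediateField.adjoin K {y})
        (Set.range (D K (IntermediateField.adjoin K {y}))) := by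
      rw [KaehlerDifferential.span_range_derivation]; trivial
    induction hω using Submodule.span_induction with
    | mem _ h =>
      obtain ⟨e, rfl⟩ := h
      rw [KaehlerDifferential.map_D]
      exact D_mem_span_of_mem_adjoin y e.2
    | zero => rw [map_zero]; exact Submodule.zero_mem _
    | add a b _ _ ha hb => rw [map_add]; exact add_mem ha hb
    | smul c ω' _ ih =>
      rw [map_smul, ← algebraMap_smul F c]
      exact Submodule.smul_mem _ _ ih

end Span

open scoped PowerSeries

section Deriv

variable (v : Place K F) (hv : IsRationalPlace v)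

/-- The key compatibility between Kähler differentials of `F` and derivatives of expansions. -/
theorem expandPS_mul_derivative_eq {t : F} (ht : v.ord t = 1) (htm : t ∈ v.toValuationSubring)
    (y g h : v.toValuationSubring)
    (hD : (h : F) • D K F (y : F) = (g : F) • D K F t) :
    expandPS v hv ht h * PowerSeries.derivative K (expandPS v hv ht y) = expandPS v hv ht g := by
  set φ := expandPS v hv ht with hφ
  letI : Algebra v.toValuationSubring K⟦X⟧ := φ.toRingHom.toAlgebra
  haveI : IsScalarTower K v.toValuationSubring K⟦X⟧ :=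
    IsScalarTower.of_algebraMap_eq (fun c => (φ.commutes c).symm)
  let δ : Derivation K v.toValuationSubring K⟦X⟧ :=
    (PowerSeries.derivative K).compAlgebraMap v.toValuationSubring
  have hδ : ∀ a : v.toValuationSubring, δ a = PowerSeries.derivative K (φ a) := fun a => rfl
  have hsmul : ∀ (a : v.toValuationSubring) (p : K⟦X⟧), a • p = φ a * p := fun a p => rfl
  -- the relation in `Ω[A⁄K]` up to a nonzero multiple
  let T : v.toValuationSubring := ⟨t, htm⟩
  have hmap : KaehlerDifferential.map K K v.toValuationSubring F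
      (h • D K v.toValuationSubring y - g • D K v.toValuationSubring T) = 0 := by
    rw [map_sub, map_smul, map_smul, KaehlerDifferential.map_D, KaehlerDifferential.map_D]
    rw [sub_eq_zero]
    exact hD
  obtain ⟨s, hs⟩ := (IsLocalizedModule.eq_zero_iff (nonZeroDivisors v.toValuationSubring)
    (KaehlerDifferential.map K K v.toValuationSubring F)).mp hmap
  have h2 := congrArg δ.liftKaehlerDifferential hs
  rw [map_zero, Submonoid.smul_def, map_smul, map_sub, map_smul, map_smul,
    Derivation.liftKaehlerDifferential_comp_D, Derivation.liftKaehlerDifferential_comp_D,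
    hδ, hδ, hsmul, hsmul, hsmul] at h2
  have hT : φ T = PowerSeries.X := expandPS_uniformizer v hv ht htm
  rw [hT, PowerSeries.derivative_X, mul_one] at h2
  have hs0 : φ (s : v.toValuationSubring) ≠ 0 := by
    intro h0
    have := expandPS_injective v hv ht (h0.trans (map_zero φ).symm)
    exact nonZeroDivisors.coe_ne_zero s this
  have h3 := (mul_eq_zero.mp h2).resolve_left hs0
  exact sub_eq_zero.mp h3

theorem order_derivative_of_order_pos [CharZero K] {p : K⟦X⟧} {e : ℕ} (he : 0 < e)
    (hp : p.order = e) : (PowerSeries.derivative K p).order = ((e - 1 : ℕ) : ℕ∞) := by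
  rw [PowerSeries.order_eq_nat] at hp ⊢
  obtain ⟨h1, h2⟩ := hp
  refine ⟨?_, fun i hi => ?_⟩
  · rw [PowerSeries.coeff_derivative, Nat.sub_add_cancel he]
    refine mul_ne_zero h1 ?_
    have : ((e - 1 : ℕ) : K) + 1 = (e : K) := by
      have h3 : e - 1 + 1 = e := Nat.sub_add_cancel he
      exact_mod_cast congrArg (Nat.cast : ℕ → K) h3
    rw [this]
    exact Nat.cast_ne_zero.mpr he.ne'
  · rw [PowerSeries.coeff_derivative, h2 (i + 1) (by omega), zero_mul]

theorem ne_zero_of_ord_eq_one {t : F} (ht : v.ord t = 1) : t ≠ 0 := by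
  rintro rfl
  rw [v.ord_zero] at ht
  exact zero_ne_one ht

/-- If `dy = c dt` for `y ∈ O_v`, the order of `c` is the order of the derivative of the
expansion of `y`. -/
theorem ord_coeff_of_D_eq_smul {t : F} (ht : v.ord t = 1) (htm : t ∈ v.toValuationSubring)
    (y : v.toValuationSubring) (c : F) (hc : D K F (y : F) = c • D K F t) {n : ℕ}
    (hn : (PowerSeries.derivative K (expandPS v hv ht y)).order = (n : ℕ∞)) :
    c ≠ 0 ∧ v.ord c = n := by
  obtain ⟨g, h, hh, rfl⟩ := IsFractionRing.div_surjective (A := v.toValuationSubring) c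
  have hh0 : h ≠ 0 := nonZeroDivisors.ne_zero hh
  have hhF : (h : F) ≠ 0 := by simpa using hh0
  have hcoe : ∀ a : v.toValuationSubring, algebraMap v.toValuationSubring F a = (a : F) :=
    fun a => rfl
  rw [hcoe, hcoe] at hc ⊢
  have hD : (h : F) • D K F (y : F) = (g : F) • D K F t := by
    rw [hc, smul_smul, mul_div_cancel₀ _ hhF]
  have key := expandPS_mul_derivative_eq v hv ht htm y g h hD
  have hd0 : PowerSeries.derivative K (expandPS v hv ht y) ≠ 0 := by
    intro h0
    rw [h0, PowerSeries.order_zero] at hn
    exact ENat.top_ne_natCast _ hn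
  have hφh : expandPS v hv ht h ≠ 0 := fun h0 =>
    hh0 (expandPS_injective v hv ht (h0.trans (map_zero _).symm))
  have hφg : expandPS v hv ht g ≠ 0 := by
    rw [← key]
    exact mul_ne_zero hφh hd0
  have hg0 : g ≠ 0 := by
    rintro rfl
    exact hφg (map_zero _)
  have hgF : (g : F) ≠ 0 := by simpa using hg0
  have hord := congrArg PowerSeries.order key
  rw [PowerSeries.order_mul, order_expandPS v hv ht hh0, order_expandPS v hv ht hg0, hn] at hord
  have hord' : (v.ord (h : F)).toNat + n = (v.ord (g : F)).toNat := by exact_mod_cast hord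
  have hgn : 0 ≤ v.ord (g : F) := PlaceAux.ord_nonneg_of_mem v g.2
  have hhn : 0 ≤ v.ord (h : F) := PlaceAux.ord_nonneg_of_mem v h.2
  refine ⟨div_ne_zero hgF hhF, ?_⟩
  rw [div_eq_mul_inv, v.ord_mul hgF (inv_ne_zero hhF), v.ord_inv]
  omega

include hv in
/-- an element of positive order is not killed by `d` -/
theorem D_ne_zero_of_ord_pos [CharZero K] {Y : F} (hY : 0 < v.ord Y) : D K F Y ≠ 0 := by
  intro h0
  obtain ⟨π, hπ⟩ := IsDiscreteValuationRing.exists_irreducible v.toValuationSubring
  have ht : v.ord (π : F) = 1 := v.ord_coe_irreducible hπ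
  have hYm : Y ∈ v.toValuationSubring := PlaceAux.mem_of_ord_nonneg v hY.le
  have hY0 : (⟨Y, hYm⟩ : v.toValuationSubring) ≠ 0 := by
    intro h
    have : Y = 0 := congrArg Subtype.val h
    rw [this, v.ord_zero] at hY
    exact lt_irrefl _ hY
  have hord := order_expandPS v hv ht hY0
  have hpos : 0 < (v.ord Y).toNat := by omega
  have hder := order_derivative_of_order_pos hpos hord
  have := ord_coeff_of_D_eq_smul v hv ht π.2 ⟨Y, hYm⟩ 0 (by rw [zero_smul]; exact h0) hder
  exact this.1 rfl

end Deriv

section Main

variable [IsAlgClosed K] [CharZero K]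

theorem exists_uniformizer_dCoord (v : Place K F) :
    ∃ t : F, v.ord t = 1 ∧ t ∈ v.toValuationSubring ∧ v.dCoord = D K F t := by
  have hirr := (IsDiscreteValuationRing.exists_irreducible v.toValuationSubring).choose_spec
  exact ⟨_, v.ord_coe_irreducible hirr, Subtype.prop _, rfl⟩

theorem not_mem_range_of_ord_ne_zero (v : Place K F) {t : F} (ht : v.ord t ≠ 0) :
    t ∉ (algebraMap K F).range := by
  rintro ⟨a, rfl⟩
  exact ht (PlaceAux.ord_algebraMap v a)

/-- the differential of the chosen uniformizer generates `Ω[F⁄K]` -/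
theorem dCoordGenerates {x : F} (hx : IsFunctionFieldGen K F x) (v : Place K F) :
    v.DCoordGenerates := by
  obtain ⟨t, ht, -, hdc⟩ := exists_uniformizer_dCoord v
  refine ⟨?_⟩
  rw [hdc]
  exact span_D_eq_top hx (not_mem_range_of_ord_ne_zero v (by rw [ht]; exact one_ne_zero))

/-- `Ω[F⁄K] ≠ 0` as soon as `F` has a place -/
theorem nontrivial_kaehler_of_place {x : F} (hx : IsFunctionFieldGen K F x) (v : Place K F) :
    Nontrivial Ω[F⁄K] := by
  obtain ⟨t, ht, -, -⟩ := exists_uniformizer_dCoord v
  have := D_ne_zero_of_ord_pos v (isRationalPlace_of_isFunctionFieldGen hx v)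
    (Y := t) (by rw [ht]; exact one_pos)
  exact nontrivial_of_ne _ _ this

/-- `dy ≠ 0` for non-constant `y` (given a place) -/
theorem D_ne_zero_of_place {x : F} (hx : IsFunctionFieldGen K F x) (v : Place K F) {y : F}
    (hy : y ∉ (algebraMap K F).range) : D K F y ≠ 0 := by
  have hv := isRationalPlace_of_isFunctionFieldGen hx v
  intro h0
  have hy0 : y ≠ 0 := by
    rintro rfl
    exact hy ⟨0, map_zero _⟩
  by_cases hmem : y ∈ v.toValuationSubring
  · obtain ⟨a, ha⟩ := hv y hmem
    have hne : y - algebraMap K F a ≠ 0 := by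
      intro h
      exact hy ⟨a, (sub_eq_zero.mp h).symm⟩
    have hpos : 0 < v.ord (y - algebraMap K F a) := by
      rcases (PlaceAux.ordGE_iff v).mp (ordGE_one_of_adicValuation_lt_one v ha) with h | h
      · exact absurd h hne
      · omega
    refine D_ne_zero_of_ord_pos v hv hpos ?_
    rw [map_sub, Derivation.map_algebraMap, sub_zero, h0]
  · have hlt : v.ord y < 0 := by
      by_contra hge
      exact hmem (PlaceAux.mem_of_ord_nonneg v (not_lt.mp hge))
    have hpos : 0 < v.ord y⁻¹ := by rw [v.ord_inv]; omega
    refine D_ne_zero_of_ord_pos v hv hpos ?_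
    rw [Derivation.leibniz_inv, h0, smul_zero]

theorem ord_neg' (v : Place K F) (f : F) : v.ord (-f) = v.ord f := by
  simp only [Place.ord, Valuation.map_neg]

/-- the coefficient of `dy` with respect to the chosen uniformizer, at a zero of `y - a` -/
theorem differentialCoeff_D_of_pos {x : F} (hx : IsFunctionFieldGen K F x) (v : Place K F) (y : F)
    (a : K) (h : 0 < v.ord (y - algebraMap K F a)) :
    v.differentialCoeff (D K F y) ≠ 0 ∧
      v.ord (v.differentialCoeff (D K F y)) = v.ord (y - algebraMap K F a) - 1 := by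
  have hv := isRationalPlace_of_isFunctionFieldGen hx v
  obtain ⟨t, ht, htm, hdc⟩ := exists_uniformizer_dCoord v
  haveI := dCoordGenerates hx v
  set Y := y - algebraMap K F a with hY
  have hYm : Y ∈ v.toValuationSubring := PlaceAux.mem_of_ord_nonneg v h.le
  have hY0 : (⟨Y, hYm⟩ : v.toValuationSubring) ≠ 0 := by
    intro h'
    have : Y = 0 := congrArg Subtype.val h'
    rw [this, v.ord_zero] at h
    exact lt_irrefl _ h
  have hord := order_expandPS v hv ht hY0
  have hpos : 0 < (v.ord Y).toNat := by
    have : (0 : ℤ) < v.ord Y := h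
    omega
  have hder := order_derivative_of_order_pos hpos hord
  have hDY : D K F Y = D K F y := by
    rw [hY, map_sub, Derivation.map_algebraMap, sub_zero]
  have hc : D K F ((⟨Y, hYm⟩ : v.toValuationSubring) : F)
      = v.differentialCoeff (D K F y) • D K F t := by
    rw [← hdc, v.differentialCoeff_smul_dCoord]
    exact hDY
  obtain ⟨h1, h2⟩ := ord_coeff_of_D_eq_smul v hv ht htm ⟨Y, hYm⟩ _ hc hder
  refine ⟨h1, ?_⟩
  rw [h2]
  have : (0 : ℤ) < v.ord Y := h
  omega

theorem ordDifferential_D_of_pos {x : F} (hx : IsFunctionFieldGen K F x) (v : Place K F) (y : F)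
    (a : K) (h : 0 < v.ord (y - algebraMap K F a)) :
    v.ordDifferential (D K F y) = v.ord (y - algebraMap K F a) - 1 :=
  (differentialCoeff_D_of_pos hx v y a h).2

theorem ordDifferential_D_of_neg {x : F} (hx : IsFunctionFieldGen K F x) (v : Place K F) (y : F)
    (h : v.ord y < 0) :
    v.ordDifferential (D K F y) = v.ord y - 1 := by
  haveI := dCoordGenerates hx v
  haveI := nontrivial_kaehler_of_place hx v
  have hy0 : y ≠ 0 := by
    rintro rfl
    rw [v.ord_zero] at h
    exact lt_irrefl _ h
  have hpos : 0 < v.ord (y⁻¹ - algebraMap K F 0) := by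
    rw [map_zero, sub_zero, v.ord_inv]; omega
  obtain ⟨h1, h2⟩ := differentialCoeff_D_of_pos hx v y⁻¹ 0 hpos
  rw [map_zero, sub_zero, v.ord_inv] at h2
  have hDy : D K F y = (-(y ^ 2)) • D K F y⁻¹ := by
    have := Derivation.leibniz_inv (D K F) y⁻¹
    rw [inv_inv] at this
    rw [this]
  have hc : -(y ^ 2) ≠ 0 := neg_ne_zero.mpr (pow_ne_zero 2 hy0)
  rw [hDy, v.ordDifferential_smul hc h1, Place.ordDifferential, h2, ord_neg', pow_two,
    v.ord_mul hy0 hy0]
  ring

end Main

end Fermat.Agent.Curve
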