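/-
Local theory of function fields of one variable at a place (project P1 / S24, task GEN1):
umbrella file.
-/
import Fermat.Agent.Lib.Curve.Residue
import Fermat.Agent.Lib.Curve.Expansion
import Fermat.Agent.Lib.Curve.Differential
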