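/-
P1 part C / S24-GEN2 (helper5): the degree of the divisor of a Kähler differential of a function
field `F/K` in Hurwitz' counting form (`degree_canonical`), and independence of the differential.
-/
import Mathlib
import Fermat.Agent.Lib.Curve.Global
import Fermat.Agent.Lib.Curve.Local

set_option autoImplicit false
set_option linter.unusedSectionVars false
set_option linter.style.haveILetI false

namespace Fermat.Agent.Curve

open AlgebraicCurve KaehlerDifferential IntermediateField PlaceAux

variable {K F : Type*} [Field K] [Field F] [Algebra K F] [IsAlgClosed K] [CharZero K]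

/-- a function field has a place -/
theorem exists_place {x : F} (hx : IsFunctionFieldGen K F x) : Nonempty (Place K F) := by
  by_contra hne
  rw [not_nonempty_iff] at hne
  have h := sum_ord_poles hx
  have h0 : ∑ᶠ v ∈ {v : Place K F | v.ord x < 0}, - v.ord x = 0 := by
    rw [finsum_mem_def]
    apply finsum_eq_zero_of_forall_eq_zero
    intro v
    exact (hne.false v).elim
  rw [h0] at h
  have hpos : 0 < Module.finrank (IntermediateField.adjoin K {x}) F := by
    haveI := hx.finite
    exact Module.finrank_pos
  omega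

/-- the coefficient of `dy` is nonzero for nonconstant `y` -/
theorem differentialCoeff_D_ne_zero {x : F} (hx : IsFunctionFieldGen K F x) (v : Place K F)
    {y : F} (hy : y ∉ (algebraMap K F).range) : v.differentialCoeff (D K F y) ≠ 0 := by
  haveI := dCoordGenerates hx v
  intro h0
  have h1 := v.differentialCoeff_smul_dCoord (D K F y)
  rw [h0, zero_smul] at h1
  exact D_ne_zero_of_place hx v hy h1.symm

/-- every place is a pole of `x` or a zero of `x - a` for a unique `a` -/
theorem pole_or_zero {x : F} (hx : IsFunctionFieldGen K F x) (v : Place K F) :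
    v.ord x < 0 ∨ ∃ a : K, 0 < v.ord (x - algebraMap K F a) := by
  by_cases h : v.ord x < 0
  · exact Or.inl h
  right
  have hmem : x ∈ v.toValuationSubring := mem_of_ord_nonneg v (not_lt.mp h)
  obtain ⟨a, ha⟩ := exists_const_ordGE_one hx v hmem
  refine ⟨a, ?_⟩
  rcases (ordGE_iff v).mp ha with h0 | h0
  · exfalso
    apply hx.not_mem_range
    exact ⟨a, (sub_eq_zero.mp h0).symm⟩
  · omega

/-- the order of the differential `dx` at a pole of `x` or a zero of `x - a` -/
theorem ordDifferential_D_gen {x : F} (hx : IsFunctionFieldGen K F x) (v : Place K F) :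
    (v.ord x < 0 ∧ v.ordDifferential (D K F x) = v.ord x - 1) ∨
      ∃ a : K, 0 < v.ord (x - algebraMap K F a) ∧
        v.ordDifferential (D K F x) = v.ord (x - algebraMap K F a) - 1 := by
  rcases pole_or_zero hx v with h | ⟨a, ha⟩
  · exact Or.inl ⟨h, ordDifferential_D_of_neg hx v x h⟩
  · exact Or.inr ⟨a, ha, ordDifferential_D_of_pos hx v x a ha⟩

/-- zeros of `x - a` and of `x - b` are disjoint for `a ≠ b`, and disjoint from the poles -/
theorem zero_unique {x : F} (v : Place K F) {a b : K}
    (ha : 0 < v.ord (x - algebraMap K F a)) (hb : 0 < v.ord (x - algebraMap K F b)) : a = b := by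
  have h1 : OrdGE v (x - algebraMap K F a) 1 := (ordGE_iff v).mpr (Or.inr (by omega))
  have h2 : OrdGE v (x - algebraMap K F b) 1 := (ordGE_iff v).mpr (Or.inr (by omega))
  exact const_unique_of_ordGE_one v h1 h2

theorem not_pole_of_zero {x : F} (v : Place K F) {a : K}
    (ha : 0 < v.ord (x - algebraMap K F a)) : ¬ v.ord x < 0 := by
  intro h
  have h1 : x - algebraMap K F a ∈ v.toValuationSubring := mem_of_ord_nonneg v ha.le
  have h2 := v.toValuationSubring.add_mem _ _ h1 (algebraMap_mem v a)
  rw [sub_add_cancel] at h2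
  have := ord_nonneg_of_mem v h2
  omega

/-- if `x - a` has `n = [F : K(x)]` distinct zeros then they are all simple -/
theorem ord_eq_one_of_ncard_eq {x : F} (hx : IsFunctionFieldGen K F x) (a : K)
    (h : {v : Place K F | 0 < v.ord (x - algebraMap K F a)}.ncard
      = Module.finrank (IntermediateField.adjoin K {x}) F)
    (v : Place K F) (hv : 0 < v.ord (x - algebraMap K F a)) :
    v.ord (x - algebraMap K F a) = 1 := by
  have hfin := finite_zeros hx a
  have hsum := sum_ord_zeros hx a
  rw [finsum_mem_eq_finite_toFinset_sum _ hfin] at hsum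
  rw [Set.ncard_eq_toFinset_card _ hfin] at h
  by_contra hne
  have hlt : ∑ w ∈ hfin.toFinset, (1 : ℤ) < ∑ w ∈ hfin.toFinset, w.ord (x - algebraMap K F a) := by
    apply Finset.sum_lt_sum
    · intro w hw
      have : 0 < w.ord (x - algebraMap K F a) := by simpa using hw
      omega
    · refine ⟨v, by simpa using hv, ?_⟩
      omega
  rw [hsum, Finset.sum_const, nsmul_eq_mul, mul_one, h] at hlt
  exact lt_irrefl _ hlt

/-- **Hurwitz' formula** for `F / K(x)` in counting form. -/
theorem degree_canonical {x : F} (hx : IsFunctionFieldGen K F x) (S : Finset K)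
    (hS : ∀ a ∉ S, {v : Place K F | 0 < v.ord (x - algebraMap K F a)}.ncard
      = Module.finrank (IntermediateField.adjoin K {x}) F)
    (ω : Ω[F⁄K]) (hω : ω ≠ 0) (Dv : Divisor K F)
    (hD : ∀ v : Place K F, Dv v = v.ordDifferential ω) :
    Divisor.degree Dv = ∑ a ∈ S, ((Module.finrank (IntermediateField.adjoin K {x}) F : ℤ)
        - {v : Place K F | 0 < v.ord (x - algebraMap K F a)}.ncard)
      - Module.finrank (IntermediateField.adjoin K {x}) F
      - {v : Place K F | v.ord x < 0}.ncard := by
  classical
  set n := Module.finrank (IntermediateField.adjoin K {x}) F with hn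
  have hxK : x ∉ (algebraMap K F).range := hx.not_mem_range
  -- `ω = f dx`
  have hspan := span_D_eq_top hx hxK
  have hωmem : ω ∈ Submodule.span F {D K F x} := by rw [hspan]; exact Submodule.mem_top
  obtain ⟨f, rfl⟩ := Submodule.mem_span_singleton.mp hωmem
  have hf : f ≠ 0 := by
    rintro rfl
    exact hω (zero_smul _ _)
  -- the divisor of `f`
  obtain ⟨Df, hDf, hDf0⟩ := (hasPrincipalDivisors hx).exists_divisor f hf
  -- the divisor of `dx`
  set G : Divisor K F := Dv - Df with hG
  have hGv : ∀ v : Place K F, G v = v.ordDifferential (D K F x) := by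
    intro v
    haveI := dCoordGenerates hx v
    haveI := nontrivial_kaehler_of_place hx v
    rw [hG, Finsupp.sub_apply, hD v, hDf v,
      v.ordDifferential_smul hf (differentialCoeff_D_ne_zero hx v hxK)]
    ring
  have hdeg : Divisor.degree Dv = Divisor.degree G := by
    rw [hG, map_sub, hDf0, sub_zero]
  rw [hdeg, degree_eq_finsum hx]
  -- finite sets of zeros and poles
  have hfinP := finite_poles hx
  have hfinZ := fun a => finite_zeros hx a
  set P : Finset (Place K F) := hfinP.toFinset with hP
  set Z : K → Finset (Place K F) := fun a => (hfinZ a).toFinset with hZ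
  have hmemP : ∀ v, v ∈ P ↔ v.ord x < 0 := fun v => by simp [hP]
  have hmemZ : ∀ a v, v ∈ Z a ↔ 0 < v.ord (x - algebraMap K F a) := fun a v => by simp [hZ]
  -- the support of `G` is contained in `P ∪ ⋃_{a ∈ S} Z a`
  have hsupp : Function.support (fun v => G v) ⊆ ↑(P ∪ S.biUnion Z) := by
    intro v hv
    rw [Function.mem_support] at hv
    rw [Finset.mem_coe, Finset.mem_union, Finset.mem_biUnion]
    rcases ordDifferential_D_gen hx v with ⟨h1, -⟩ | ⟨a, ha, h2⟩
    · exact Or.inl ((hmemP v).mpr h1)
    · right
      refine ⟨a, ?_, (hmemZ a v).mpr ha⟩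
      by_contra haS
      apply hv
      rw [hGv v, h2, ord_eq_one_of_ncard_eq hx a (hS a haS) v ha]
      rfl
  rw [finsum_eq_sum_of_support_subset _ hsupp]
  have hdisj1 : Disjoint P (S.biUnion Z) := by
    rw [Finset.disjoint_left]
    intro v hvP hvZ
    rw [Finset.mem_biUnion] at hvZ
    obtain ⟨a, -, hva⟩ := hvZ
    exact not_pole_of_zero v ((hmemZ a v).mp hva) ((hmemP v).mp hvP)
  have hdisj2 : (↑S : Set K).PairwiseDisjoint Z := by
    intro a _ b _ hab
    rw [Function.onFun, Finset.disjoint_left]
    intro v hva hvb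
    exact hab (zero_unique v ((hmemZ a v).mp hva) ((hmemZ b v).mp hvb))
  rw [Finset.sum_union hdisj1, Finset.sum_biUnion hdisj2]
  -- the poles
  have hsumP : ∑ v ∈ P, G v = -(n : ℤ) - (P.card : ℤ) := by
    have h1 := sum_ord_poles hx
    rw [finsum_mem_eq_finite_toFinset_sum _ hfinP, ← hn] at h1
    have h2 : ∀ v ∈ P, G v = -(-v.ord x) - 1 := by
      intro v hv
      rw [hGv v, ordDifferential_D_of_neg hx v x ((hmemP v).mp hv)]
      ring
    rw [Finset.sum_congr rfl h2, Finset.sum_sub_distrib, Finset.sum_neg_distrib, h1,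
      Finset.sum_const, nsmul_eq_mul, mul_one]
  -- the zeros of `x - a`
  have hsumZ : ∀ a : K, ∑ v ∈ Z a, G v = (n : ℤ) - ((Z a).card : ℤ) := by
    intro a
    have h1 := sum_ord_zeros hx a
    rw [finsum_mem_eq_finite_toFinset_sum _ (hfinZ a), ← hn] at h1
    have h2 : ∀ v ∈ Z a, G v = v.ord (x - algebraMap K F a) - 1 := by
      intro v hv
      rw [hGv v, ordDifferential_D_of_pos hx v x a ((hmemZ a v).mp hv)]
    rw [Finset.sum_congr rfl h2, Finset.sum_sub_distrib, h1,
      Finset.sum_const, nsmul_eq_mul, mul_one]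
  rw [hsumP, Finset.sum_congr rfl fun a _ => hsumZ a]
  have hcardP : {v : Place K F | v.ord x < 0}.ncard = P.card :=
    Set.ncard_eq_toFinset_card _ hfinP
  have hcardZ : ∀ a : K, {v : Place K F | 0 < v.ord (x - algebraMap K F a)}.ncard = (Z a).card :=
    fun a => Set.ncard_eq_toFinset_card _ (hfinZ a)
  simp only [hcardP, hcardZ]
  ring

end Fermat.Agent.Curve
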