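/-
P1 part C, task RR-A: dimension counts for adeles of a function field (Stichtenoth 1.4.8-1.4.12,
1.5.?), helper8.  Statements as in helper5's stub `Stub/Riemann.lean` (first half).
-/
import Mathlib
import Fermat.Agent.Lib.Curve.Adele

set_option autoImplicit false

namespace Fermat.Agent.Curve

open AlgebraicCurve WithZero PlaceAux

namespace RRAux

/-! ### Relative quotients `N / (M ∩ N)` of submodules of an ambient space -/

section RelQuot

variable {K V : Type*} [Field K] [AddCommGroup V] [Module K V]

theorem mem_submoduleOf_iff {M N : Submodule K V} {x : ↥N} :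
    x ∈ M.submoduleOf N ↔ (x : V) ∈ M := Iff.rfl

/-- a surjective linear map on `N` with kernel `M ∩ N` identifies `N / M` with its target -/
noncomputable def relQuotEquivOfSurjective {W : Type*} [AddCommGroup W] [Module K W]
    (M N : Submodule K V) (g : ↥N →ₗ[K] W) (hg : Function.Surjective g)
    (hker : LinearMap.ker g = M.submoduleOf N) : (↥N ⧸ M.submoduleOf N) ≃ₗ[K] W :=
  (Submodule.quotEquivOfEq _ _ hker.symm).trans (g.quotKerEquivOfSurjective hg)

/-- the canonical map `N / M → P / M` for `N ≤ P` -/
def relQuotMap (M : Submodule K V) {N P : Submodule K V} (h : N ≤ P) :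
    (↥N ⧸ M.submoduleOf N) →ₗ[K] (↥P ⧸ M.submoduleOf P) :=
  Submodule.mapQ _ _ (Submodule.inclusion h) (by
    intro x hx
    rw [Submodule.mem_comap, mem_submoduleOf_iff]
    exact hx)

theorem relQuotMap_mk (M : Submodule K V) {N P : Submodule K V} (h : N ≤ P) (x : ↥N) :
    relQuotMap M h (Submodule.Quotient.mk x) = Submodule.Quotient.mk (Submodule.inclusion h x) :=
  rfl

/-- the canonical map `P / M → P / N` for `M ≤ N` -/
def relQuotProj {M N : Submodule K V} (h : M ≤ N) (P : Submodule K V) :
    (↥P ⧸ M.submoduleOf P) →ₗ[K] (↥P ⧸ N.submoduleOf P) :=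
  Submodule.mapQ _ _ LinearMap.id (by
    intro x hx
    rw [Submodule.mem_comap, mem_submoduleOf_iff]
    exact h hx)

theorem relQuotProj_mk {M N : Submodule K V} (h : M ≤ N) (P : Submodule K V) (x : ↥P) :
    relQuotProj h P (Submodule.Quotient.mk x) = Submodule.Quotient.mk x := rfl

theorem relQuotMap_injective (M : Submodule K V) {N P : Submodule K V} (h : N ≤ P) :
    Function.Injective (relQuotMap M h) := by
  rw [← LinearMap.ker_eq_bot, eq_bot_iff]
  intro q hq
  induction q using Submodule.Quotient.induction_on with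
  | H x =>
    rw [LinearMap.mem_ker, relQuotMap_mk, Submodule.Quotient.mk_eq_zero] at hq
    rw [Submodule.mem_bot, Submodule.Quotient.mk_eq_zero]
    exact hq

theorem relQuotProj_surjective {M N : Submodule K V} (h : M ≤ N) (P : Submodule K V) :
    Function.Surjective (relQuotProj h P) := by
  intro q
  induction q using Submodule.Quotient.induction_on with
  | H x => exact ⟨Submodule.Quotient.mk x, rfl⟩

theorem range_relQuotMap_eq_ker_relQuotProj {M N P : Submodule K V} (hMN : M ≤ N) (hNP : N ≤ P) :
    LinearMap.range (relQuotMap M hNP) = LinearMap.ker (relQuotProj hMN P) := by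
  apply le_antisymm
  · rintro _ ⟨q, rfl⟩
    induction q using Submodule.Quotient.induction_on with
    | H x =>
      rw [LinearMap.mem_ker, relQuotMap_mk, relQuotProj_mk, Submodule.Quotient.mk_eq_zero]
      exact x.2
  · intro q hq
    induction q using Submodule.Quotient.induction_on with
    | H x =>
      rw [LinearMap.mem_ker, relQuotProj_mk, Submodule.Quotient.mk_eq_zero] at hq
      exact ⟨Submodule.Quotient.mk ⟨x.1, hq⟩, rfl⟩

/-- additivity of relative dimensions in a tower `M ≤ N ≤ P` -/
theorem relQuot_tower {M N P : Submodule K V} (hMN : M ≤ N) (hNP : N ≤ P)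
    [Module.Finite K (↥N ⧸ M.submoduleOf N)] [Module.Finite K (↥P ⧸ N.submoduleOf P)] :
    Module.Finite K (↥P ⧸ M.submoduleOf P) ∧
      Module.finrank K (↥P ⧸ M.submoduleOf P) =
        Module.finrank K (↥P ⧸ N.submoduleOf P) + Module.finrank K (↥N ⧸ M.submoduleOf N) := by
  have hfin : Module.Finite K (↥P ⧸ M.submoduleOf P) := by
    have h1 : Module.Finite K (LinearMap.ker (relQuotProj hMN P)) := by
      rw [← range_relQuotMap_eq_ker_relQuotProj hMN hNP]
      infer_instance
    have e := (relQuotProj hMN P).quotKerEquivOfSurjective (relQuotProj_surjective hMN P)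
    have h2 : Module.Finite K ((↥P ⧸ M.submoduleOf P) ⧸ LinearMap.ker (relQuotProj hMN P)) :=
      Module.Finite.equiv e.symm
    exact Module.Finite.of_submodule_quotient (LinearMap.ker (relQuotProj hMN P))
  refine ⟨hfin, ?_⟩
  have h := (relQuotProj hMN P).finrank_range_add_finrank_ker
  rw [LinearMap.range_eq_top.mpr (relQuotProj_surjective hMN P), finrank_top,
    ← range_relQuotMap_eq_ker_relQuotProj hMN hNP,
    LinearMap.finrank_range_of_inj (relQuotMap_injective M hNP)] at h
  exact h.symm

end RelQuot


/-! ### The value in `K` of an element of a valuation ring -/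

variable {K F : Type*} [Field K] [Field F] [Algebra K F]

theorem exists_uniformizer (v : Place K F) : ∃ t : F, v.ord t = 1 := by
  obtain ⟨π, hπ⟩ := IsDiscreteValuationRing.exists_irreducible v.toValuationSubring
  exact ⟨π, v.ord_coe_irreducible hπ⟩

theorem ordGE_zpow (v : Place K F) {t : F} (ht : v.ord t = 1) (n : ℤ) : OrdGE v (t ^ n) n := by
  rw [ordGE_iff]
  right
  rw [v.ord_zpow, ht, mul_one]

section ResConst

variable [IsAlgClosed K] {x : F} (hx : IsFunctionFieldGen K F x) (v : Place K F)

set_option linter.unusedSectionVars false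

open Classical in
/-- the value in `K` of an element of the valuation ring of `v` (residue field `= K`) -/
noncomputable def resConst (y : F) : K :=
  if hy : y ∈ v.toValuationSubring then (exists_const_ordGE_one hx v hy).choose else 0

theorem resConst_spec {y : F} (hy : y ∈ v.toValuationSubring) :
    OrdGE v (y - algebraMap K F (resConst hx v y)) 1 := by
  rw [resConst, dif_pos hy]
  exact (exists_const_ordGE_one hx v hy).choose_spec

theorem mem_of_ordGE_sub_const {y : F} {c : K} (hc : OrdGE v (y - algebraMap K F c) 1) :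
    y ∈ v.toValuationSubring := by
  have h1 : OrdGE v (y - algebraMap K F c) 0 := hc.mono v (by norm_num)
  have h2 := ((ordGE_zero_iff_mem v).mp h1)
  have h3 := v.toValuationSubring.add_mem _ _ h2 (algebraMap_mem v c)
  rwa [sub_add_cancel] at h3

theorem resConst_eq {y : F} {c : K} (hc : OrdGE v (y - algebraMap K F c) 1) :
    resConst hx v y = c :=
  const_unique_of_ordGE_one v (resConst_spec hx v (mem_of_ordGE_sub_const v hc)) hc

theorem resConst_add {y y' : F} (hy : y ∈ v.toValuationSubring) (hy' : y' ∈ v.toValuationSubring) :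
    resConst hx v (y + y') = resConst hx v y + resConst hx v y' := by
  apply resConst_eq
  have := (resConst_spec hx v hy).add v (resConst_spec hx v hy')
  rwa [show y - algebraMap K F (resConst hx v y) + (y' - algebraMap K F (resConst hx v y'))
    = y + y' - algebraMap K F (resConst hx v y + resConst hx v y') by rw [map_add]; ring] at this

theorem resConst_smul (a : K) {y : F} (hy : y ∈ v.toValuationSubring) :
    resConst hx v (a • y) = a * resConst hx v y := by
  apply resConst_eq
  have := (resConst_spec hx v hy).smul v a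
  rwa [show a • (y - algebraMap K F (resConst hx v y))
    = a • y - algebraMap K F (a * resConst hx v y) by
      rw [smul_sub, map_mul, Algebra.smul_def a (algebraMap K F _)]] at this

theorem resConst_eq_zero_iff {y : F} (hy : y ∈ v.toValuationSubring) :
    resConst hx v y = 0 ↔ OrdGE v y 1 := by
  constructor
  · intro h
    have := resConst_spec hx v hy
    rwa [h, map_zero, sub_zero] at this
  · intro h
    apply resConst_eq
    rwa [map_zero, sub_zero]

theorem resConst_algebraMap (c : K) : resConst hx v (algebraMap K F c) = c := by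
  apply resConst_eq
  rw [sub_self]
  exact ordGE_zero v 1

end ResConst

/-! ### The local step: `A(D + v) / A(D)` is one-dimensional -/

section LocalStep

theorem single_add_apply_self (D : Divisor K F) (v : Place K F) :
    (D + Finsupp.single v 1 : Divisor K F) v = D v + 1 := by
  rw [Finsupp.add_apply, Finsupp.single_eq_same]

theorem single_add_apply_of_ne (D : Divisor K F) {v w : Place K F} (h : w ≠ v) :
    (D + Finsupp.single v 1 : Divisor K F) w = D w := by
  rw [Finsupp.add_apply, Finsupp.single_eq_of_ne h, add_zero]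

theorem le_add_single (D : Divisor K F) (v : Place K F) : D ≤ D + Finsupp.single v 1 := by
  intro w
  by_cases h : w = v
  · subst h; rw [single_add_apply_self]; omega
  · rw [single_add_apply_of_ne D h]

theorem mul_zpow_mem_of_mem_adeleOf {D : Divisor K F} {v : Place K F} {t : F} (ht : v.ord t = 1)
    {α : Rep K F} (hα : α ∈ adeleOf (D + Finsupp.single v 1)) :
    t ^ (D v + 1) * α v ∈ v.toValuationSubring := by
  rw [← ordGE_zero_iff_mem]
  have h1 := (ordGE_zpow v ht (D v + 1)).mul v ((mem_adeleOf_iff_ordGE.mp hα) v)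
  rwa [single_add_apply_self, add_neg_cancel] at h1

variable [IsAlgClosed K] {x : F} (hx : IsFunctionFieldGen K F x)

/-- the local residue map `A(D + v) → K` -/
noncomputable def localStepMap (D : Divisor K F) (v : Place K F) {t : F} (ht : v.ord t = 1) :
    ↥(adeleOf (D + Finsupp.single v 1)) →ₗ[K] K where
  toFun α := resConst hx v (t ^ (D v + 1) * α.1 v)
  map_add' α β := by
    have h := resConst_add hx v (mul_zpow_mem_of_mem_adeleOf ht α.2)
      (mul_zpow_mem_of_mem_adeleOf ht β.2)
    rw [← mul_add] at h
    exact h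
  map_smul' a α := by
    have h := resConst_smul hx v a (mul_zpow_mem_of_mem_adeleOf ht α.2)
    rw [RingHom.id_apply, smul_eq_mul, ← h]
    congr 1
    show t ^ (D v + 1) * (a • α.1 v) = a • (t ^ (D v + 1) * α.1 v)
    rw [mul_smul_comm]

theorem localStepMap_apply (D : Divisor K F) (v : Place K F) {t : F} (ht : v.ord t = 1)
    (α : ↥(adeleOf (D + Finsupp.single v 1))) :
    localStepMap hx D v ht α = resConst hx v (t ^ (D v + 1) * α.1 v) := rfl

theorem ker_localStepMap (D : Divisor K F) (v : Place K F) {t : F} (ht : v.ord t = 1) :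
    LinearMap.ker (localStepMap hx D v ht) =
      (adeleOf D).submoduleOf (adeleOf (D + Finsupp.single v 1)) := by
  have ht0 : t ≠ 0 := by rintro rfl; simp at ht
  ext α
  rw [LinearMap.mem_ker, localStepMap_apply,
    resConst_eq_zero_iff hx v (mul_zpow_mem_of_mem_adeleOf ht α.2)]
  show _ ↔ α.1 ∈ adeleOf D
  rw [mem_adeleOf_iff_ordGE]
  constructor
  · intro h w
    by_cases hw : w = v
    · subst hw
      have h1 := (ordGE_zpow w ht (-(D w + 1))).mul w h
      rw [← mul_assoc, ← zpow_add₀ ht0, neg_add_cancel, zpow_zero, one_mul] at h1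
      exact h1.mono w (by omega)
    · have := (mem_adeleOf_iff_ordGE.mp α.2) w
      rwa [single_add_apply_of_ne D hw] at this
  · intro h
    have h1 := (ordGE_zpow v ht (D v + 1)).mul v (h v)
    exact h1.mono v (by omega)

open Classical in
theorem localStepMap_surjective (D : Divisor K F) (v : Place K F) {t : F} (ht : v.ord t = 1) :
    Function.Surjective (localStepMap hx D v ht) := by
  have ht0 : t ≠ 0 := by rintro rfl; simp at ht
  intro c
  have hmem : (Function.update (0 : Rep K F) v (algebraMap K F c * t ^ (-(D v + 1))))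
      ∈ adeleOf (D + Finsupp.single v 1) := by
    rw [mem_adeleOf_iff_ordGE]
    intro w
    by_cases hw : w = v
    · subst hw
      rw [Function.update_self, single_add_apply_self]
      have := ((ordGE_zero_iff_mem w).mpr (algebraMap_mem w c)).mul w
        (ordGE_zpow w ht (-(D w + 1)))
      rwa [zero_add] at this
    · rw [Function.update_of_ne hw]
      exact ordGE_zero w _
  refine ⟨⟨_, hmem⟩, ?_⟩
  rw [localStepMap_apply]
  show resConst hx v (t ^ (D v + 1) * Function.update (0 : Rep K F) v _ v) = c
  rw [Function.update_self, mul_comm, mul_assoc, ← zpow_add₀ ht0, neg_add_cancel, zpow_zero,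
    mul_one, resConst_algebraMap]

end LocalStep

/-- `A(D + v) / A(D)` is one-dimensional -/
theorem localStep_finrank [IsAlgClosed K] {x : F} (hx : IsFunctionFieldGen K F x)
    (D : Divisor K F) (v : Place K F) :
    Module.Finite K (↥(adeleOf (D + Finsupp.single v 1)) ⧸
        (adeleOf D).submoduleOf (adeleOf (D + Finsupp.single v 1))) ∧
      Module.finrank K (↥(adeleOf (D + Finsupp.single v 1)) ⧸
        (adeleOf D).submoduleOf (adeleOf (D + Finsupp.single v 1))) = 1 := by
  obtain ⟨t, ht⟩ := exists_uniformizer v
  have e := relQuotEquivOfSurjective (adeleOf D) (adeleOf (D + Finsupp.single v 1))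
    (localStepMap hx D v ht) (localStepMap_surjective hx D v ht) (ker_localStepMap hx D v ht)
  exact ⟨Module.Finite.equiv e.symm, by rw [e.finrank_eq, Module.finrank_self]⟩

theorem degree_add_single [IsAlgClosed K] {x : F} (hx : IsFunctionFieldGen K F x)
    (D : Divisor K F) (v : Place K F) :
    Divisor.degree (D + Finsupp.single v 1) = Divisor.degree D + 1 := by
  rw [map_add, Divisor.degree_single, deg_eq_one hx v]
  norm_num

theorem degree_nonneg_of_nonneg {E : Divisor K F} (h : 0 ≤ E) : 0 ≤ Divisor.degree E := by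
  rw [Divisor.degree, Finsupp.liftAddHom_apply]
  exact Finsupp.sum_nonneg (fun v _ => mul_nonneg (h v) (Nat.cast_nonneg _))

theorem degree_mono {D D' : Divisor K F} (h : D ≤ D') : Divisor.degree D ≤ Divisor.degree D' := by
  have := degree_nonneg_of_nonneg (sub_nonneg.mpr h)
  rw [map_sub] at this
  omega

/-- if `D ≤ D'` and `D ≠ D'` there is a place where `D` can be increased -/
theorem exists_lt_of_le_of_ne {D D' : Divisor K F} (h : D ≤ D') (hne : D ≠ D') :
    ∃ v : Place K F, D + Finsupp.single v 1 ≤ D' := by
  have : ∃ v, D v ≠ D' v := by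
    by_contra hcon
    push Not at hcon
    exact hne (Finsupp.ext hcon)
  obtain ⟨v, hv⟩ := this
  refine ⟨v, fun w => ?_⟩
  by_cases hw : w = v
  · subst hw
    rw [single_add_apply_self]
    have := h w
    omega
  · rw [single_add_apply_of_ne D hw]
    exact h w

end RRAux

open RRAux

set_option linter.unusedSectionVars false

variable {K F : Type*} [Field K] [Field F] [Algebra K F]

namespace RRAux

/-- the constant adele attached to `f ∈ L(D)` -/
def constAdele (D : Divisor K F) : ↥(riemannRochSpace D) →ₗ[K] ↥(adeleOf D) where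
  toFun f := ⟨fun _ => f.1, mem_riemannRochSpace_iff_const.mp f.2⟩
  map_add' _ _ := rfl
  map_smul' _ _ := rfl

@[simp] theorem constAdele_apply (D : Divisor K F) (f : ↥(riemannRochSpace D)) (v : Place K F) :
    (constAdele D f).1 v = f.1 := rfl

/-- the map `L(D') → A(D') / A(D)` -/
def constQuot (D D' : Divisor K F) :
    ↥(riemannRochSpace D') →ₗ[K] (↥(adeleOf D') ⧸ (adeleOf D).submoduleOf (adeleOf D')) :=
  (Submodule.mkQ _).comp (constAdele D')

theorem ker_constQuot (D D' : Divisor K F) :
    LinearMap.ker (constQuot D D') = (riemannRochSpace D).submoduleOf (riemannRochSpace D') := by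
  ext f
  rw [LinearMap.mem_ker, constQuot, LinearMap.comp_apply, Submodule.mkQ_apply,
    Submodule.Quotient.mk_eq_zero, mem_submoduleOf_iff, mem_submoduleOf_iff]
  exact mem_riemannRochSpace_iff_const.symm

end RRAux

/-! ### RR-A : dimension counts for adeles -/

variable [IsAlgClosed K] [CharZero K]

/-- `dim A(D') / A(D) = deg D' - deg D` for `D ≤ D'` -/
theorem finrank_adeleOf_quotient {x : F} (hx : IsFunctionFieldGen K F x)
    {D D' : Divisor K F} (h : D ≤ D') :
    Module.Finite K (↥(adeleOf D') ⧸ (adeleOf D).submoduleOf (adeleOf D')) ∧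
    (Module.finrank K (↥(adeleOf D') ⧸ (adeleOf D).submoduleOf (adeleOf D')) : ℤ)
      = Divisor.degree D' - Divisor.degree D := by
  -- induction on `deg D' - deg D`
  have key : ∀ n : ℕ, ∀ D D' : Divisor K F, D ≤ D' → Divisor.degree D' - Divisor.degree D = n →
      Module.Finite K (↥(adeleOf D') ⧸ (adeleOf D).submoduleOf (adeleOf D')) ∧
      Module.finrank K (↥(adeleOf D') ⧸ (adeleOf D).submoduleOf (adeleOf D')) = n := by
    intro n
    induction n with
    | zero =>
      intro D D' h hdeg
      have hDD' : D = D' := by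
        by_contra hne
        obtain ⟨v, hv⟩ := exists_lt_of_le_of_ne h hne
        have h1 := degree_add_single hx D v
        have h2 : Divisor.degree (D + Finsupp.single v 1) ≤ Divisor.degree D' := degree_mono hv
        rw [Nat.cast_zero] at hdeg
        omega
      subst hDD'
      rw [Submodule.submoduleOf_self]
      have : Subsingleton (↥(adeleOf D) ⧸ (⊤ : Submodule K ↥(adeleOf D))) :=
        Submodule.Quotient.subsingleton_iff.mpr rfl
      exact ⟨inferInstance, by rw [Nat.cast_zero] at hdeg; exact Module.finrank_zero_of_subsingleton⟩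
    | succ n ih =>
      intro D D' h hdeg
      have hne : D ≠ D' := by
        rintro rfl
        rw [sub_self] at hdeg
        have : (0 : ℤ) < ((n + 1 : ℕ) : ℤ) := by positivity
        omega
      obtain ⟨v, hv⟩ := exists_lt_of_le_of_ne h hne
      have h1 := degree_add_single hx D v
      obtain ⟨hf2, hr2⟩ := ih (D + Finsupp.single v 1) D' hv (by rw [h1]; push_cast at hdeg; omega)
      obtain ⟨hf1, hr1⟩ := localStep_finrank hx D v
      obtain ⟨hf, hr⟩ := relQuot_tower (adeleOf_mono (le_add_single D v)) (adeleOf_mono hv)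
      exact ⟨hf, by rw [hr, hr1, hr2]⟩
  have hdeg : 0 ≤ Divisor.degree D' - Divisor.degree D := by
    have := degree_mono h
    omega
  obtain ⟨n, hn⟩ := Int.eq_ofNat_of_zero_le hdeg
  obtain ⟨hf, hr⟩ := key n D D' h hn
  exact ⟨hf, by rw [hr, hn]⟩

/-- every adele lies in some `A(D)` -/
theorem exists_mem_adeleOf {α : Rep K F} (hα : α ∈ adeleAll K F) :
    ∃ D : Divisor K F, α ∈ adeleOf D := by
  have hsupp : (Function.support fun v : Place K F => max 0 (-(v.ord (α v)))).Finite := by
    refine (mem_adeleAll.mp hα).subset fun v hv => ?_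
    simp only [Function.mem_support, ne_eq] at hv
    simp only [polesOf, Set.mem_ofPred_eq]
    by_contra hcon
    apply hv
    rw [max_eq_left]
    omega
  refine ⟨Finsupp.ofSupportFinite _ hsupp, ?_⟩
  rw [mem_adeleOf_iff]
  intro v
  right
  show -(max 0 (-(v.ord (α v)))) ≤ v.ord (α v)
  have := le_max_right 0 (-(v.ord (α v)))
  omega

theorem riemannRochSpace_mono {D D' : Divisor K F} (h : D ≤ D') :
    riemannRochSpace D ≤ riemannRochSpace D' :=
  fun _ hf v => (hf v).trans (exp_le_exp.mpr (Finsupp.le_def.mp h v))

/-- `L(0) = K` -/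
theorem riemannRochSpace_zero {x : F} (hx : IsFunctionFieldGen K F x) :
    riemannRochSpace (0 : Divisor K F) = LinearMap.range (Algebra.linearMap K F) := by
  apply le_antisymm
  · intro f hf
    by_contra hfK
    have hfK' : f ∉ Set.range (algebraMap K F) := hfK
    have hfgen : IsFunctionFieldGen K F f := isFunctionFieldGen_of_notMem_range hx hfK'
    have hp := sum_ord_poles hfgen
    have hempty : {v : Place K F | v.ord f < 0} = ∅ := by
      ext v
      simp only [Set.mem_ofPred_eq, Set.mem_empty_iff_false, iff_false, not_lt]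
      rcases (mem_riemannRochSpace_iff.mp hf) v with h0 | h0
      · rw [h0, v.ord_zero]
      · simpa using h0
    rw [hempty, finsum_mem_empty] at hp
    have := hfgen.finite
    have hpos : 0 < Module.finrank (IntermediateField.adjoin K {f}) F := Module.finrank_pos
    omega
  · rintro _ ⟨c, rfl⟩
    intro v
    rw [Finsupp.zero_apply, exp_zero]
    exact v.adicValuation_algebraMap_le_one c

namespace RRAux

theorem finrank_riemannRochSpace_zero {x : F} (hx : IsFunctionFieldGen K F x) :
    Module.Finite K ↥(riemannRochSpace (0 : Divisor K F)) ∧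
      Module.finrank K ↥(riemannRochSpace (0 : Divisor K F)) = 1 := by
  rw [riemannRochSpace_zero hx]
  have e : K ≃ₗ[K] ↥(LinearMap.range (Algebra.linearMap K F)) :=
    LinearEquiv.ofInjective (Algebra.linearMap K F) (algebraMap K F).injective
  exact ⟨Module.Finite.equiv e, by rw [← e.finrank_eq, Module.finrank_self]⟩

/-- for `E ≥ 0`, `L(E)` is finite dimensional of dimension at most `deg E + 1` -/
theorem finrank_riemannRochSpace_of_nonneg {x : F} (hx : IsFunctionFieldGen K F x)
    {E : Divisor K F} (hE : 0 ≤ E) :
    Module.Finite K ↥(riemannRochSpace E) ∧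
      (Module.finrank K ↥(riemannRochSpace E) : ℤ) ≤ Divisor.degree E + 1 := by
  obtain ⟨hfin, hrank⟩ := finrank_adeleOf_quotient hx hE
  obtain ⟨hfin0, hrank0⟩ := finrank_riemannRochSpace_zero hx
  set φ := constQuot (0 : Divisor K F) E
  have hker : LinearMap.ker φ = (riemannRochSpace 0).submoduleOf (riemannRochSpace E) :=
    ker_constQuot 0 E
  have e0 := Submodule.submoduleOfEquivOfLe (riemannRochSpace_mono hE)
  have hkfin : Module.Finite K (LinearMap.ker φ) := by
    rw [hker]; exact Module.Finite.equiv e0.symm
  have hkrank : Module.finrank K (LinearMap.ker φ) = 1 := by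
    rw [hker, e0.finrank_eq, hrank0]
  have hqfin : Module.Finite K (↥(riemannRochSpace E) ⧸ LinearMap.ker φ) :=
    Module.Finite.equiv φ.quotKerEquivRange.symm
  have hfinE : Module.Finite K ↥(riemannRochSpace E) :=
    Module.Finite.of_submodule_quotient (LinearMap.ker φ)
  refine ⟨hfinE, ?_⟩
  have h1 := φ.finrank_range_add_finrank_ker
  have h2 : Module.finrank K (LinearMap.range φ) ≤
      Module.finrank K (↥(adeleOf E) ⧸ (adeleOf (0 : Divisor K F)).submoduleOf (adeleOf E)) :=
    Submodule.finrank_le _
  rw [map_zero, sub_zero] at hrank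
  omega

end RRAux

/-- `L(D)` is finite dimensional -/
theorem finiteDimensional_riemannRochSpace {x : F} (hx : IsFunctionFieldGen K F x)
    (D : Divisor K F) : FiniteDimensional K ↥(riemannRochSpace D) := by
  have h1 : D ≤ D ⊔ 0 := le_sup_left
  have h2 : (0 : Divisor K F) ≤ D ⊔ 0 := le_sup_right
  have := (finrank_riemannRochSpace_of_nonneg hx h2).1
  exact Module.Finite.of_injective (Submodule.inclusion (riemannRochSpace_mono h1))
    (Submodule.inclusion_injective _)

namespace RRAux

/-- for `0 ≠ f ∈ L(D)` the divisor `D + (f)` is effective -/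
theorem add_divOf_nonneg {x : F} (hx : IsFunctionFieldGen K F x) {D : Divisor K F} {f : F}
    (hf : f ∈ riemannRochSpace D) (hf0 : f ≠ 0) : 0 ≤ D + divOf hx f := by
  intro v
  rw [Finsupp.zero_apply, Finsupp.add_apply, divOf_apply hx hf0]
  rcases (mem_riemannRochSpace_iff.mp hf) v with h | h
  · exact absurd h hf0
  · omega

theorem degree_add_divOf {x : F} (hx : IsFunctionFieldGen K F x) (D : Divisor K F) (f : F) :
    Divisor.degree (D + divOf hx f) = Divisor.degree D := by
  rw [map_add, degree_divOf, add_zero]

/-- multiplication by `f ≠ 0` as a `K`-linear automorphism of `F` -/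
def mulLeftEquiv (f : F) (hf : f ≠ 0) : F ≃ₗ[K] F where
  toFun g := f * g
  invFun g := f⁻¹ * g
  map_add' := mul_add f
  map_smul' c g := by simp
  left_inv g := by simp [← mul_assoc, inv_mul_cancel₀ hf]
  right_inv g := by simp [← mul_assoc, mul_inv_cancel₀ hf]

@[simp] theorem mulLeftEquiv_apply (f : F) (hf : f ≠ 0) (g : F) :
    mulLeftEquiv (K := K) f hf g = f * g := rfl

/-- multiplication by `f ≠ 0` maps `L(D + (f))` onto `L(D)` -/
theorem map_mul_riemannRochSpace {x : F} (hx : IsFunctionFieldGen K F x) (D : Divisor K F)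
    {f : F} (hf : f ≠ 0) :
    (riemannRochSpace (D + divOf hx f)).map (mulLeftEquiv (K := K) f hf : F →ₗ[K] F)
      = riemannRochSpace D := by
  ext g
  simp only [Submodule.mem_map, LinearEquiv.coe_coe, mulLeftEquiv_apply]
  constructor
  · rintro ⟨h, hh, rfl⟩
    rw [mem_riemannRochSpace_iff] at hh ⊢
    intro v
    rcases hh v with h0 | h0
    · left; rw [h0, mul_zero]
    · rcases eq_or_ne h 0 with rfl | hh0
      · left; rw [mul_zero]
      · right
        rw [v.ord_mul hf hh0]
        rw [Finsupp.add_apply, divOf_apply hx hf] at h0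
        omega
  · intro hg
    refine ⟨f⁻¹ * g, ?_, by rw [← mul_assoc, mul_inv_cancel₀ hf, one_mul]⟩
    rw [mem_riemannRochSpace_iff] at hg ⊢
    intro v
    rcases hg v with h0 | h0
    · left; rw [h0, mul_zero]
    · rcases eq_or_ne g 0 with rfl | hg0
      · left; rw [mul_zero]
      · right
        rw [v.ord_mul (inv_ne_zero hf) hg0, v.ord_inv, Finsupp.add_apply, divOf_apply hx hf]
        omega

end RRAux

/-- `L(D) = 0` if `deg D < 0` -/
theorem riemannRochSpace_eq_bot {x : F} (hx : IsFunctionFieldGen K F x) {D : Divisor K F}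
    (h : Divisor.degree D < 0) : riemannRochSpace D = ⊥ := by
  rw [eq_bot_iff]
  intro f hf
  rw [Submodule.mem_bot]
  by_contra hf0
  have h1 := degree_nonneg_of_nonneg (add_divOf_nonneg hx hf hf0)
  rw [degree_add_divOf] at h1
  omega

/-- linearly equivalent divisors have the same `ℓ` -/
theorem ell_add_divOf {x : F} (hx : IsFunctionFieldGen K F x) (D : Divisor K F) {f : F}
    (hf : f ≠ 0) : ell (D + divOf hx f) = ell D := by
  rw [ell, ell]
  have e := (mulLeftEquiv (K := K) f hf).submoduleMap (riemannRochSpace (D + divOf hx f))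
  rw [e.finrank_eq]
  have h := map_mul_riemannRochSpace hx D hf
  exact congrArg (fun p : Submodule K F => Module.finrank K ↥p) h

/-- `ℓ(D) ≤ deg D + 1` if `deg D ≥ 0` -/
theorem ell_le {x : F} (hx : IsFunctionFieldGen K F x) {D : Divisor K F}
    (h : 0 ≤ Divisor.degree D) : (ell D : ℤ) ≤ Divisor.degree D + 1 := by
  by_cases hbot : riemannRochSpace D = ⊥
  · rw [ell, hbot, finrank_bot]
    simp only [Nat.cast_zero]
    omega
  · obtain ⟨f, hf, hf0⟩ := (Submodule.ne_bot_iff _).mp hbot
    have h1 := (finrank_riemannRochSpace_of_nonneg hx (add_divOf_nonneg hx hf hf0)).2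
    rw [degree_add_divOf] at h1
    have h2 := ell_add_divOf hx D hf0
    rw [ell] at h2
    rw [← h2]
    exact h1

namespace RRAux

/-- the natural map `A(D') / A(D) → (A(D') + F) / (A(D) + F)` -/
def sumQuotMap (D D' : Divisor K F) :
    (↥(adeleOf D') ⧸ (adeleOf D).submoduleOf (adeleOf D')) →ₗ[K]
      (↥(adeleSum D') ⧸ (adeleSum D).submoduleOf (adeleSum D')) :=
  Submodule.mapQ _ _ (Submodule.inclusion (le_sup_left : adeleOf D' ≤ adeleSum D')) (by
    intro a ha
    rw [Submodule.mem_comap, mem_submoduleOf_iff]
    exact (le_sup_left : adeleOf D ≤ adeleSum D) (mem_submoduleOf_iff.mp ha))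

theorem sumQuotMap_mk (D D' : Divisor K F) (a : ↥(adeleOf D')) :
    sumQuotMap D D' (Submodule.Quotient.mk a) =
      Submodule.Quotient.mk (Submodule.inclusion (le_sup_left : adeleOf D' ≤ adeleSum D') a) :=
  rfl

theorem sumQuotMap_surjective (D D' : Divisor K F) : Function.Surjective (sumQuotMap D D') := by
  intro t
  induction t using Submodule.Quotient.induction_on with
  | H s =>
    obtain ⟨a, ha, φ, hφ, hs⟩ := Submodule.mem_sup.mp s.2
    refine ⟨Submodule.Quotient.mk ⟨a, ha⟩, ?_⟩
    rw [sumQuotMap_mk, Submodule.Quotient.eq, mem_submoduleOf_iff]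
    have : ((Submodule.inclusion (le_sup_left : adeleOf D' ≤ adeleSum D') ⟨a, ha⟩ - s :
        ↥(adeleSum D')) : Rep K F) = -φ := by
      show a - s.1 = -φ
      rw [← hs]; ring
    rw [this]
    exact (adeleSum D).neg_mem ((le_sup_right : adeleDiag K F ≤ adeleSum D) hφ)

theorem ker_sumQuotMap {D D' : Divisor K F} (h : D ≤ D') :
    LinearMap.ker (sumQuotMap D D') = LinearMap.range (constQuot D D') := by
  apply le_antisymm
  · intro q hq
    induction q using Submodule.Quotient.induction_on with
    | H a =>
      rw [LinearMap.mem_ker, sumQuotMap_mk, Submodule.Quotient.mk_eq_zero,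
        mem_submoduleOf_iff] at hq
      obtain ⟨b, hb, φ, hφ, hs⟩ := Submodule.mem_sup.mp hq
      obtain ⟨f, rfl⟩ := mem_adeleDiag.mp hφ
      have hs2 : b + (fun _ => f : Rep K F) = a.1 := hs
      have hs' : (fun _ => f : Rep K F) = a.1 - b := by
        rw [← hs2]; ring
      have hf : f ∈ riemannRochSpace D' := by
        rw [mem_riemannRochSpace_iff_const, hs']
        exact (adeleOf D').sub_mem a.2 (adeleOf_mono h hb)
      refine ⟨⟨f, hf⟩, ?_⟩
      rw [constQuot, LinearMap.comp_apply, Submodule.mkQ_apply, Submodule.Quotient.eq,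
        mem_submoduleOf_iff]
      have : ((constAdele D' ⟨f, hf⟩ - a : ↥(adeleOf D')) : Rep K F) = -b := by
        show (fun _ => f : Rep K F) - a.1 = -b
        rw [hs']; ring
      rw [this]
      exact (adeleOf D).neg_mem hb
  · rintro _ ⟨f, rfl⟩
    rw [LinearMap.mem_ker, constQuot, LinearMap.comp_apply, Submodule.mkQ_apply, sumQuotMap_mk,
      Submodule.Quotient.mk_eq_zero, mem_submoduleOf_iff]
    exact (le_sup_right : adeleDiag K F ≤ adeleSum D) (const_mem_adeleDiag f.1)

end RRAux

/-- for `D ≤ D'`: `dim (A(D') + F)/(A(D) + F) = (deg D' - ℓ(D')) - (deg D - ℓ(D))` -/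
theorem finrank_adeleSum_quotient {x : F} (hx : IsFunctionFieldGen K F x)
    {D D' : Divisor K F} (h : D ≤ D') :
    Module.Finite K (↥(adeleSum D') ⧸ (adeleSum D).submoduleOf (adeleSum D')) ∧
    (Module.finrank K (↥(adeleSum D') ⧸ (adeleSum D).submoduleOf (adeleSum D')) : ℤ)
      = (Divisor.degree D' - ell D') - (Divisor.degree D - ell D) := by
  obtain ⟨hfin, hrank⟩ := finrank_adeleOf_quotient hx h
  have hLfin : FiniteDimensional K ↥(riemannRochSpace D') := finiteDimensional_riemannRochSpace hx D'
  have hTfin : Module.Finite K (↥(adeleSum D') ⧸ (adeleSum D).submoduleOf (adeleSum D')) :=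
    Module.Finite.of_surjective (sumQuotMap D D') (sumQuotMap_surjective D D')
  refine ⟨hTfin, ?_⟩
  have h1 := (sumQuotMap D D').finrank_range_add_finrank_ker
  rw [LinearMap.range_eq_top.mpr (sumQuotMap_surjective D D'), finrank_top,
    ker_sumQuotMap h] at h1
  have h2 := (constQuot D D').finrank_range_add_finrank_ker
  rw [ker_constQuot] at h2
  have e0 := Submodule.submoduleOfEquivOfLe (riemannRochSpace_mono h)
  rw [e0.finrank_eq] at h2
  rw [ell, ell]
  omega

end Fermat.Agent.Curve
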