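/-
P1 part C, task RR-R: Riemann's theorem and the first form of Riemann-Roch for function fields
(Stichtenoth 1.4.14, 1.4.17, 1.5.4), helper8.  Statements as in helper5's stub
`Stub/Riemann.lean` (second half).
-/
import Mathlib
import Fermat.Agent.Lib.Curve.AdeleDim

set_option autoImplicit false
set_option linter.unusedSectionVars false

namespace Fermat.Agent.Curve

open AlgebraicCurve WithZero PlaceAux RRAux IntermediateField

variable {K F : Type*} [Field K] [Field F] [Algebra K F]

namespace RRAux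

theorem mul_mem_riemannRochSpace {D D' : Divisor K F} {f g : F} (hf : f ∈ riemannRochSpace D)
    (hg : g ∈ riemannRochSpace D') : f * g ∈ riemannRochSpace (D + D') := by
  intro v
  rw [map_mul, Finsupp.add_apply, exp_add]
  exact mul_le_mul' (hf v) (hg v)

theorem mem_riemannRochSpace_iff_ordGE {D : Divisor K F} {f : F} :
    f ∈ riemannRochSpace D ↔ ∀ v : Place K F, OrdGE v f (-D v) := by
  simp only [OrdGE, neg_neg]
  rfl

theorem ordGE_sum (v : Place K F) {ι : Type*} (s : Finset ι) (f : ι → F) (n : ℤ)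
    (h : ∀ i ∈ s, OrdGE v (f i) n) : OrdGE v (∑ i ∈ s, f i) n := by
  classical
  induction s using Finset.induction_on with
  | empty => rw [Finset.sum_empty]; exact ordGE_zero v n
  | insert a s ha ih =>
    rw [Finset.sum_insert ha]
    exact (h a (Finset.mem_insert_self a s)).add v
      (ih fun i hi => h i (Finset.mem_insert_of_mem hi))

theorem ordGE_pow (v : Place K F) (f : F) (i : ℕ) : OrdGE v (f ^ i) (i * v.ord f) := by
  rw [ordGE_iff]
  right
  rw [← zpow_natCast, v.ord_zpow]

theorem coe_aeval_gen (x : F) (p : Polynomial K) :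
    ((Polynomial.aeval (AdjoinSimple.gen K x) p : K⟮x⟯) : F) = Polynomial.aeval x p := by
  have h := Polynomial.aeval_algebraMap_apply (A := K⟮x⟯) F (AdjoinSimple.gen K x) p
  rw [AdjoinSimple.algebraMap_gen] at h
  exact h.symm

section FF

variable [IsAlgClosed K] [CharZero K] {x : F} (hx : IsFunctionFieldGen K F x)

/-- the pole divisor of a function -/
noncomputable def poleDiv (f : F) : Divisor K F :=
  Finsupp.ofSupportFinite (fun v : Place K F => max 0 (-(v.ord f))) (by
    refine (finite_poles_of hx f).subset fun v hv => ?_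
    simp only [Function.mem_support, ne_eq] at hv
    simp only [Set.mem_ofPred_eq]
    by_contra hcon
    apply hv
    rw [max_eq_left]
    omega)

theorem poleDiv_apply (f : F) (v : Place K F) : poleDiv hx f v = max 0 (-(v.ord f)) := rfl

theorem poleDiv_nonneg (f : F) : 0 ≤ poleDiv hx f := by
  intro v
  rw [Finsupp.zero_apply, poleDiv_apply]
  exact le_max_left _ _

theorem mem_riemannRochSpace_poleDiv (f : F) : f ∈ riemannRochSpace (poleDiv hx f) := by
  rw [mem_riemannRochSpace_iff]
  intro v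
  right
  rw [poleDiv_apply]
  have := le_max_right 0 (-(v.ord f))
  omega

/-- the degree of the pole divisor of a generator `x` is `[F : K(x)]` -/
theorem degree_poleDiv_gen :
    Divisor.degree (poleDiv hx x) = Module.finrank K⟮x⟯ F := by
  rw [degree_eq_finsum hx, ← sum_ord_poles hx]
  have hsub : (Function.support fun v : Place K F => poleDiv hx x v) ⊆
      {v : Place K F | v.ord x < 0} := by
    intro v hv
    simp only [Function.mem_support, ne_eq, poleDiv_apply] at hv
    simp only [Set.mem_ofPred_eq]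
    by_contra hcon
    apply hv
    rw [max_eq_left]
    omega
  rw [← finsum_mem_univ, finsum_mem_inter_support_eq' _ Set.univ {v : Place K F | v.ord x < 0}
    (fun v hv => ⟨fun _ => hsub hv, fun _ => Set.mem_univ _⟩)]
  refine finsum_mem_congr rfl fun v hv => ?_
  simp only [Set.mem_ofPred_eq] at hv
  rw [poleDiv_apply, max_eq_right]
  omega

/-- polynomials of degree `≤ l` in `x` lie in `L(l (x)_∞)` -/
theorem aeval_mem_riemannRochSpace (l : ℕ) {p : Polynomial K} (hp : p.natDegree ≤ l) :
    Polynomial.aeval x p ∈ riemannRochSpace ((l : ℤ) • poleDiv hx x) := by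
  rw [mem_riemannRochSpace_iff_ordGE]
  intro v
  rw [Finsupp.smul_apply, poleDiv_apply, Polynomial.aeval_eq_sum_range]
  apply ordGE_sum
  intro i hi
  rw [Finset.mem_range] at hi
  have h1 : OrdGE v (p.coeff i • x ^ i) (i * v.ord x) := (ordGE_pow v x i).smul v _
  refine h1.mono v ?_
  rw [smul_eq_mul]
  have hil : (i : ℤ) ≤ l := by exact_mod_cast (by omega : i ≤ l)
  rcases le_or_gt 0 (v.ord x) with h0 | h0
  · rw [max_eq_left (by omega), mul_zero, neg_zero]
    positivity
  · rw [max_eq_right (by omega)]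
    nlinarith

/-- a divisor bounding the poles of a finite family -/
noncomputable def poleDivSum {ι : Type*} (s : Finset ι) (u : ι → F) : Divisor K F :=
  ∑ j ∈ s, poleDiv hx (u j)

theorem poleDivSum_nonneg {ι : Type*} (s : Finset ι) (u : ι → F) : 0 ≤ poleDivSum hx s u :=
  Finset.sum_nonneg fun j _ => poleDiv_nonneg hx (u j)

theorem mem_riemannRochSpace_poleDivSum {ι : Type*} (s : Finset ι) (u : ι → F) {j : ι}
    (hj : j ∈ s) : u j ∈ riemannRochSpace (poleDivSum hx s u) := by
  refine riemannRochSpace_mono ?_ (mem_riemannRochSpace_poleDiv hx (u j))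
  exact Finset.single_le_sum (f := fun j => poleDiv hx (u j))
    (fun i _ => poleDiv_nonneg hx (u i)) hj

/-- the map `(p_j) ↦ ∑ p_j(x) u_j` -/
noncomputable def polyCombo {n : ℕ} (b : Fin n → F) (l : ℕ) :
    (Fin n → ↥(Polynomial.degreeLT K (l + 1))) →ₗ[K] F where
  toFun p := ∑ j, Polynomial.aeval (AdjoinSimple.gen K x) (p j).1 • b j
  map_add' p q := by
    simp only [Pi.add_apply, Submodule.coe_add, map_add, add_smul, Finset.sum_add_distrib]
  map_smul' c p := by
    simp only [Pi.smul_apply, Submodule.coe_smul, map_smul, RingHom.id_apply,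
      Finset.smul_sum, smul_assoc]

theorem polyCombo_apply {n : ℕ} (b : Fin n → F) (l : ℕ)
    (p : Fin n → ↥(Polynomial.degreeLT K (l + 1))) :
    polyCombo (x := x) b l p = ∑ j, Polynomial.aeval (AdjoinSimple.gen K x) (p j).1 • b j := rfl

theorem natDegree_le_of_mem_degreeLT {l : ℕ} {p : Polynomial K}
    (hp : p ∈ Polynomial.degreeLT K (l + 1)) : p.natDegree ≤ l := by
  have := Polynomial.mem_degreeLT.mp hp
  by_cases h0 : p = 0
  · rw [h0]; simp
  · rw [Polynomial.degree_eq_natDegree h0] at this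
    have : (p.natDegree : ℕ) < l + 1 := by exact_mod_cast this
    omega

theorem polyCombo_mem {n : ℕ} (b : Fin n → F) (l : ℕ)
    (p : Fin n → ↥(Polynomial.degreeLT K (l + 1))) :
    polyCombo (x := x) b l p ∈
      riemannRochSpace ((l : ℤ) • poleDiv hx x + poleDivSum hx Finset.univ b) := by
  rw [polyCombo_apply]
  refine Submodule.sum_mem _ fun j _ => ?_
  rw [Algebra.smul_def, IntermediateField.algebraMap_apply, coe_aeval_gen]
  apply mul_mem_riemannRochSpace
  · exact aeval_mem_riemannRochSpace hx l (natDegree_le_of_mem_degreeLT (p j).2)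
  · exact mem_riemannRochSpace_poleDivSum hx Finset.univ b (Finset.mem_univ j)

theorem polyCombo_injective (htr : Transcendental K x) {n : ℕ}
    (b : Module.Basis (Fin n) K⟮x⟯ F) (l : ℕ) :
    Function.Injective (polyCombo (K := K) (x := x) (fun j => b j) l) := by
  rw [← LinearMap.ker_eq_bot, eq_bot_iff]
  intro p hp
  rw [LinearMap.mem_ker, polyCombo_apply] at hp
  have h1 := Fintype.linearIndependent_iff.mp b.linearIndependent
    (fun j => Polynomial.aeval (AdjoinSimple.gen K x) (p j).1) hp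
  rw [Submodule.mem_bot]
  ext j : 2
  have h2 := h1 j
  have h3 : Polynomial.aeval x (p j).1 = 0 := by
    rw [← coe_aeval_gen, h2]; rfl
  exact (transcendental_iff.mp htr) _ h3

/-- the key lower bound: `ℓ(l B + C) ≥ n (l + 1)` -/
theorem riemann_lower_bound :
    ∃ C : Divisor K F, 0 ≤ C ∧ ∀ l : ℕ,
      Module.finrank K⟮x⟯ F * (l + 1) ≤ ell ((l : ℤ) • poleDiv hx x + C) := by
  have := hx.finite
  let b := Module.finBasis K⟮x⟯ F
  refine ⟨poleDivSum hx Finset.univ (fun j => b j), poleDivSum_nonneg hx _ _, fun l => ?_⟩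
  have hfd := finiteDimensional_riemannRochSpace hx
    ((l : ℤ) • poleDiv hx x + poleDivSum hx Finset.univ (fun j => b j))
  let Ψ := (polyCombo (K := K) (x := x) (fun j => b j) l).codRestrict _
    (polyCombo_mem hx (fun j => b j) l)
  have hΨ : Function.Injective Ψ := by
    intro p q hpq
    apply polyCombo_injective hx.transcendental b l
    exact congrArg Subtype.val hpq
  have h1 := LinearMap.finrank_le_finrank_of_injective hΨ
  rw [Module.finrank_pi_fintype] at h1
  simp only [(Polynomial.degreeLTEquiv K (l + 1)).finrank_eq, Module.finrank_fintype_fun_eq_card,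
    Fintype.card_fin, Finset.sum_const, Finset.card_univ, smul_eq_mul] at h1
  exact h1

end FF

end RRAux

/-! ### RR-R : Riemann's theorem and the first form of Riemann-Roch -/

variable [IsAlgClosed K] [CharZero K]

namespace RRAux

/-- `deg D - ℓ(D)` is monotone in `D` -/
theorem degree_sub_ell_mono {x : F} (hx : IsFunctionFieldGen K F x) {D D' : Divisor K F}
    (h : D ≤ D') : Divisor.degree D - ell D ≤ Divisor.degree D' - ell D' := by
  have h1 := (finrank_adeleSum_quotient hx h).2
  have h0 : (0 : ℤ) ≤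
      (Module.finrank K (↥(adeleSum D') ⧸ (adeleSum D).submoduleOf (adeleSum D')) : ℤ) :=
    Nat.cast_nonneg _
  omega

theorem divOf_inv_apply {x : F} (hx : IsFunctionFieldGen K F x) {z : F} (hz : z ≠ 0)
    (v : Place K F) : divOf hx z⁻¹ v = - v.ord z := by
  rw [divOf_apply hx (inv_ne_zero hz), v.ord_inv]

end RRAux

/-- **Riemann's theorem**: `deg D - ℓ(D)` is bounded above. -/
theorem exists_riemann_bound {x : F} (hx : IsFunctionFieldGen K F x) :
    ∃ γ : ℤ, ∀ D : Divisor K F, Divisor.degree D - ell D ≤ γ := by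
  obtain ⟨C, hC, hlow⟩ := riemann_lower_bound hx
  have := hx.finite
  set n := Module.finrank K⟮x⟯ F with hn
  have hnpos : 0 < n := Module.finrank_pos
  set B := poleDiv hx x with hB
  have hdegB : Divisor.degree B = n := degree_poleDiv_gen hx
  set γ₀ : ℤ := Divisor.degree C - n with hγ₀
  -- the bound for multiples of `B`
  have hmult : ∀ l : ℕ, Divisor.degree ((l : ℤ) • B) - ell ((l : ℤ) • B) ≤ γ₀ := by
    intro l
    have h1 : (l : ℤ) • B ≤ (l : ℤ) • B + C := le_add_of_nonneg_right hC
    have h2 := degree_sub_ell_mono hx h1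
    have h3 : ((n * (l + 1) : ℕ) : ℤ) ≤ (ell ((l : ℤ) • B + C) : ℤ) := by
      exact_mod_cast hlow l
    rw [map_add, map_zsmul, hdegB] at h2
    rw [map_zsmul, hdegB]
    push_cast at h3
    simp only [smul_eq_mul] at h2 ⊢
    nlinarith
  refine ⟨γ₀, fun D => ?_⟩
  have hD1 : D ≤ D ⊔ 0 := le_sup_left
  set l : ℕ := (γ₀ + Divisor.degree (D ⊔ 0) + 1).toNat with hl
  set E : Divisor K F := (l : ℤ) • B - (D ⊔ 0) with hE
  have hE1 : E ≤ (l : ℤ) • B := by
    rw [hE]
    exact sub_le_self _ le_sup_right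
  have h4 := degree_sub_ell_mono hx hE1
  have h5 := hmult l
  have hdegE : Divisor.degree E = l * n - Divisor.degree (D ⊔ 0) := by
    rw [hE, map_sub, map_zsmul, hdegB, smul_eq_mul]
  have hlge : γ₀ + Divisor.degree (D ⊔ 0) + 1 ≤ l := by
    rw [hl]; exact Int.self_le_toNat _
  have hln : (l : ℤ) ≤ l * n := by
    have : (1 : ℤ) ≤ n := by exact_mod_cast hnpos
    nlinarith [Int.natCast_nonneg l]
  have hellpos : 0 < ell E := by
    have : (0 : ℤ) < ell E := by omega
    exact_mod_cast this
  have hne : riemannRochSpace E ≠ ⊥ := by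
    intro hbot
    rw [ell, hbot, finrank_bot] at hellpos
    exact lt_irrefl _ hellpos
  obtain ⟨z, hz, hz0⟩ := (Submodule.ne_bot_iff _).mp hne
  have hD2 : D + divOf hx z⁻¹ ≤ (l : ℤ) • B := by
    intro v
    rw [Finsupp.add_apply, divOf_inv_apply hx hz0]
    rcases (mem_riemannRochSpace_iff.mp hz) v with h | h
    · exact absurd h hz0
    · rw [hE, Finsupp.sub_apply] at h
      have := hD1 v
      omega
  have h6 := degree_sub_ell_mono hx hD2
  rw [degree_add_divOf, ell_add_divOf hx D (inv_ne_zero hz0)] at h6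
  omega

namespace RRAux

theorem relQuot_congr {V : Type*} [AddCommGroup V] [Module K V] {M N N' : Submodule K V}
    (h : N = N') :
    (Module.Finite K (↥N ⧸ M.submoduleOf N) ↔ Module.Finite K (↥N' ⧸ M.submoduleOf N')) ∧
      Module.finrank K (↥N ⧸ M.submoduleOf N) = Module.finrank K (↥N' ⧸ M.submoduleOf N') := by
  subst h
  exact ⟨Iff.rfl, rfl⟩

/-- a finite dimensional complement of `M` in `N` when `N / M` is finite dimensional -/
theorem exists_finite_complement_of_finite {V : Type*} [AddCommGroup V] [Module K V]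
    {M N : Submodule K V} (hMN : M ≤ N) [Module.Finite K (↥N ⧸ M.submoduleOf N)] :
    ∃ C : Submodule K V, FiniteDimensional K C ∧ C ≤ N ∧ M ⊔ C = N := by
  obtain ⟨C', hC'⟩ := Submodule.exists_isCompl (M.submoduleOf N)
  have e := Submodule.quotientEquivOfIsCompl (M.submoduleOf N) C' hC'
  have hfin : Module.Finite K C' := Module.Finite.equiv e
  refine ⟨C'.map N.subtype, Module.Finite.map C' N.subtype, Submodule.map_subtype_le N C', ?_⟩
  have h1 : (M.submoduleOf N).map N.subtype = M := by
    rw [Submodule.submoduleOf, Submodule.map_comap_subtype, inf_eq_right.mpr hMN]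
  have h2 : (M.submoduleOf N ⊔ C').map N.subtype = N := by
    rw [hC'.sup_eq_top, Submodule.map_top, Submodule.range_subtype]
  rw [Submodule.map_sup, h1] at h2
  exact h2

theorem adeleSum_le_adeleAll {x : F} (hx : IsFunctionFieldGen K F x) (D : Divisor K F) :
    adeleSum D ≤ adeleAll K F :=
  sup_le (adeleOf_le_adeleAll D) (adeleDiag_le_adeleAll hx)

theorem adeleSum_mono {D D' : Divisor K F} (h : D ≤ D') : adeleSum D ≤ adeleSum D' :=
  sup_le_sup_right (adeleOf_mono h) _

/-- there is a divisor maximizing `deg D - ℓ(D)` -/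
theorem exists_max_degree_sub_ell {x : F} (hx : IsFunctionFieldGen K F x) :
    ∃ D₀ : Divisor K F, ∀ D : Divisor K F,
      Divisor.degree D - ell D ≤ Divisor.degree D₀ - ell D₀ := by
  obtain ⟨γ, hγ⟩ := exists_riemann_bound hx
  obtain ⟨m, ⟨D₀, hD₀⟩, hm⟩ := Int.exists_greatest_of_bdd
    (P := fun m : ℤ => ∃ D : Divisor K F, Divisor.degree D - ell D = m)
    ⟨γ, fun z ⟨D, hD⟩ => hD ▸ hγ D⟩ ⟨_, 0, rfl⟩
  exact ⟨D₀, fun D => hD₀ ▸ hm _ ⟨D, rfl⟩⟩

/-- if `D₀` maximizes `deg - ℓ` then `A(D₁) + F = A_F` for all `D₁ ≥ D₀` -/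
theorem adeleSum_eq_adeleAll {x : F} (hx : IsFunctionFieldGen K F x) {D₀ : Divisor K F}
    (hD₀ : ∀ D : Divisor K F, Divisor.degree D - ell D ≤ Divisor.degree D₀ - ell D₀)
    {D₁ : Divisor K F} (h : D₀ ≤ D₁) : adeleSum D₁ = adeleAll K F := by
  -- first: `adeleSum D₂ ≤ adeleSum D₀` for `D₂ ≥ D₀`
  have key : ∀ D₂ : Divisor K F, D₀ ≤ D₂ → adeleSum D₂ ≤ adeleSum D₀ := by
    intro D₂ h2
    obtain ⟨hfin, hrank⟩ := finrank_adeleSum_quotient hx h2
    have h0 : Module.finrank K (↥(adeleSum D₂) ⧸ (adeleSum D₀).submoduleOf (adeleSum D₂)) = 0 := by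
      have := hD₀ D₂
      omega
    have hsub := Module.finrank_zero_iff.mp h0
    rw [Submodule.Quotient.subsingleton_iff, Submodule.submoduleOf_eq_top] at hsub
    exact hsub
  apply le_antisymm (adeleSum_le_adeleAll hx D₁)
  intro α hα
  obtain ⟨D, hD⟩ := exists_mem_adeleOf hα
  have h1 : α ∈ adeleSum (D ⊔ D₀) :=
    (le_sup_left : adeleOf (D ⊔ D₀) ≤ adeleSum (D ⊔ D₀)) (adeleOf_mono le_sup_left hD)
  exact adeleSum_mono h (key _ le_sup_right h1)

/-- the dimension of `H¹(D)` -/
theorem adeleH1_finrank {x : F} (hx : IsFunctionFieldGen K F x) :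
    ∃ m₀ : ℤ, (∃ D₀ : Divisor K F, Divisor.degree D₀ - ell D₀ = m₀) ∧ ∀ D : Divisor K F,
      Module.Finite K (AdeleH1 D) ∧
        (Module.finrank K (AdeleH1 D) : ℤ) = m₀ - (Divisor.degree D - ell D) := by
  obtain ⟨D₀, hD₀⟩ := exists_max_degree_sub_ell hx
  refine ⟨Divisor.degree D₀ - ell D₀, ⟨D₀, rfl⟩, fun D => ?_⟩
  have h1 : D ≤ D ⊔ D₀ := le_sup_left
  have h2 : D₀ ≤ D ⊔ D₀ := le_sup_right
  obtain ⟨hfin, hrank⟩ := finrank_adeleSum_quotient hx h1
  have heq := adeleSum_eq_adeleAll hx hD₀ h2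
  obtain ⟨hc1, hc2⟩ := relQuot_congr (M := adeleSum D) heq
  have h3 := degree_sub_ell_mono hx h2
  have h4 := hD₀ (D ⊔ D₀)
  refine ⟨hc1.mp hfin, ?_⟩
  show (Module.finrank K (↥(adeleAll K F) ⧸ (adeleSum D).submoduleOf (adeleAll K F)) : ℤ) = _
  rw [← hc2, hrank]
  omega

end RRAux

/-- `H¹(D) = A_F / (A(D) + F)` is finite dimensional. -/
theorem finite_adeleH1 {x : F} (hx : IsFunctionFieldGen K F x) (D : Divisor K F) :
    Module.Finite K (AdeleH1 D) := by
  obtain ⟨m₀, -, h⟩ := adeleH1_finrank hx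
  exact (h D).1

/-- **Riemann-Roch, first form**: `ℓ(D) - i(D) = deg D + 1 - g` with `g = genusR = dim H¹(0)`. -/
theorem riemannRoch_H1 {x : F} (hx : IsFunctionFieldGen K F x) (D : Divisor K F) :
    (ell D : ℤ) - Module.finrank K (AdeleH1 D) = Divisor.degree D + 1 - genusR K F := by
  obtain ⟨m₀, -, h⟩ := adeleH1_finrank hx
  have h0 := (h 0).2
  have h1 := (h D).2
  have hl0 : ell (0 : Divisor K F) = 1 := (finrank_riemannRochSpace_zero hx).2
  rw [genusR, h0, h1, hl0, map_zero]
  push_cast
  ring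

/-- `H¹(D) = 0` for `deg D` large -/
theorem exists_forall_adeleH1_eq_zero {x : F} (hx : IsFunctionFieldGen K F x) :
    ∃ c : ℤ, ∀ D : Divisor K F, c ≤ Divisor.degree D → Module.finrank K (AdeleH1 D) = 0 := by
  obtain ⟨m₀, ⟨D₀, hD₀⟩, h⟩ := adeleH1_finrank hx
  have hle : ∀ D : Divisor K F, Divisor.degree D - ell D ≤ m₀ := by
    intro D
    have h1 := (h D).2
    have h0 : (0 : ℤ) ≤ (Module.finrank K (AdeleH1 D) : ℤ) := Nat.cast_nonneg _
    omega
  refine ⟨Divisor.degree D₀ + m₀ + 1, fun D hD => ?_⟩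
  have h1 := hle (D - D₀)
  rw [map_sub] at h1
  have hellpos : 0 < ell (D - D₀) := by
    have : (0 : ℤ) < ell (D - D₀) := by omega
    exact_mod_cast this
  have hne : riemannRochSpace (D - D₀) ≠ ⊥ := by
    intro hbot
    rw [ell, hbot, finrank_bot] at hellpos
    exact lt_irrefl _ hellpos
  obtain ⟨z, hz, hz0⟩ := (Submodule.ne_bot_iff _).mp hne
  have h2 : D₀ ≤ D + divOf hx z := by
    intro v
    rw [Finsupp.add_apply, divOf_apply hx hz0]
    rcases (mem_riemannRochSpace_iff.mp hz) v with h | h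
    · exact absurd h hz0
    · rw [Finsupp.sub_apply] at h
      omega
  have h3 := degree_sub_ell_mono hx h2
  rw [degree_add_divOf, ell_add_divOf hx D hz0] at h3
  have h4 := (h D).2
  have h5 := hle D
  have : (Module.finrank K (AdeleH1 D) : ℤ) = 0 := by omega
  exact_mod_cast this

/-- there is a finite dimensional `C` with `A(0) ⊔ F ⊔ C = A_F` (input for the residue theorem) -/
theorem exists_finite_complement {x : F} (hx : IsFunctionFieldGen K F x) :
    ∃ C : Submodule K (Rep K F), FiniteDimensional K C ∧ C ≤ adeleAll K F ∧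
      adeleOf (0 : Divisor K F) ⊔ adeleDiag K F ⊔ C = adeleAll K F := by
  have hfin : Module.Finite K
      (↥(adeleAll K F) ⧸ (adeleSum (0 : Divisor K F)).submoduleOf (adeleAll K F)) :=
    finite_adeleH1 hx 0
  exact exists_finite_complement_of_finite (adeleSum_le_adeleAll hx 0)

end Fermat.Agent.Curve
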