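/-
P1 part C / RR-G (helper5): the residue theorem `∑_v res_v ω = 0` for a function field `F/K`,
following Tate: the abstract residue of `V = A_F` with respect to `A = A(0)` is on the one hand the
sum of the local residues, on the other hand zero because `F ⊆ A_F` is a stable subspace with
`A(0) ∩ F` finite dimensional and `A(0) + F` of finite codimension.
-/
import Mathlib
import Fermat.Agent.Lib.Curve.ResidueLocal
import Fermat.Agent.Lib.Curve.Riemann

set_option autoImplicit false
set_option linter.unusedSectionVars false
set_option linter.style.haveILetI false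

namespace Fermat.Agent.Curve

open AlgebraicCurve KaehlerDifferential PlaceAux Tate

variable {K F : Type*} [Field K] [Field F] [Algebra K F]

/-! ### Some linear algebra -/

/-- a finite dimensional quotient `N / (M ∩ N)` is represented by a finite dimensional subspace -/
theorem exists_finiteDimensional_sup_eq {E : Type*} [AddCommGroup E] [Module K E]
    (M N : Submodule K E) (h : Module.Finite K (↥N ⧸ M.submoduleOf N)) :
    ∃ W : Submodule K E, FiniteDimensional K W ∧ W ≤ N ∧ N ≤ M ⊔ W := by
  obtain ⟨C, hC⟩ := Submodule.exists_isCompl (M.submoduleOf N)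
  have hfin : FiniteDimensional K C :=
    Module.Finite.equiv (Submodule.quotientEquivOfIsCompl _ C hC)
  refine ⟨C.map N.subtype, Module.Finite.map C N.subtype, ?_, ?_⟩
  · rintro _ ⟨c, -, rfl⟩
    exact c.2
  · intro n hn
    have htop : (⟨n, hn⟩ : N) ∈ M.submoduleOf N ⊔ C := by rw [hC.sup_eq_top]; trivial
    obtain ⟨a, ha, c, hc, hac⟩ := Submodule.mem_sup.mp htop
    rw [Submodule.mem_sup]
    refine ⟨a, ha, c, Submodule.mem_map_of_mem hc, ?_⟩
    have := congrArg Subtype.val hac
    simpa using this

/-- finite orthogonal sums: `tr (∑ θ_i) = ∑ tr θ_i` if `θ_i θ_j = 0` for `i ≠ j` and all `θ_i²` have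
finite rank -/
theorem trFP_sum_of_orthogonal {V : Type*} [AddCommGroup V] [Module K V] {ι : Type*}
    [DecidableEq ι] (S : Finset ι) (θ : ι → Module.End K V)
    (horth : ∀ i ∈ S, ∀ j ∈ S, i ≠ j → θ i * θ j = 0)
    (hfin : ∀ i ∈ S, FiniteDimensional K (LinearMap.range (θ i * θ i))) :
    trFP (∑ i ∈ S, θ i) = ∑ i ∈ S, trFP (θ i) ∧
      FiniteDimensional K (LinearMap.range ((∑ i ∈ S, θ i) * (∑ i ∈ S, θ i))) := by
  induction S using Finset.induction_on with
  | empty =>
    refine ⟨?_, ?_⟩
    · simp only [Finset.sum_empty]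
      exact trFP_of_isNilpotent ⟨1, by simp⟩
    · rw [Finset.sum_empty, zero_mul, LinearMap.range_zero]
      infer_instance
  | insert j S hj ih =>
    have horth' : ∀ i ∈ S, ∀ k ∈ S, i ≠ k → θ i * θ k = 0 := fun i hi k hk hik =>
      horth i (Finset.mem_insert_of_mem hi) k (Finset.mem_insert_of_mem hk) hik
    have hfin' : ∀ i ∈ S, FiniteDimensional K (LinearMap.range (θ i * θ i)) := fun i hi =>
      hfin i (Finset.mem_insert_of_mem hi)
    obtain ⟨ih1, ih2⟩ := ih horth' hfin'
    have h1 : θ j * ∑ i ∈ S, θ i = 0 := by
      rw [Finset.mul_sum]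
      apply Finset.sum_eq_zero
      intro i hi
      exact horth j (Finset.mem_insert_self j S) i (Finset.mem_insert_of_mem hi)
        (fun h => hj (h ▸ hi))
    have h2 : (∑ i ∈ S, θ i) * θ j = 0 := by
      rw [Finset.sum_mul]
      apply Finset.sum_eq_zero
      intro i hi
      exact horth i (Finset.mem_insert_of_mem hi) j (Finset.mem_insert_self j S)
        (fun h => hj (h ▸ hi))
    have hjj := hfin j (Finset.mem_insert_self j S)
    have hzero : FiniteDimensional K (LinearMap.range (0 : Module.End K V)) := by
      rw [LinearMap.range_zero]; infer_instance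
    rw [Finset.sum_insert hj, Finset.sum_insert hj]
    refine ⟨?_, ?_⟩
    · rw [trFP_add_of_finite hjj (by rw [h1]; exact hzero) (by rw [h2]; exact hzero) ih2, ih1]
    · have : (θ j + ∑ i ∈ S, θ i) * (θ j + ∑ i ∈ S, θ i)
          = θ j * θ j + (∑ i ∈ S, θ i) * (∑ i ∈ S, θ i) := by
        rw [mul_add, add_mul, add_mul, h1, h2, add_zero, zero_add]
      rw [this]
      have hle : LinearMap.range (θ j * θ j + (∑ i ∈ S, θ i) * (∑ i ∈ S, θ i))
          ≤ LinearMap.range (θ j * θ j) ⊔ LinearMap.range ((∑ i ∈ S, θ i) * (∑ i ∈ S, θ i)) := by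
        rintro _ ⟨y, rfl⟩
        rw [LinearMap.add_apply]
        exact Submodule.add_mem_sup (LinearMap.mem_range_self _ y) (LinearMap.mem_range_self _ y)
      exact Submodule.finiteDimensional_of_le hle

/-! ### Operators on the adele space -/

/-- the adele space as a type -/
abbrev AdV (K F : Type*) [Field K] [Field F] [Algebra K F] : Type _ := ↥(adeleAll K F)

variable (K F) in
/-- `A(0)` as a subspace of the adele space -/
def adeleInt : Submodule K (AdV K F) := (adeleOf (0 : Divisor K F)).submoduleOf (adeleAll K F)

variable (K F) in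
/-- the diagonal `F` as a subspace of the adele space -/
def adeleDiagV : Submodule K (AdV K F) := (adeleDiag K F).submoduleOf (adeleAll K F)

theorem mem_adeleInt {α : AdV K F} :
    α ∈ adeleInt K F ↔ ∀ v : Place K F, (α : Rep K F) v ∈ v.toValuationSubring := by
  show (α : Rep K F) ∈ adeleOf 0 ↔ _
  rw [mem_adeleOf_iff_ordGE]
  refine forall_congr' fun v => ?_
  rw [Finsupp.zero_apply, neg_zero, ordGE_zero_iff_mem]

theorem mem_adeleDiagV {α : AdV K F} :
    α ∈ adeleDiagV K F ↔ ∃ f : F, (α : Rep K F) = fun _ => f := by
  show (α : Rep K F) ∈ adeleDiag K F ↔ _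
  exact mem_adeleDiag

/-- a function with finite support is an adele -/
theorem single_mem_adeleAll [DecidableEq (Place K F)] (v : Place K F) (a : F) :
    (Pi.single v a : Rep K F) ∈ adeleAll K F := by
  refine (Set.finite_singleton v).subset fun w hw => ?_
  simp only [polesOf, Set.mem_ofPred_eq] at hw
  by_contra hne
  rw [Set.mem_singleton_iff] at hne
  rw [Pi.single_eq_of_ne hne, w.ord_zero] at hw
  exact lt_irrefl _ hw

/-- the inclusion of `F` into the adeles at the place `v` -/
noncomputable def adeleSingle [DecidableEq (Place K F)] (v : Place K F) : F →ₗ[K] AdV K F :=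
  (LinearMap.single K (fun _ : Place K F => F) v).codRestrict (adeleAll K F)
    fun a => single_mem_adeleAll v a

theorem adeleSingle_apply [DecidableEq (Place K F)] (v : Place K F) (a : F) (w : Place K F) :
    (adeleSingle v a : Rep K F) w = if w = v then a else 0 := by
  show (Pi.single v a : Rep K F) w = _
  rw [Pi.single_apply]

/-- evaluation of an adele at the place `v` -/
def adeleEval (v : Place K F) : AdV K F →ₗ[K] F :=
  LinearMap.proj v ∘ₗ (adeleAll K F).subtype

@[simp] theorem adeleEval_apply (v : Place K F) (α : AdV K F) :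
    adeleEval v α = (α : Rep K F) v := rfl

/-- the projection onto the `v`-component -/
noncomputable def adeleComp [DecidableEq (Place K F)] (v : Place K F) : Module.End K (AdV K F) :=
  adeleSingle v ∘ₗ adeleEval v

theorem adeleComp_apply [DecidableEq (Place K F)] (v : Place K F) (α : AdV K F) (w : Place K F) :
    (adeleComp v α : Rep K F) w = if w = v then (α : Rep K F) v else 0 := by
  rw [adeleComp, LinearMap.comp_apply, adeleSingle_apply, adeleEval_apply]

/-- the componentwise projection onto `A(0)` -/
noncomputable def adeleProj : Module.End K (AdV K F) :=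
  (LinearMap.pi fun v : Place K F => someProj (valSub v) ∘ₗ LinearMap.proj v).restrict
    (p := adeleAll K F) fun α _ => by
      apply adeleOf_le_adeleAll (0 : Divisor K F)
      rw [mem_adeleOf_iff_ordGE]
      intro v
      rw [Finsupp.zero_apply, neg_zero, ordGE_zero_iff_mem]
      exact (isProj_someProj (valSub v)).map_mem _

theorem adeleProj_apply (α : AdV K F) (v : Place K F) :
    (adeleProj α : Rep K F) v = someProj (valSub v) ((α : Rep K F) v) := rfl

theorem isProj_adeleProj : LinearMap.IsProj (adeleInt K F) (adeleProj (K := K) (F := F)) := by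
  constructor
  · intro α
    rw [mem_adeleInt]
    intro v
    rw [adeleProj_apply]
    exact (isProj_someProj (valSub v)).map_mem _
  · intro α hα
    apply Subtype.ext
    funext v
    rw [adeleProj_apply]
    exact (isProj_someProj (valSub v)).map_id _ (mem_adeleInt.mp hα v)

/-! ### Local and global commutator operators -/

/-- the local operator `[π_v, g] f` whose trace is `res_v (f dg)` -/
noncomputable def locX (v : Place K F) (f g : F) : Module.End K F :=
  (someProj (valSub v) * mulE g - mulE g * someProj (valSub v)) * mulE f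

theorem resPair_eq_trFP (v : Place K F) (f g : F) : resPair v f g = trFP (locX v f g) := rfl

theorem locX_apply (v : Place K F) (f g a : F) :
    locX v f g a = someProj (valSub v) (g * (f * a)) - g * someProj (valSub v) (f * a) := by
  simp [locX, Module.End.mul_apply, LinearMap.sub_apply]

/-- at a place where `f` and `g` are regular the local operator squares to zero -/
theorem locX_mul_self_of_mem (v : Place K F) {f g : F} (hf : f ∈ v.toValuationSubring)
    (hg : g ∈ v.toValuationSubring) : locX v f g * locX v f g = 0 := by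
  have hπ := isProj_someProj (valSub v)
  ext a
  rw [Module.End.mul_apply, LinearMap.zero_apply]
  set y := locX v f g a with hy
  have hym : y ∈ v.toValuationSubring := by
    rw [hy, locX_apply]
    exact v.toValuationSubring.sub_mem (hπ.map_mem _)
      (v.toValuationSubring.mul_mem _ _ hg (hπ.map_mem _))
  have h1 : f * y ∈ valSub v := v.toValuationSubring.mul_mem _ _ hf hym
  have h2 : g * (f * y) ∈ valSub v := v.toValuationSubring.mul_mem _ _ hg h1
  rw [locX_apply, hπ.map_id _ h1, hπ.map_id _ h2, sub_self]

section Main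

variable [IsAlgClosed K] [CharZero K] {x : F} (hx : IsFunctionFieldGen K F x)

include hx

theorem finite_range_locX_sq (v : Place K F) (f g : F) :
    FiniteDimensional K (LinearMap.range (locX v f g * locX v f g)) :=
  finite_range_sq (isProj_someProj (valSub v)) (nearStab_mulE hx v f) (nearStab_mulE hx v g)

/-- the global operator `[π, g] f` on the adeles -/
noncomputable def globX (f g : F) : Module.End K (AdV K F) :=
  (adeleProj * adeleMul hx g - adeleMul hx g * adeleProj) * adeleMul hx f

theorem globX_apply (f g : F) (α : AdV K F) (v : Place K F) :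
    (globX hx f g α : Rep K F) v = locX v f g ((α : Rep K F) v) := by
  rw [locX_apply]
  rfl

variable [DecidableEq (Place K F)]

theorem globX_adeleComp (f g : F) (v : Place K F) :
    globX hx f g * adeleComp v = (adeleSingle v ∘ₗ locX v f g) ∘ₗ adeleEval v := by
  ext α w
  rw [Module.End.mul_apply, globX_apply, adeleComp_apply, LinearMap.comp_apply,
    LinearMap.comp_apply, adeleSingle_apply, adeleEval_apply]
  split_ifs with h
  · rw [h]
  · rw [map_zero]

theorem adeleEval_adeleSingle (v : Place K F) :
    adeleEval v ∘ₗ adeleSingle (K := K) v = LinearMap.id := by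
  ext a
  rw [LinearMap.comp_apply, adeleEval_apply, adeleSingle_apply, if_pos rfl, LinearMap.id_apply]

theorem trFP_globX_adeleComp (f g : F) (v : Place K F) :
    trFP (globX hx f g * adeleComp v) = resPair v f g ∧
      FiniteDimensional K (LinearMap.range
        ((globX hx f g * adeleComp v) * (globX hx f g * adeleComp v))) := by
  have hsq : (globX hx f g * adeleComp v) * (globX hx f g * adeleComp v)
      = (adeleSingle v ∘ₗ (locX v f g * locX v f g)) ∘ₗ adeleEval v := by
    rw [globX_adeleComp]
    ext α w
    simp only [Module.End.mul_apply, LinearMap.comp_apply, adeleEval_apply, adeleSingle_apply,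
      if_true]
  have hfin : FiniteDimensional K (LinearMap.range
      ((globX hx f g * adeleComp v) * (globX hx f g * adeleComp v))) := by
    rw [hsq]
    have hle : LinearMap.range ((adeleSingle v ∘ₗ (locX v f g * locX v f g)) ∘ₗ adeleEval v)
        ≤ (LinearMap.range (locX v f g * locX v f g)).map (adeleSingle v) := by
      rintro _ ⟨α, rfl⟩
      exact ⟨_, LinearMap.mem_range_self _ _, rfl⟩
    haveI := finite_range_locX_sq hx v f g
    exact Submodule.finiteDimensional_of_le hle
  refine ⟨?_, hfin⟩
  have hFP : FinitePotent ((adeleSingle v ∘ₗ locX v f g) ∘ₗ adeleEval v) := by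
    refine ⟨2, ?_⟩
    rw [← globX_adeleComp, pow_two]
    exact hfin
  have h := (trFP_comp_comm (adeleEval v) (adeleSingle v ∘ₗ locX v f g) hFP).2
  rw [globX_adeleComp hx, ← h, resPair_eq_trFP]
  congr 1
  rw [← LinearMap.comp_assoc, adeleEval_adeleSingle hx, LinearMap.id_comp]

omit hx [IsAlgClosed K] [CharZero K] in
/-- the projection killing the components in the finite set `S` -/
noncomputable def adeleOff (S : Finset (Place K F)) : Module.End K (AdV K F) :=
  1 - ∑ v ∈ S, adeleComp v

omit hx [IsAlgClosed K] [CharZero K] in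
theorem adeleOff_apply (S : Finset (Place K F)) (α : AdV K F) (w : Place K F) :
    (adeleOff S α : Rep K F) w = if w ∈ S then 0 else (α : Rep K F) w := by
  have h1 : ((∑ v ∈ S, adeleComp v) α : Rep K F) w
      = ∑ v ∈ S, (if w = v then (α : Rep K F) v else 0) := by
    rw [LinearMap.sum_apply, Submodule.coe_sum, Finset.sum_apply]
    exact Finset.sum_congr rfl fun v _ => adeleComp_apply v α w
  have h2 : (adeleOff S α : Rep K F) w = (α : Rep K F) w - ((∑ v ∈ S, adeleComp v) α : Rep K F) w := by
    rfl
  rw [h2, h1]
  split_ifs with h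
  · rw [Finset.sum_eq_single_of_mem w h (fun b _ hb => if_neg (Ne.symm hb)), if_pos rfl, sub_self]
  · rw [Finset.sum_eq_zero (fun v hv => if_neg (fun hwv : w = v => h (hwv ▸ hv))), sub_zero]

/-- **local-global decomposition**: the trace of the global operator is the sum of the local
residues over any finite set `S` containing the poles of `f` and `g` -/
theorem trFP_globX (f g : F) (S : Finset (Place K F))
    (hS : ∀ v ∉ S, f ∈ v.toValuationSubring ∧ g ∈ v.toValuationSubring) :
    trFP (globX hx f g) = ∑ v ∈ S, resPair v f g := by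
  set X := globX hx f g with hX
  -- the pieces
  have horth : ∀ v ∈ S, ∀ w ∈ S, v ≠ w → (X * adeleComp v) * (X * adeleComp w) = 0 := by
    intro v _ w _ hvw
    ext α u
    rw [Module.End.mul_apply, Module.End.mul_apply, globX_apply, adeleComp_apply]
    split_ifs with h1
    · rw [Module.End.mul_apply, globX_apply, adeleComp_apply, if_neg hvw]
      simp
    · simp
  have hfin : ∀ v ∈ S, FiniteDimensional K
      (LinearMap.range ((X * adeleComp v) * (X * adeleComp v))) :=
    fun v _ => (trFP_globX_adeleComp hx f g v).2
  obtain ⟨hsum, hsumfin⟩ := trFP_sum_of_orthogonal S (fun v => X * adeleComp v) horth hfin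
  -- the rest
  have hrest : (X * adeleOff S) * (X * adeleOff S) = 0 := by
    ext α u
    rw [Module.End.mul_apply, Module.End.mul_apply, globX_apply, adeleOff_apply]
    split_ifs with h1
    · simp
    · rw [Module.End.mul_apply, globX_apply, adeleOff_apply, if_neg h1, ← Module.End.mul_apply,
        locX_mul_self_of_mem u (hS u h1).1 (hS u h1).2]
      simp
  have hcross1 : (∑ v ∈ S, X * adeleComp v) * (X * adeleOff S) = 0 := by
    rw [Finset.sum_mul]
    apply Finset.sum_eq_zero
    intro v hv
    ext α u
    rw [Module.End.mul_apply, Module.End.mul_apply, globX_apply, adeleComp_apply]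
    split_ifs with h1
    · rw [Module.End.mul_apply, globX_apply, adeleOff_apply, if_pos hv]
      simp
    · simp
  have hcross2 : (X * adeleOff S) * (∑ v ∈ S, X * adeleComp v) = 0 := by
    rw [Finset.mul_sum]
    apply Finset.sum_eq_zero
    intro v hv
    ext α u
    rw [Module.End.mul_apply, Module.End.mul_apply, globX_apply, adeleOff_apply]
    split_ifs with h1
    · simp
    · rw [Module.End.mul_apply, globX_apply, adeleComp_apply,
        if_neg (fun huv : u = v => h1 (huv ▸ hv))]
      simp
  have hdecomp : X = (∑ v ∈ S, X * adeleComp v) + X * adeleOff S := by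
    have h1 : (∑ v ∈ S, adeleComp v) + adeleOff S = (1 : Module.End K (AdV K F)) := by
      rw [adeleOff]; abel
    rw [← Finset.mul_sum, ← mul_add, h1, mul_one]
  have hzero : FiniteDimensional K (LinearMap.range (0 : Module.End K (AdV K F))) := by
    rw [LinearMap.range_zero]; infer_instance
  have hadd := trFP_add_of_finite hsumfin (by rw [hcross1]; exact hzero)
    (by rw [hcross2]; exact hzero) (by rw [hrest]; exact hzero)
  rw [← hdecomp] at hadd
  rw [hadd, hsum, trFP_of_isNilpotent ⟨2, by rw [pow_two]; exact hrest⟩, add_zero]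
  exact Finset.sum_congr rfl fun v _ => (trFP_globX_adeleComp hx f g v).1

omit [DecidableEq (Place K F)]

/-- the pole divisor of `f` -/
noncomputable def poleDiv (f : F) : Divisor K F :=
  Finsupp.ofSupportFinite (fun v : Place K F => max 0 (-(v.ord f))) <| by
    refine (finite_poles_of hx f).subset fun v hv => ?_
    simp only [Function.mem_support, ne_eq] at hv
    simp only [Set.mem_ofPred_eq]
    by_contra h
    apply hv
    rw [max_eq_left]
    omega

omit hx in
theorem poleDiv_apply (hx : IsFunctionFieldGen K F x) (f : F) (v : Place K F) :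
    poleDiv hx f v = max 0 (-(v.ord f)) := rfl

omit hx in
theorem poleDiv_nonneg (hx : IsFunctionFieldGen K F x) (f : F) : 0 ≤ poleDiv hx f := by
  rw [Finsupp.le_def]
  intro v
  rw [poleDiv_apply, Finsupp.zero_apply]
  exact le_max_left _ _

omit hx in
theorem repMul_mem_adeleOf_poleDiv (hx : IsFunctionFieldGen K F x) (f : F) {α : Rep K F}
    (hα : α ∈ adeleOf (0 : Divisor K F)) : repMul f α ∈ adeleOf (poleDiv hx f) := by
  rw [mem_adeleOf_iff_ordGE] at hα ⊢
  intro v
  have h1 : OrdGE v f (-(poleDiv hx f v)) := by
    rw [ordGE_iff, poleDiv_apply]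
    by_cases hf : f = 0
    · exact Or.inl hf
    · right
      rcases le_total 0 (-(v.ord f)) with h | h
      · rw [max_eq_right h]; omega
      · rw [max_eq_left h]; omega
  have h2 := h1.mul v (hα v)
  rw [Finsupp.zero_apply, neg_zero, add_zero] at h2
  exact h2

/-- multiplication by `f` nearly stabilizes `A(0)` -/
theorem nearStab_adeleMul (f : F) : NearStab (adeleInt K F) (adeleMul hx f) := by
  obtain ⟨hfin, -⟩ := finrank_adeleOf_quotient hx (poleDiv_nonneg hx f)
  obtain ⟨W, hWfin, hWle, hsup⟩ := exists_finiteDimensional_sup_eq _ _ hfin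
  have hWad : W ≤ adeleAll K F := hWle.trans (adeleOf_le_adeleAll _)
  refine ⟨W.submoduleOf (adeleAll K F),
    Module.Finite.equiv (Submodule.submoduleOfEquivOfLe hWad).symm, ?_⟩
  rintro _ ⟨α, hα, rfl⟩
  have hmem : ((adeleMul hx f α : AdV K F) : Rep K F) ∈ adeleOf (poleDiv hx f) :=
    repMul_mem_adeleOf_poleDiv hx f hα
  obtain ⟨a, ha, w, hw, haw⟩ := Submodule.mem_sup.mp (hsup hmem)
  rw [Submodule.mem_sup]
  refine ⟨⟨a, adeleOf_le_adeleAll _ ha⟩, ha, ⟨w, hWad hw⟩, hw, ?_⟩
  apply Subtype.ext
  exact haw

omit hx in
theorem adeleMul_commute (hx : IsFunctionFieldGen K F x) (f g : F) :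
    Commute (adeleMul hx f) (adeleMul hx g) := by
  show adeleMul hx f * adeleMul hx g = adeleMul hx g * adeleMul hx f
  ext α v
  simp only [Module.End.mul_apply, adeleMul_apply]
  ring

/-- the abstract residue on the adeles is the trace of the global commutator operator -/
theorem tres_adele_eq (f g : F) :
    tres (adeleInt K F) (adeleMul hx f) (adeleMul hx g) = trFP (globX hx f g) :=
  tres_eq isProj_adeleProj (nearStab_adeleMul hx f) (nearStab_adeleMul hx g)
    (adeleMul_commute hx f g)

/-- the abstract residue on the adeles vanishes -/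
theorem tres_adele_eq_zero (f g : F) :
    tres (adeleInt K F) (adeleMul hx f) (adeleMul hx g) = 0 := by
  have hstab : ∀ h : F, ∀ b ∈ adeleDiagV K F, adeleMul hx h b ∈ adeleDiagV K F :=
    fun h b hb => repMul_mem_adeleDiag h hb
  -- `A(0) ∩ F = K`
  have hone : (fun _ => 1 : Rep K F) ∈ adeleAll K F :=
    adeleDiag_le_adeleAll hx (const_mem_adeleDiag 1)
  have hle : adeleInt K F ⊓ adeleDiagV K F ≤ Submodule.span K {(⟨fun _ => 1, hone⟩ : AdV K F)} := by
    rintro α ⟨h1, h2⟩
    obtain ⟨h, hh⟩ := mem_adeleDiagV.mp h2
    have hL : h ∈ riemannRochSpace (0 : Divisor K F) := by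
      rw [mem_riemannRochSpace_iff_const, ← hh]
      exact h1
    rw [riemannRochSpace_zero hx] at hL
    obtain ⟨c, rfl⟩ := hL
    rw [Submodule.mem_span_singleton]
    refine ⟨c, ?_⟩
    apply Subtype.ext
    rw [hh]
    funext v
    simp [Algebra.smul_def]
  have hfin1 : FiniteDimensional K ↥(adeleInt K F ⊓ adeleDiagV K F) :=
    Submodule.finiteDimensional_of_le hle
  -- finite complement
  obtain ⟨C, hCfin, hCle, hCsup⟩ := exists_finite_complement hx
  have hfin2 : ∃ C' : Submodule K (AdV K F), FiniteDimensional K C' ∧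
      adeleInt K F ⊔ adeleDiagV K F ⊔ C' = ⊤ := by
    refine ⟨C.submoduleOf (adeleAll K F),
      Module.Finite.equiv (Submodule.submoduleOfEquivOfLe hCle).symm, ?_⟩
    rw [eq_top_iff]
    rintro α -
    have hα : (α : Rep K F) ∈ adeleOf (0 : Divisor K F) ⊔ adeleDiag K F ⊔ C := by
      rw [hCsup]; exact α.2
    obtain ⟨ab, hab, c, hc, habc⟩ := Submodule.mem_sup.mp hα
    obtain ⟨a, ha, b, hb, hab'⟩ := Submodule.mem_sup.mp hab
    rw [Submodule.mem_sup]
    refine ⟨⟨ab, ?_⟩, ?_, ⟨c, hCle hc⟩, hc, ?_⟩
    · rw [← hab']
      exact (adeleAll K F).add_mem (adeleOf_le_adeleAll _ ha) (adeleDiag_le_adeleAll hx hb)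
    · rw [Submodule.mem_sup]
      refine ⟨⟨a, adeleOf_le_adeleAll _ ha⟩, ha, ⟨b, adeleDiag_le_adeleAll hx hb⟩, hb, ?_⟩
      apply Subtype.ext
      exact hab'
    · apply Subtype.ext
      exact habc
  exact tres_eq_zero_of_cofinite (adeleDiagV K F) (hstab f) (hstab g) hfin1 hfin2
    (nearStab_adeleMul hx f) (nearStab_adeleMul hx g) (adeleMul_commute hx f g)

/-- **Residue theorem**, in terms of `resPair`: `∑_v res_v (f dg) = 0` -/
theorem finsum_resPair_eq_zero (f g : F) : ∑ᶠ v : Place K F, resPair v f g = 0 := by
  classical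
  have hfinS : ({v : Place K F | v.ord f < 0} ∪ {v : Place K F | v.ord g < 0}).Finite :=
    (finite_poles_of hx f).union (finite_poles_of hx g)
  set S := hfinS.toFinset with hS
  have hSmem : ∀ v ∉ S, f ∈ v.toValuationSubring ∧ g ∈ v.toValuationSubring := by
    intro v hv
    rw [hS, Set.Finite.mem_toFinset, Set.mem_union, not_or] at hv
    simp only [Set.mem_ofPred_eq, not_lt] at hv
    exact ⟨mem_of_ord_nonneg v hv.1, mem_of_ord_nonneg v hv.2⟩
  have h1 := trFP_globX hx f g S hSmem
  rw [← tres_adele_eq, tres_adele_eq_zero] at h1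
  rw [finsum_eq_sum_of_support_subset (s := S), ← h1]
  intro v hv
  rw [Function.mem_support] at hv
  by_contra hvS
  exact hv (resPair_eq_zero_of_mem v (hSmem v hvS).1 (hSmem v hvS).2)

/-- the support of `v ↦ res_v (f dg)` is finite -/
theorem finite_support_resPair (f g : F) :
    (Function.support fun v : Place K F => resPair v f g).Finite := by
  refine ((finite_poles_of hx f).union (finite_poles_of hx g)).subset fun v hv => ?_
  rw [Function.mem_support] at hv
  by_contra hvS
  rw [Set.mem_union, not_or] at hvS
  simp only [Set.mem_ofPred_eq, not_lt] at hvS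
  exact hv (resPair_eq_zero_of_mem v (mem_of_ord_nonneg v hvS.1) (mem_of_ord_nonneg v hvS.2))

/-- every differential is `h dx` -/
theorem exists_eq_smul_D (ω : Ω[F⁄K]) : ∃ h : F, ω = h • D K F x := by
  have hspan := span_D_eq_top hx hx.not_mem_range
  have hω : ω ∈ Submodule.span F {D K F x} := by rw [hspan]; exact Submodule.mem_top
  obtain ⟨h, rfl⟩ := Submodule.mem_span_singleton.mp hω
  exact ⟨h, rfl⟩

/-- **Residue theorem**: the sum of the residues of a differential of a function field is zero -/
theorem finsum_resPlace_eq_zero (ω : Ω[F⁄K]) : ∑ᶠ v : Place K F, resPlace hx v ω = 0 := by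
  obtain ⟨h, rfl⟩ := exists_eq_smul_D hx ω
  simp only [resPlace_smul_D]
  exact finsum_resPair_eq_zero hx h x

/-- the support of `v ↦ res_v (a_v ω)` is finite for an adele `a` -/
theorem finite_support_resPlace_smul (ω : Ω[F⁄K]) {α : Rep K F} (hα : α ∈ adeleAll K F) :
    (Function.support fun v : Place K F => resPlace hx v (α v • ω)).Finite := by
  obtain ⟨h, rfl⟩ := exists_eq_smul_D hx ω
  refine ((hα.union (finite_poles_of hx h)).union (finite_poles_of hx x)).subset fun v hv => ?_
  rw [Function.mem_support, smul_smul, resPlace_smul_D] at hv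
  by_contra hvS
  simp only [Set.mem_union, not_or, polesOf, Set.mem_ofPred_eq, not_lt] at hvS
  apply hv
  apply resPair_eq_zero_of_mem v _ (mem_of_ord_nonneg v hvS.2)
  exact v.toValuationSubring.mul_mem _ _ (mem_of_ord_nonneg v hvS.1.1)
    (mem_of_ord_nonneg v hvS.1.2)

end Main

end Fermat.Agent.Curve
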