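/-
P1 part C, task RR-W (helper9): Weil differentials, duality and the Riemann-Roch theorem.
Reference: Stichtenoth §1.5 (Prop. 1.5.9, Thm 1.5.14, Thm 1.5.15, Cor. 1.5.16).

* `exists_smulWeil_eq`     : the space of Weil differentials has dimension at most one over `F`;
* `finrank_adeleH1_eq_ell` : duality `i(D) = ℓ(W - D)` for a canonical pair `(lam, W)`;
* `riemannRoch`, `ell_canonical`, `degree_canonical_weil`.
-/
import Mathlib
import Fermat.Agent.Lib.Curve.Riemann

set_option autoImplicit false
set_option linter.unusedSectionVars false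
set_option linter.unusedVariables false
set_option linter.style.haveILetI false

namespace Fermat.Agent.Curve

open AlgebraicCurve PlaceAux

variable {K F : Type*} [Field K] [Field F] [Algebra K F] [IsAlgClosed K] [CharZero K]

namespace WeilAux

variable {x : F} (hx : IsFunctionFieldGen K F x)

@[simp]
theorem coe_adeleMul (f : F) (α : ↥(adeleAll K F)) :
    ((adeleMul hx f α : ↥(adeleAll K F)) : Rep K F) = repMul f (α : Rep K F) := rfl

theorem adeleMul_mul (f g : F) : adeleMul hx (f * g) = adeleMul hx f ∘ₗ adeleMul hx g := by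
  ext α v
  simp [mul_assoc]

theorem adeleMul_one : adeleMul hx (1 : F) = LinearMap.id := by
  ext α v
  simp

theorem adeleMul_zero : adeleMul hx (0 : F) = 0 := by
  ext α v
  simp

theorem adeleMul_add (f g : F) : adeleMul hx (f + g) = adeleMul hx f + adeleMul hx g := by
  ext α v
  simp [add_mul]

theorem adeleMul_smul (c : K) (f : F) : adeleMul hx (c • f) = c • adeleMul hx f := by
  ext α v
  simp [Algebra.smul_def, mul_assoc]

theorem smulWeil_mul (f g : F) (lam : ↥(adeleAll K F) →ₗ[K] K) :
    smulWeil hx (f * g) lam = smulWeil hx g (smulWeil hx f lam) := by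
  rw [smulWeil, smulWeil, smulWeil, adeleMul_mul, LinearMap.comp_assoc]

theorem smulWeil_one (lam : ↥(adeleAll K F) →ₗ[K] K) : smulWeil hx 1 lam = lam := by
  rw [smulWeil, adeleMul_one, LinearMap.comp_id]

theorem smulWeil_zero (lam : ↥(adeleAll K F) →ₗ[K] K) : smulWeil hx 0 lam = 0 := by
  rw [smulWeil, adeleMul_zero, LinearMap.comp_zero]

/-- `f ↦ f • lam` as a `K`-linear map -/
noncomputable def smulWeilHom (lam : ↥(adeleAll K F) →ₗ[K] K) :
    F →ₗ[K] Module.Dual K ↥(adeleAll K F) where
  toFun f := smulWeil hx f lam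
  map_add' f g := by
    show lam ∘ₗ adeleMul hx (f + g) = lam ∘ₗ adeleMul hx f + lam ∘ₗ adeleMul hx g
    rw [adeleMul_add, LinearMap.comp_add]
  map_smul' c f := by
    show lam ∘ₗ adeleMul hx (c • f) = c • (lam ∘ₗ adeleMul hx f)
    rw [adeleMul_smul, LinearMap.comp_smul]

@[simp]
theorem smulWeilHom_apply (lam : ↥(adeleAll K F) →ₗ[K] K) (f : F) :
    smulWeilHom hx lam f = smulWeil hx f lam := rfl

/-- the action of `F` is torsion free -/
theorem eq_zero_of_smulWeil_eq_zero {f : F} (hf : f ≠ 0) {lam : ↥(adeleAll K F) →ₗ[K] K}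
    (h : smulWeil hx f lam = 0) : lam = 0 := by
  have h1 : smulWeil hx f⁻¹ (smulWeil hx f lam) = lam := by
    rw [← smulWeil_mul, mul_inv_cancel₀ hf, smulWeil_one]
  rw [← h1, h, smulWeil, LinearMap.zero_comp]

theorem smulWeilHom_injective {lam : ↥(adeleAll K F) →ₗ[K] K} (h0 : lam ≠ 0) :
    Function.Injective (smulWeilHom hx lam) := by
  rw [← LinearMap.ker_eq_bot, LinearMap.ker_eq_bot']
  intro f hf
  by_contra hf0
  exact h0 (eq_zero_of_smulWeil_eq_zero hx hf0 hf)

/-- `x ∈ L(E)` multiplies `A(D - E)` into `A(D)` -/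
theorem repMul_mem_adeleOf {D E : Divisor K F} {f : F} (hf : f ∈ riemannRochSpace E)
    {α : Rep K F} (hα : α ∈ adeleOf (D - E)) : repMul f α ∈ adeleOf D := by
  intro v
  rw [repMul_apply, map_mul]
  have h1 := hf v
  have h2 := hα v
  have h3 : v.adicValuation f * v.adicValuation (α v)
      ≤ WithZero.exp (E v) * WithZero.exp ((D - E) v) := mul_le_mul' h1 h2
  rw [← WithZero.exp_add] at h3
  have h4 : E v + (D - E) v = D v := by
    rw [Finsupp.sub_apply]; ring
  rwa [h4] at h3

/-- level shift: if `lam` has level `D` and `f ∈ L(E)` then `f • lam` has level `D - E` -/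
theorem isWeilDiff_smulWeil {lam : ↥(adeleAll K F) →ₗ[K] K} {D E : Divisor K F}
    (hl : IsWeilDiff lam D) {f : F} (hf : f ∈ riemannRochSpace E) :
    IsWeilDiff (smulWeil hx f lam) (D - E) := by
  intro α hα
  rw [smulWeil_apply]
  apply hl
  rw [coe_adeleMul]
  obtain ⟨β, hβ, γ, hγ, hβγ⟩ := Submodule.mem_sup.mp hα
  rw [← hβγ, map_add]
  exact Submodule.add_mem_sup (repMul_mem_adeleOf hf hβ) (repMul_mem_adeleDiag f hγ)

/-- the space `Ω(D)` of Weil differentials of level `D` -/
def weilSpace (D : Divisor K F) : Submodule K (Module.Dual K ↥(adeleAll K F)) :=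
  ((adeleSum D).submoduleOf (adeleAll K F)).dualAnnihilator

theorem mem_weilSpace {D : Divisor K F} {lam : ↥(adeleAll K F) →ₗ[K] K} :
    lam ∈ weilSpace D ↔ IsWeilDiff lam D := by
  rw [weilSpace, Submodule.mem_dualAnnihilator]
  exact Iff.rfl

/-- `dim Ω(D) = dim H¹(D)` -/
theorem finrank_weilSpace (D : Divisor K F) :
    Module.finrank K ↥(weilSpace D) = Module.finrank K (AdeleH1 D) := by
  rw [weilSpace, ← (Submodule.dualQuotEquivDualAnnihilator
    ((adeleSum D).submoduleOf (adeleAll K F))).finrank_eq, Subspace.dual_finrank_eq]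

include hx in
theorem finiteDimensional_weilSpace (D : Divisor K F) :
    FiniteDimensional K ↥(weilSpace D) := by
  haveI := finite_adeleH1 hx D
  exact Module.Finite.equiv (Submodule.dualQuotEquivDualAnnihilator
    ((adeleSum D).submoduleOf (adeleAll K F)))

include hx in
/-- Riemann's inequality `ℓ(E) ≥ deg E + 1 - g` -/
theorem riemann_inequality (E : Divisor K F) :
    Divisor.degree E + 1 - genusR K F ≤ (ell E : ℤ) := by
  have := riemannRoch_H1 hx E
  have h0 : (0 : ℤ) ≤ Module.finrank K (AdeleH1 E) := Int.natCast_nonneg _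
  linarith

include hx in
/-- `i(E) = deg(-E) - 1 + g` when `deg E < 0` -/
theorem finrank_adeleH1_of_degree_neg {E : Divisor K F} (h : Divisor.degree E < 0) :
    (Module.finrank K (AdeleH1 E) : ℤ) = - Divisor.degree E - 1 + genusR K F := by
  have h1 := riemannRoch_H1 hx E
  have h2 : ell E = 0 := by
    rw [ell, riemannRochSpace_eq_bot hx h]
    exact finrank_bot K F
  rw [h2] at h1
  push_cast at h1
  linarith

end WeilAux

open WeilAux in
/-- RR-W1: **the space of Weil differentials has dimension at most one over `F`**. -/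
theorem exists_smulWeil_eq {x : F} (hx : IsFunctionFieldGen K F x)
    {lam mu : ↥(adeleAll K F) →ₗ[K] K} {D D' : Divisor K F} (hl : IsWeilDiff lam D)
    (hm : IsWeilDiff mu D') (h0 : lam ≠ 0) : ∃ f : F, mu = smulWeil hx f lam := by
  by_cases hmu : mu = 0
  · exact ⟨0, by rw [hmu, smulWeil_zero]⟩
  obtain ⟨v₀⟩ := exists_place hx
  -- a divisor `B` of large degree
  set n : ℕ := (3 * (genusR K F : ℤ) - 2 - Divisor.degree D - Divisor.degree D').toNat + 1
    with hn
  set B : Divisor K F := Finsupp.single v₀ (n : ℤ) with hB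
  have hdegB : Divisor.degree B = n := by
    rw [hB, Divisor.degree_single, deg_eq_one hx v₀, Nat.cast_one, mul_one]
  have hn1 : (1 : ℤ) ≤ n := by rw [hn]; push_cast; omega
  have hn2 : 3 * (genusR K F : ℤ) - 2 - Divisor.degree D - Divisor.degree D' < n := by
    rw [hn]; push_cast; omega
  -- the two images in `Ω(-B)`
  set R₁ : Submodule K (Module.Dual K ↥(adeleAll K F)) :=
    (riemannRochSpace (D + B)).map (smulWeilHom hx lam) with hR₁
  set R₂ : Submodule K (Module.Dual K ↥(adeleAll K F)) :=
    (riemannRochSpace (D' + B)).map (smulWeilHom hx mu) with hR₂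
  have hR₁le : R₁ ≤ weilSpace (-B) := by
    rintro _ ⟨f, hf, rfl⟩
    rw [mem_weilSpace, smulWeilHom_apply]
    have := isWeilDiff_smulWeil hx hl hf
    rwa [sub_add_cancel_left] at this
  have hR₂le : R₂ ≤ weilSpace (-B) := by
    rintro _ ⟨f, hf, rfl⟩
    rw [mem_weilSpace, smulWeilHom_apply]
    have := isWeilDiff_smulWeil hx hm hf
    rwa [sub_add_cancel_left] at this
  haveI := finiteDimensional_weilSpace hx (-B)
  haveI : FiniteDimensional K ↥R₁ := Submodule.finiteDimensional_of_le hR₁le
  haveI : FiniteDimensional K ↥R₂ := Submodule.finiteDimensional_of_le hR₂le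
  have hfr₁ : Module.finrank K ↥R₁ = ell (D + B) :=
    ((riemannRochSpace (D + B)).equivMapOfInjective _
      (smulWeilHom_injective hx h0)).finrank_eq.symm
  have hfr₂ : Module.finrank K ↥R₂ = ell (D' + B) :=
    ((riemannRochSpace (D' + B)).equivMapOfInjective _
      (smulWeilHom_injective hx hmu)).finrank_eq.symm
  have hfrΩ : (Module.finrank K ↥(weilSpace (-B)) : ℤ) = n - 1 + genusR K F := by
    rw [finrank_weilSpace, finrank_adeleH1_of_degree_neg hx (by rw [map_neg, hdegB]; omega),
      map_neg, hdegB]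
    ring
  have hineq : Module.finrank K ↥(weilSpace (-B)) < Module.finrank K ↥R₁ + Module.finrank K ↥R₂ := by
    have h1 := riemann_inequality hx (D + B)
    have h2 := riemann_inequality hx (D' + B)
    rw [map_add, hdegB] at h1 h2
    have : (Module.finrank K ↥(weilSpace (-B)) : ℤ)
        < (Module.finrank K ↥R₁ : ℤ) + (Module.finrank K ↥R₂ : ℤ) := by
      rw [hfrΩ, hfr₁, hfr₂]
      linarith
    exact_mod_cast this
  -- the intersection is nontrivial
  have hinf : R₁ ⊓ R₂ ≠ ⊥ := by
    intro hbot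
    have h1 := Submodule.finrank_sup_add_finrank_inf_eq R₁ R₂
    rw [hbot, finrank_bot, add_zero] at h1
    have h2 : Module.finrank K ↥(R₁ ⊔ R₂) ≤ Module.finrank K ↥(weilSpace (-B)) :=
      Submodule.finrank_mono (sup_le hR₁le hR₂le)
    omega
  obtain ⟨ω, hω, hω0⟩ := Submodule.exists_mem_ne_zero_of_ne_bot hinf
  obtain ⟨⟨f, -, hfω⟩, ⟨h, -, hhω⟩⟩ := Submodule.mem_inf.mp hω
  rw [smulWeilHom_apply] at hfω hhω
  have hh0 : h ≠ 0 := by
    rintro rfl
    rw [smulWeil_zero] at hhω
    exact hω0 hhω.symm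
  refine ⟨f * h⁻¹, ?_⟩
  rw [smulWeil_mul, hfω, ← hhω, ← smulWeil_mul, mul_inv_cancel₀ hh0, smulWeil_one]

theorem WeilAux.ell_zero {x : F} (hx : IsFunctionFieldGen K F x) :
    ell (0 : Divisor K F) = 1 := by
  rw [ell, riemannRochSpace_zero hx,
    LinearMap.finrank_range_of_inj (FaithfulSMul.algebraMap_injective K F), Module.finrank_self]

section Canonical

variable {x : F} (hx : IsFunctionFieldGen K F x) {lam : ↥(adeleAll K F) →ₗ[K] K}
  {W : Divisor K F} (h0 : lam ≠ 0)
  (hW : ∀ f : F, f ≠ 0 → ∀ D : Divisor K F,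
    IsWeilDiff (smulWeil hx f lam) D ↔ D ≤ W + divOf hx f)

include h0 hW

open WeilAux in
/-- `f ∈ L(W - D)` iff `f • lam` has level `D` -/
theorem WeilAux.mem_riemannRochSpace_sub_iff (D : Divisor K F) (f : F) :
    f ∈ riemannRochSpace (W - D) ↔ IsWeilDiff (smulWeil hx f lam) D := by
  by_cases hf : f = 0
  · rw [hf, smulWeil_zero]
    exact ⟨fun _ α _ => rfl, fun _ => Submodule.zero_mem _⟩
  rw [hW f hf D, mem_riemannRochSpace_iff, Finsupp.le_def]
  refine forall_congr' fun v => ?_
  rw [or_iff_right hf, Finsupp.add_apply, divOf_apply hx hf, Finsupp.sub_apply]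
  constructor <;> intro h <;> omega

open WeilAux in
/-- RR-W2: **duality** `i(D) = ℓ(W - D)` -/
theorem finrank_adeleH1_eq_ell (D : Divisor K F) :
    Module.finrank K (AdeleH1 D) = ell (W - D) := by
  have hmem := WeilAux.mem_riemannRochSpace_sub_iff hx h0 hW
  -- `lam` itself has some level
  have hl : IsWeilDiff lam (W + divOf hx 1) := by
    have := (hW 1 one_ne_zero (W + divOf hx 1)).mpr le_rfl
    rwa [smulWeil_one] at this
  let φ : ↥(riemannRochSpace (W - D)) →ₗ[K] ↥(weilSpace D) :=
    (smulWeilHom hx lam).restrict (p := riemannRochSpace (W - D)) (q := weilSpace D)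
      (fun f hf => by
        rw [mem_weilSpace, smulWeilHom_apply]
        exact (hmem D f).mp hf)
  have hinj : Function.Injective φ := by
    intro f g hfg
    apply Subtype.ext
    apply smulWeilHom_injective hx h0
    exact congrArg Subtype.val hfg
  have hsurj : Function.Surjective φ := by
    rintro ⟨mu, hmu⟩
    rw [mem_weilSpace] at hmu
    obtain ⟨f, rfl⟩ := exists_smulWeil_eq hx hl hmu h0
    exact ⟨⟨f, (hmem D f).mpr hmu⟩, Subtype.ext rfl⟩
  rw [← finrank_weilSpace, ell]
  exact (LinearEquiv.ofBijective φ ⟨hinj, hsurj⟩).finrank_eq.symm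

/-- **Riemann-Roch** -/
theorem riemannRoch (D : Divisor K F) :
    (ell D : ℤ) = Divisor.degree D + 1 - genusR K F + ell (W - D) := by
  have h1 := riemannRoch_H1 hx D
  rw [finrank_adeleH1_eq_ell hx h0 hW D] at h1
  linarith

theorem ell_canonical : ell W = genusR K F := by
  have h1 := riemannRoch hx h0 hW (0 : Divisor K F)
  rw [WeilAux.ell_zero hx, map_zero, sub_zero] at h1
  have : (ell W : ℤ) = genusR K F := by push_cast at h1; linarith
  exact_mod_cast this

theorem degree_canonical_weil : Divisor.degree W = 2 * (genusR K F : ℤ) - 2 := by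
  have h1 := riemannRoch hx h0 hW W
  rw [sub_self, WeilAux.ell_zero hx, ell_canonical hx h0 hW] at h1
  push_cast at h1
  linarith

end Canonical

end Fermat.Agent.Curve
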