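/-
P1b (S20/S21/S23), dictionary, algebraic half (helper5): consequences of regularity of a
differential `h dx` for an arbitrary `ℤᵐ⁰`-valued valuation `w` of the function field which is
trivial on constants.  Statements agreed with helper2 (msg 152).
-/
import Mathlib
import Fermat.Agent.Lib.Curve.RiemannRoch
import Fermat.Agent.Lib.Curve.PlaceOfValuation

set_option autoImplicit false

namespace Fermat.Agent.Curve

open AlgebraicCurve KaehlerDifferential WithZero PlaceAux

variable {K F : Type*} [Field K] [Field F] [Algebra K F] [IsAlgClosed K] [CharZero K]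
variable {x : F} (hx : IsFunctionFieldGen K F x)
variable (w : Valuation F ℤᵐ⁰) (hK : ∀ c : K, w (algebraMap K F c) ≤ 1)

omit [IsAlgClosed K] [CharZero K] in
include hx in
theorem gen_sub_const_ne_zero (c : K) : x - algebraMap K F c ≠ 0 := by
  intro h
  exact hx.not_mem_range ⟨c, (sub_eq_zero.mp h).symm⟩

include hx in
theorem D_gen_ne_zero : D K F x ≠ 0 := by
  obtain ⟨v⟩ := exists_place hx
  exact D_ne_zero_of_place hx v hx.not_mem_range

include hK in
/-- **(A)** if `h dx` is regular and `w (x - c) < 1` then `w (h (x - c)) < 1` -/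
theorem valuation_mul_sub_lt_one_of_regular {h : F}
    (hreg : h • D K F x ∈ regularDifferentials hx) (c : K)
    (hc : w (x - algebraMap K F c) < 1) : w (h * (x - algebraMap K F c)) < 1 := by
  by_cases hh : h = 0
  · rw [hh, zero_mul, map_zero]
    exact zero_lt_one
  have hxc := gen_sub_const_ne_zero hx c
  have hnt : ∃ y : F, y ≠ 0 ∧ w y ≠ 1 := ⟨_, hxc, ne_of_lt hc⟩
  set P := placeOfValuation w hK hnt with hP
  have hn : 0 < P.ord (x - algebraMap K F c) :=
    (placeOfValuation_ord_pos_iff w hK hnt _ hxc).mpr hc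
  have h1 : 0 ≤ P.ordDifferential (h • D K F x) := hreg P
  rw [ordDifferential_smul' hx P hh (D_gen_ne_zero hx), ordDifferential_D_of_pos hx P x c hn] at h1
  have hne : h * (x - algebraMap K F c) ≠ 0 := mul_ne_zero hh hxc
  rw [← placeOfValuation_ord_pos_iff w hK hnt _ hne, P.ord_mul hh hxc]
  omega

include hK in
/-- **(A')** if `h dx` is regular and `w x > 1` then `w (h x) < 1` -/
theorem valuation_mul_lt_one_of_regular_of_pole {h : F}
    (hreg : h • D K F x ∈ regularDifferentials hx) (hpole : 1 < w x) : w (h * x) < 1 := by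
  by_cases hh : h = 0
  · rw [hh, zero_mul, map_zero]
    exact zero_lt_one
  have hx0 : x ≠ 0 := by
    intro h0
    rw [h0, map_zero] at hpole
    exact absurd hpole (not_lt.mpr zero_le_one)
  have hnt : ∃ y : F, y ≠ 0 ∧ w y ≠ 1 := ⟨x, hx0, ne_of_gt hpole⟩
  set P := placeOfValuation w hK hnt with hP
  have hinv : w x⁻¹ < 1 := by
    rw [map_inv₀]
    exact inv_lt_one_of_one_lt₀ hpole
  have hn' : 0 < P.ord x⁻¹ :=
    (placeOfValuation_ord_pos_iff w hK hnt _ (inv_ne_zero hx0)).mpr hinv
  have hn : P.ord x < 0 := by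
    rw [P.ord_inv] at hn'
    omega
  have h1 : 0 ≤ P.ordDifferential (h • D K F x) := hreg P
  rw [ordDifferential_smul' hx P hh (D_gen_ne_zero hx), ordDifferential_D_of_neg hx P x hn] at h1
  have hne : h * x ≠ 0 := mul_ne_zero hh hx0
  rw [← placeOfValuation_ord_pos_iff w hK hnt _ hne, P.ord_mul hh hx0]
  omega

omit [CharZero K] in
include hx hK in
/-- **(B)** a valuation which is trivial on `K[x] ∖ {0}` is trivial on `F` -/
theorem valuation_eq_one_of_forall_aeval
    (htriv : ∀ P : Polynomial K, P ≠ 0 → w (Polynomial.aeval x P) = 1) :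
    ∀ y : F, y ≠ 0 → w y = 1 := by
  intro y hy
  by_contra hne
  have hnt : ∃ y : F, y ≠ 0 ∧ w y ≠ 1 := ⟨y, hy, hne⟩
  set P := placeOfValuation w hK hnt with hP
  have hX : w x = 1 := by
    have := htriv Polynomial.X Polynomial.X_ne_zero
    rwa [Polynomial.aeval_X] at this
  have hxmem : x ∈ P.toValuationSubring := by
    rw [hP, mem_placeOfValuation_iff]
    exact hX.le
  obtain ⟨c, hc⟩ := exists_const_ordGE_one hx P hxmem
  have hxc := gen_sub_const_ne_zero hx c
  rw [ordGE_iff] at hc
  rcases hc with hc | hc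
  · exact hxc hc
  · have hpos : 0 < P.ord (x - algebraMap K F c) := by omega
    have hlt := (placeOfValuation_ord_pos_iff w hK hnt _ hxc).mp hpos
    have h1 := htriv (Polynomial.X - Polynomial.C c) (Polynomial.X_sub_C_ne_zero c)
    rw [map_sub, Polynomial.aeval_X, Polynomial.aeval_C] at h1
    rw [h1] at hlt
    exact lt_irrefl _ hlt

include hx in
/-- **(C)** the coefficient of a regular differential with respect to `dx` -/
theorem exists_coeff_regularDifferentials :
    ∃ L : ↥(regularDifferentials hx) →ₗ[K] F, Function.Injective L ∧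
      ∀ ω, (L ω) • D K F x = (ω : Ω[F⁄K]) := by
  have hspan := span_D_eq_top hx hx.not_mem_range
  have hD := D_gen_ne_zero hx
  let e : F ≃ₗ[F] Ω[F⁄K] :=
    (LinearEquiv.toSpanNonzeroSingleton F _ (D K F x) hD).trans
      ((LinearEquiv.ofEq _ _ hspan).trans Submodule.topEquiv)
  have he : ∀ f : F, e f = f • D K F x := fun f => rfl
  refine ⟨(e.symm.restrictScalars K).toLinearMap ∘ₗ (regularDifferentials hx).subtype, ?_, ?_⟩
  · intro ω ω' h
    apply Subtype.ext
    exact e.symm.injective h
  · intro ω
    rw [← he]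
    exact e.apply_symm_apply _

end Fermat.Agent.Curve
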